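import Mathlib

/-!
# Project I / MIN : even/odd decomposition of power series

Every power series `f` in the variables `X s` (`s : σ`, `σ` finite) is, in a unique way,
`f = ∑_I X^I * expand 2 (f_I)` (`I` running over the subsets of `σ`): the power series ring is free of
rank `2 ^ |σ|` over its subring of power series in the squares of the variables.
-/

set_option autoImplicit false

namespace Fermat.Agent.S59lib.Min

open MvPowerSeries Finsupp

variable {σ : Type*} [Fintype σ] [DecidableEq σ] {R : Type*} [CommRing R]

/-- the exponent `1_I` -/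
noncomputable def ind (I : Finset σ) : σ →₀ ℕ :=
  Finsupp.equivFunOnFinite.symm fun s => if s ∈ I then 1 else 0

theorem ind_apply (I : Finset σ) (s : σ) : ind I s = if s ∈ I then 1 else 0 := rfl

/-- the set of odd exponents -/
def oddSet (m : σ →₀ ℕ) : Finset σ := Finset.univ.filter fun s => m s % 2 = 1

theorem mem_oddSet (m : σ →₀ ℕ) (s : σ) : s ∈ oddSet m ↔ m s % 2 = 1 := by
  simp [oddSet]

/-- the half of an exponent -/
noncomputable def half (m : σ →₀ ℕ) : σ →₀ ℕ := m.mapRange (fun n => n / 2) rfl

theorem half_apply (m : σ →₀ ℕ) (s : σ) : half m s = m s / 2 := rfl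

theorem two_smul_half_add_ind (m : σ →₀ ℕ) : 2 • half m + ind (oddSet m) = m := by
  ext s
  rw [Finsupp.add_apply, Finsupp.smul_apply, half_apply, ind_apply, smul_eq_mul]
  by_cases h : s ∈ oddSet m
  · rw [if_pos h]
    rw [mem_oddSet] at h
    omega
  · rw [if_neg h]
    rw [mem_oddSet] at h
    omega

theorem oddSet_two_smul_add_ind (m : σ →₀ ℕ) (I : Finset σ) : oddSet (2 • m + ind I) = I := by
  ext s
  rw [mem_oddSet, Finsupp.add_apply, Finsupp.smul_apply, ind_apply, smul_eq_mul]
  by_cases h : s ∈ I
  · rw [if_pos h]
    simp only [h, iff_true]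
    omega
  · rw [if_neg h]
    simp only [h, iff_false]
    omega

theorem half_two_smul_add_ind (m : σ →₀ ℕ) (I : Finset σ) : half (2 • m + ind I) = m := by
  ext s
  rw [half_apply, Finsupp.add_apply, Finsupp.smul_apply, ind_apply, smul_eq_mul]
  by_cases h : s ∈ I
  · rw [if_pos h]; omega
  · rw [if_neg h]; omega

/-- the `I`-th component of a power series -/
noncomputable def comp (f : MvPowerSeries σ R) (I : Finset σ) : MvPowerSeries σ R :=
  fun m => coeff (2 • m + ind I) f

theorem coeff_comp (f : MvPowerSeries σ R) (I : Finset σ) (m : σ →₀ ℕ) :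
    coeff m (comp f I) = coeff (2 • m + ind I) f := rfl

/-- the coefficients of `X^I * expand 2 g` -/
theorem coeff_monomial_ind_mul_expand (I : Finset σ) (g : MvPowerSeries σ R) (m : σ →₀ ℕ) :
    coeff m (monomial (ind I) (1 : R) * expand 2 two_ne_zero g) =
      if oddSet m = I then coeff (half m) g else 0 := by
  rw [coeff_monomial_mul, one_mul]
  by_cases hI : oddSet m = I
  · rw [if_pos hI]
    have hm : m = 2 • half m + ind I := by rw [← hI]; exact (two_smul_half_add_ind m).symm
    have hle : ind I ≤ m := by
      rw [hm]
      exact le_add_self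
    rw [if_pos hle]
    have hsub : m - ind I = 2 • half m := by
      conv_lhs => rw [hm]
      exact add_tsub_cancel_right _ _
    rw [hsub, coeff_expand_smul]
  · rw [if_neg hI]
    by_cases hle : ind I ≤ m
    · rw [if_pos hle]
      -- some exponent of `m - ind I` is odd
      have hex : ∃ s, ¬ 2 ∣ (m - ind I) s := by
        by_contra hall
        push Not at hall
        apply hI
        ext s
        rw [mem_oddSet]
        have h1 := hall s
        have h2 := hle s
        rw [Finsupp.tsub_apply, ind_apply] at h1
        rw [ind_apply] at h2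
        by_cases hs : s ∈ I
        · rw [if_pos hs] at h1 h2
          simp only [hs, iff_true]
          omega
        · rw [if_neg hs] at h1
          simp only [hs, iff_false]
          omega
      obtain ⟨s, hs⟩ := hex
      exact coeff_expand_of_not_dvd 2 two_ne_zero g hs
    · rw [if_neg hle]

/-- **Existence** of the even/odd decomposition. -/
theorem sum_monomial_ind_mul_expand_comp (f : MvPowerSeries σ R) :
    ∑ I : Finset σ, monomial (ind I) (1 : R) * expand 2 two_ne_zero (comp f I) = f := by
  ext m
  rw [map_sum]
  simp only [coeff_monomial_ind_mul_expand]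
  rw [Finset.sum_ite_eq Finset.univ (oddSet m), if_pos (Finset.mem_univ _), coeff_comp,
    two_smul_half_add_ind]

/-- **Uniqueness** of the even/odd decomposition. -/
theorem comp_sum_monomial_ind_mul_expand (g : Finset σ → MvPowerSeries σ R) (I : Finset σ) :
    comp (∑ J : Finset σ, monomial (ind J) (1 : R) * expand 2 two_ne_zero (g J)) I = g I := by
  ext m
  rw [coeff_comp, map_sum]
  simp only [coeff_monomial_ind_mul_expand, oddSet_two_smul_add_ind, half_two_smul_add_ind]
  rw [Finset.sum_ite_eq Finset.univ I, if_pos (Finset.mem_univ _)]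

theorem eq_zero_of_sum_monomial_ind_mul_expand_eq_zero (g : Finset σ → MvPowerSeries σ R)
    (h : ∑ J : Finset σ, monomial (ind J) (1 : R) * expand 2 two_ne_zero (g J) = 0) (I : Finset σ) :
    g I = 0 := by
  rw [← comp_sum_monomial_ind_mul_expand g I, h]
  rfl

/-- `X^I` as a product of variables -/
theorem monomial_ind_eq_prod (I : Finset σ) :
    monomial (ind I) (1 : R) = ∏ s ∈ I, (X s : MvPowerSeries σ R) := by
  classical
  induction I using Finset.induction_on with
  | empty =>
    rw [Finset.prod_empty]
    have : ind (∅ : Finset σ) = 0 := by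
      ext s
      simp [ind_apply]
    rw [this]
    rfl
  | insert a I ha ih =>
    have hind : ind (insert a I) = Finsupp.single a 1 + ind I := by
      ext s
      rw [Finsupp.add_apply, ind_apply, ind_apply, Finsupp.single_apply]
      by_cases hs : a = s
      · subst hs
        simp [ha]
      · by_cases hsI : s ∈ I
        · simp [hs, hsI, Finset.mem_insert]
        · simp [hs, hsI, Finset.mem_insert, Ne.symm hs]
    rw [Finset.prod_insert ha, ← ih, X, monomial_mul_monomial, one_mul, hind]

end Fermat.Agent.S59lib.Min
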