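import Mathlib
import Fermat.Agent.S59lib.Min.Sq
import Fermat.Agent.Helper9.GlDim
import Fermat.Agent.Helper9.PowerSeriesReg
import Fermat.Agent.TeamA.MvPS

/-!
# Project I / MIN : the symmetry lemma

`N` a module over a commutative ring `C`, `ζ ω : 𝒪⟦X₁,…,X_r⟧ → C` two `𝒪`-algebra maps such that

* `N` is free of finite rank over `𝒪⟦X⟧` through `ζ`,
* `ζ (f(X²))` and `ω (f(X²))` act in the same way on `N`,
* `ω(X_i) N ⊆ (ζ X_1, …, ζ X_r) N`.

Then `N` is free (of the same rank) over `𝒪⟦X⟧` through `ω` and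
`(ζ X_1, …, ζ X_r) N = (ω X_1, …, ω X_r) N`.
-/

set_option autoImplicit false
set_option linter.unusedSectionVars false
set_option linter.style.haveILetI false

namespace Fermat.Agent.S59lib.Min

open MvPowerSeries IsLocalRing RingTheory.Sequence Fermat.Agent.Helper9

/-! ### a module through a ring homomorphism -/

section Via

variable {A C : Type} [CommRing A] [CommRing C]

/-- `N` as an `A`-module through `f : A →+* C`. -/
def Via (_f : A →+* C) (N : Type) : Type := N

variable (f : A →+* C) (N : Type) [AddCommGroup N] [Module C N]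

instance : AddCommGroup (Via f N) := inferInstanceAs (AddCommGroup N)

instance : Module A (Via f N) := Module.compHom N f

variable {N}

/-- the identity `N → Via f N` -/
def Via.of (x : N) : Via f N := x

/-- the identity `Via f N → N` -/
def Via.out (x : Via f N) : N := x

variable {f}

theorem Via.smul_def (a : A) (x : Via f N) : a • x = Via.of f (f a • Via.out f x) := rfl

theorem Via.out_smul (a : A) (x : Via f N) : Via.out f (a • x) = f a • Via.out f x := rfl

theorem Via.out_sum {ι : Type*} (s : Finset ι) (g : ι → Via f N) :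
    Via.out f (∑ i ∈ s, g i) = ∑ i ∈ s, Via.out f (g i) := rfl

theorem Via.out_of (x : N) : Via.out f (Via.of f x) = x := rfl

theorem Via.of_out (x : Via f N) : Via.of f (Via.out f x) = x := rfl

theorem Via.out_add (x y : Via f N) : Via.out f (x + y) = Via.out f x + Via.out f y := rfl

theorem Via.out_zero : Via.out f (0 : Via f N) = 0 := rfl

theorem Via.out_injective : Function.Injective (Via.out f : Via f N → N) := fun _ _ h => h

end Via

/-! ### coordinates -/

section Coord

variable {A C : Type} [CommRing A] [CommRing C] {N : Type} [AddCommGroup N] [Module C N]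
  {ι : Type} [Fintype ι]

/-- `b` is a basis of `N` over `A` through `f`. -/
def IsBasisVia (f : A →+* C) (b : ι → N) : Prop :=
  ∀ x : N, ∃! c : ι → A, x = ∑ j, f (c j) • b j

variable {f : A →+* C} {b : ι → N}

theorem IsBasisVia.eq_zero (h : IsBasisVia f b) {c : ι → A} (hc : ∑ j, f (c j) • b j = 0) :
    c = 0 := by
  obtain ⟨c₀, -, huniq⟩ := h 0
  rw [huniq c hc.symm, huniq 0 (by simp)]

theorem IsBasisVia.ext (h : IsBasisVia f b) {c c' : ι → A}
    (hc : ∑ j, f (c j) • b j = ∑ j, f (c' j) • b j) : c = c' := by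
  have : c - c' = 0 := by
    apply h.eq_zero
    simp only [Pi.sub_apply, map_sub, sub_smul, Finset.sum_sub_distrib, hc, sub_self]
  exact sub_eq_zero.mp this

/-- the linear combination map -/
noncomputable def lcVia (f : A →+* C) (b : ι → N) : (ι → A) →ₗ[A] Via f N :=
  Fintype.linearCombination A fun j => Via.of f (b j)

theorem out_lcVia (c : ι → A) : Via.out f (lcVia f b c) = ∑ j, f (c j) • b j := by
  unfold lcVia
  rw [Fintype.linearCombination_apply, Via.out_sum]
  rfl

theorem lcVia_bijective (h : IsBasisVia f b) : Function.Bijective (lcVia f b) := by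
  constructor
  · rw [injective_iff_map_eq_zero]
    intro c hc
    apply h.eq_zero
    rw [← out_lcVia, hc]
    rfl
  · intro x
    obtain ⟨c, hc, -⟩ := h (Via.out f x)
    refine ⟨c, Via.out_injective ?_⟩
    rw [out_lcVia, ← hc]

/-- the basis attached to coordinates -/
noncomputable def IsBasisVia.basis (h : IsBasisVia f b) : Module.Basis ι A (Via f N) :=
  Module.Basis.ofEquivFun (LinearEquiv.ofBijective (lcVia f b) (lcVia_bijective h)).symm

theorem isBasisVia_of_basis (β : Module.Basis ι A (Via f N)) :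
    IsBasisVia f (fun j => Via.out f (β j)) := by
  intro x
  refine ⟨fun j => β.repr (Via.of f x) j, ?_, ?_⟩
  · have h1 := β.sum_repr (Via.of f x)
    have h2 := congrArg (Via.out f) h1
    rw [Via.out_sum] at h2
    exact h2.symm
  · intro c hc
    have h1 : Via.of f x = ∑ j, c j • β j := by
      apply Via.out_injective
      rw [Via.out_sum]
      exact hc
    rw [h1]
    ext j
    rw [β.repr_sum_self]

end Coord

/-! ### the tower `𝒪⟦X²⟧ ⊆ 𝒪⟦X⟧` -/

section Tower

variable {σ : Type} [Fintype σ] [DecidableEq σ] {R : Type} [CommRing R] {C : Type} [CommRing C]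
  {N : Type} [AddCommGroup N] [Module C N] {ι : Type} [Fintype ι]

/-- the squaring map -/
noncomputable abbrev sqHom (σ : Type) (R : Type) [CommRing R] :
    MvPowerSeries σ R →+* MvPowerSeries σ R :=
  (expand 2 two_ne_zero : MvPowerSeries σ R →ₐ[R] MvPowerSeries σ R)

/-- the monomial `X^I` -/
noncomputable abbrev xI (R : Type) [CommRing R] (I : Finset σ) : MvPowerSeries σ R :=
  monomial (ind I) (1 : R)

theorem IsBasisVia.tower {f : MvPowerSeries σ R →+* C} {b : ι → N} (h : IsBasisVia f b) :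
    IsBasisVia (f.comp (sqHom σ R)) (fun p : Finset σ × ι => f (xI R p.1) • b p.2) := by
  intro x
  obtain ⟨c, hc, -⟩ := h x
  have key : ∀ g : Finset σ × ι → MvPowerSeries σ R,
      ∑ p : Finset σ × ι, (f.comp (sqHom σ R)) (g p) • (f (xI R p.1) • b p.2) =
        ∑ j, f (∑ I : Finset σ, xI R I * sqHom σ R (g (I, j))) • b j := by
    intro g
    rw [Fintype.sum_prod_type, Finset.sum_comm]
    refine Finset.sum_congr rfl fun j _ => ?_
    rw [map_sum, Finset.sum_smul]
    refine Finset.sum_congr rfl fun I _ => ?_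
    rw [map_mul, mul_smul, RingHom.comp_apply, smul_comm]
  refine ⟨fun p => comp (c p.2) p.1, ?_, ?_⟩
  · show x = ∑ p : Finset σ × ι, (f.comp (sqHom σ R)) (comp (c p.2) p.1) • (f (xI R p.1) • b p.2)
    rw [key, hc]
    refine Finset.sum_congr rfl fun j _ => ?_
    congr 2
    exact (sum_monomial_ind_mul_expand_comp (c j)).symm
  · intro g hg
    replace hg : x = ∑ p : Finset σ × ι, (f.comp (sqHom σ R)) (g p) • (f (xI R p.1) • b p.2) := hg
    rw [key] at hg
    have h1 := h.ext (hc.symm.trans hg)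
    funext p
    obtain ⟨I, j⟩ := p
    have h2 := congrFun h1 j
    show g (I, j) = comp (c j) I
    rw [h2]
    exact (comp_sum_monomial_ind_mul_expand (fun J => g (J, j)) I).symm

end Tower

/-! ### freeness through `ω` -/

section Free

variable {𝒪 : Type} [CommRing 𝒪] [IsDomain 𝒪] [IsDiscreteValuationRing 𝒪]
  {r : ℕ} {C : Type} [CommRing C] {N : Type} [AddCommGroup N] [Module C N]
  {κ : Type} [Fintype κ]

/-- If `N` has a finite basis over `𝒪⟦X⟧` through `g`, and `ω (f(X²))` acts as `g f`, then `N` is finite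
and free over `𝒪⟦X⟧` through `ω`. -/
theorem free_via_of_sq (g ω : MvPowerSeries (Fin r) 𝒪 →+* C)
    (y : κ → N) (hy : IsBasisVia g y)
    (hsq : ∀ (f : MvPowerSeries (Fin r) 𝒪) (x : N), g f • x = ω (sqHom (Fin r) 𝒪 f) • x) :
    Module.Finite (MvPowerSeries (Fin r) 𝒪) (Via ω N) ∧
      Module.Free (MvPowerSeries (Fin r) 𝒪) (Via ω N) := by
  classical
  obtain ⟨ϖ, hϖ⟩ := IsDiscreteValuationRing.exists_irreducible 𝒪
  have hmaxO : maximalIdeal 𝒪 = Ideal.span {ϖ} := hϖ.maximalIdeal_eq
  have hregO : IsSMulRegular 𝒪 ϖ := (IsRegular.of_ne_zero hϖ.ne_zero).left.isSMulRegular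
  have hreg : IsWeaklyRegular (MvPowerSeries (Fin r) 𝒪) (MvPS.gens r ϖ) :=
    MvPS.isWeaklyRegular_gens r hregO
  have hmax : maximalIdeal (MvPowerSeries (Fin r) 𝒪) = Ideal.ofList (MvPS.gens r ϖ) :=
    MvPS.maximalIdeal_eq_ofList_gens r hmaxO
  -- finiteness
  have hfin : Module.Finite (MvPowerSeries (Fin r) 𝒪) (Via ω N) := by
    refine ⟨⟨Finset.univ.image fun p => Via.of ω (y p), ?_⟩⟩
    rw [_root_.eq_top_iff]
    intro x _
    obtain ⟨c, hc, -⟩ := hy (Via.out ω x)
    have hx : x = ∑ p, sqHom (Fin r) 𝒪 (c p) • Via.of ω (y p) := by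
      apply Via.out_injective
      rw [Via.out_sum, hc]
      refine Finset.sum_congr rfl fun p _ => ?_
      rw [Via.out_smul, Via.out_of, hsq]
    rw [hx]
    exact Submodule.sum_mem _ fun p _ => Submodule.smul_mem _ _ (Submodule.subset_span (by simp))
  refine ⟨hfin, ?_⟩
  -- the regular sequence on `S^κ`
  have hreg1 : IsWeaklyRegular (κ → MvPowerSeries (Fin r) 𝒪) (MvPS.gens r ϖ) :=
    ((TensorProduct.rid (MvPowerSeries (Fin r) 𝒪) (κ → MvPowerSeries (Fin r) 𝒪)).isWeaklyRegular_congr
      _).mp (hreg.isWeaklyRegular_lTensor (M₂ := κ → MvPowerSeries (Fin r) 𝒪))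
  -- the parametrisation
  let e : (κ → MvPowerSeries (Fin r) 𝒪) ≃+ Via ω N :=
    (LinearEquiv.ofBijective (lcVia g y) (lcVia_bijective hy)).toAddEquiv
  have he : ∀ c, Via.out ω (e c) = ∑ p, g (c p) • y p := fun c => out_lcVia c
  have hsmul : ∀ (a : MvPowerSeries (Fin r) 𝒪) (c : κ → MvPowerSeries (Fin r) 𝒪),
      e (a • c) = sqHom (Fin r) 𝒪 a • e c := by
    intro a c
    apply Via.out_injective
    rw [Via.out_smul, ← hsq, he, he, Finset.smul_sum]
    refine Finset.sum_congr rfl fun p _ => ?_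
    rw [Pi.smul_apply, smul_eq_mul, map_mul, mul_smul]
  have hreg2 : IsWeaklyRegular (Via ω N) ((MvPS.gens r ϖ).map (sqHom (Fin r) 𝒪)) :=
    (e.isWeaklyRegular_congr (List.forall₂_map_right_iff.mpr
      (List.forall₂_same.mpr fun a _ c => hsmul a c))).mp hreg1
  have hmem : ∀ z ∈ (MvPS.gens r ϖ).map (sqHom (Fin r) 𝒪),
      z ∈ maximalIdeal (MvPowerSeries (Fin r) 𝒪) := by
    intro z hz
    rw [List.mem_map] at hz
    obtain ⟨a, ha, rfl⟩ := hz
    have ha' : a ∈ maximalIdeal (MvPowerSeries (Fin r) 𝒪) := by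
      rw [hmax]
      exact Ideal.subset_span ha
    rw [Fermat.Agent.TeamA.mem_maximalIdeal_mvPowerSeries_iff] at ha' ⊢
    have : constantCoeff (sqHom (Fin r) 𝒪 a) = constantCoeff a := constantCoeff_expand 2 two_ne_zero a
    rw [this]
    exact ha'
  exact free_of_isWeaklyRegular_of_length_eq (MvPS.gens r ϖ) hreg hmax (Via ω N)
    ((MvPS.gens r ϖ).map (sqHom (Fin r) 𝒪)) (by simp) hreg2 hmem

end Free

/-! ### the ideal of the variables -/

section VarIdeal

/-- Membership in `(a_1,…,a_k) M`. -/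
theorem mem_span_range_smul_top_iff' {R : Type*} [CommRing R] {M : Type*} [AddCommGroup M]
    [Module R M] {κ : Type*} [Fintype κ] (a : κ → R) (x : M) :
    x ∈ (Ideal.span (Set.range a) • (⊤ : Submodule R M)) ↔ ∃ y : κ → M, x = ∑ i, a i • y i := by
  constructor
  · intro hx
    refine Submodule.smul_induction_on hx ?_ ?_
    · intro r hr n _
      obtain ⟨c, rfl⟩ := (Ideal.mem_span_range_iff_exists_fun).mp hr
      refine ⟨fun i => c i • n, ?_⟩
      rw [Finset.sum_smul]
      refine Finset.sum_congr rfl fun i _ => ?_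
      rw [mul_comm, mul_smul]
    · rintro x y ⟨u, rfl⟩ ⟨w, rfl⟩
      refine ⟨fun i => u i + w i, ?_⟩
      rw [← Finset.sum_add_distrib]
      refine Finset.sum_congr rfl fun i _ => ?_
      rw [smul_add]
  · rintro ⟨y, rfl⟩
    refine Submodule.sum_mem _ fun i _ => ?_
    exact Submodule.smul_mem_smul (Ideal.subset_span ⟨i, rfl⟩) Submodule.mem_top

variable {𝒪 : Type} [CommRing 𝒪] {r : ℕ} {B : Type} [CommRing B] {N : Type} [AddCommGroup N]
  [Module B N] {ι : Type} [Fintype ι]

/-- the coordinates modulo the variables -/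
noncomputable def redCoord (f : MvPowerSeries (Fin r) 𝒪 →+* B)
    (β : Module.Basis ι (MvPowerSeries (Fin r) 𝒪) (Via f N)) (x : N) : ι → 𝒪 :=
  fun i => constantCoeff (β.repr (Via.of f x) i)

theorem redCoord_add (f : MvPowerSeries (Fin r) 𝒪 →+* B)
    (β : Module.Basis ι (MvPowerSeries (Fin r) 𝒪) (Via f N)) (x y : N) :
    redCoord f β (x + y) = redCoord f β x + redCoord f β y := by
  funext i
  unfold redCoord
  have : Via.of f (x + y) = Via.of f x + Via.of f y := rfl
  rw [this, map_add, Finsupp.add_apply, map_add, Pi.add_apply]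

theorem redCoord_sub (f : MvPowerSeries (Fin r) 𝒪 →+* B)
    (β : Module.Basis ι (MvPowerSeries (Fin r) 𝒪) (Via f N)) (x y : N) :
    redCoord f β (x - y) = redCoord f β x - redCoord f β y := by
  have h := redCoord_add f β (x - y) y
  rw [sub_add_cancel] at h
  rw [h, add_sub_cancel_right]

theorem redCoord_smul (f : MvPowerSeries (Fin r) 𝒪 →+* B)
    (β : Module.Basis ι (MvPowerSeries (Fin r) 𝒪) (Via f N)) (a : MvPowerSeries (Fin r) 𝒪) (x : N) :
    redCoord f β (f a • x) = constantCoeff a • redCoord f β x := by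
  funext i
  unfold redCoord
  have : Via.of f (f a • x) = a • Via.of f x := rfl
  rw [this, map_smul, Finsupp.smul_apply, smul_eq_mul, map_mul, Pi.smul_apply, smul_eq_mul]

theorem redCoord_sum_C (f : MvPowerSeries (Fin r) 𝒪 →+* B)
    (β : Module.Basis ι (MvPowerSeries (Fin r) 𝒪) (Via f N)) (y : ι → 𝒪) :
    redCoord f β (∑ i, f (C (y i)) • Via.out f (β i)) = y := by
  classical
  funext j
  unfold redCoord
  have : Via.of f (∑ i, f (C (y i)) • Via.out f (β i)) =
      ∑ i, (C (y i) : MvPowerSeries (Fin r) 𝒪) • β i := rfl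
  rw [this, β.repr_sum_self, constantCoeff_C]

/-- `x ∈ (f X_1, …, f X_r) N` iff the coordinates of `x` have no constant terms. -/
theorem mem_span_X_smul_top_iff (f : MvPowerSeries (Fin r) 𝒪 →+* B)
    (β : Module.Basis ι (MvPowerSeries (Fin r) 𝒪) (Via f N)) (x : N) :
    x ∈ Ideal.span (Set.range fun j : Fin r => f (X j)) • (⊤ : Submodule B N) ↔
      redCoord f β x = 0 := by
  rw [mem_span_range_smul_top_iff']
  constructor
  · rintro ⟨y, rfl⟩
    have hsum : ∀ (s : Finset (Fin r)),
        redCoord f β (∑ j ∈ s, f (X j) • y j) = 0 := by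
      intro s
      induction s using Finset.induction_on with
      | empty =>
        rw [Finset.sum_empty]
        have h := redCoord_add f β 0 0
        rw [add_zero] at h
        exact left_eq_add.mp h
      | insert a s ha ih =>
        rw [Finset.sum_insert ha, redCoord_add, ih, add_zero, redCoord_smul, constantCoeff_X,
          zero_smul]
    exact hsum Finset.univ
  · intro h
    have hc : ∀ i, β.repr (Via.of f x) i ∈ Fermat.Agent.TeamA.varIdeal (Fin r) 𝒪 := by
      intro i
      have h1 := Fermat.Agent.TeamA.sub_C_constantCoeff_mem_varIdeal (Fin r) 𝒪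
        (β.repr (Via.of f x) i)
      have h2 : constantCoeff (β.repr (Via.of f x) i) = 0 := congrFun h i
      rwa [h2, map_zero, sub_zero] at h1
    choose q hq using fun i => (Ideal.mem_span_range_iff_exists_fun).mp (hc i)
    refine ⟨fun j => ∑ i, f (q i j) • Via.out f (β i), ?_⟩
    have h1 := congrArg (Via.out f) (β.sum_repr (Via.of f x))
    rw [Via.out_sum] at h1
    rw [← Via.out_of (f := f) x, ← h1]
    simp only [Via.out_smul, Finset.smul_sum]
    rw [Finset.sum_comm]
    refine Finset.sum_congr rfl fun i _ => ?_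
    rw [← hq i, map_sum, Finset.sum_smul]
    refine Finset.sum_congr rfl fun j _ => ?_
    rw [map_mul, mul_smul, smul_comm]

end VarIdeal

/-! ### the symmetry lemma -/

section Main

variable {𝒪 : Type} [CommRing 𝒪] [IsDomain 𝒪] [IsDiscreteValuationRing 𝒪]
  {r : ℕ} {B : Type} [CommRing B] [Algebra 𝒪 B] {N : Type} [AddCommGroup N] [Module B N]
  {ι : Type} [Fintype ι]

/-- **The symmetry lemma.** -/
theorem sym_main (ζ ω : MvPowerSeries (Fin r) 𝒪 →ₐ[𝒪] B) (b : ι → N)
    (hb : IsBasisVia (ζ : MvPowerSeries (Fin r) 𝒪 →+* B) b)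
    (hsq : ∀ (f : MvPowerSeries (Fin r) 𝒪) (x : N),
      ζ (sqHom (Fin r) 𝒪 f) • x = ω (sqHom (Fin r) 𝒪 f) • x)
    (hmem : ∀ (i : Fin r) (x : N), ω (X i) • x ∈
      Ideal.span (Set.range fun j : Fin r => ζ (X j)) • (⊤ : Submodule B N)) :
    Module.Finite (MvPowerSeries (Fin r) 𝒪) (Via (ω : MvPowerSeries (Fin r) 𝒪 →+* B) N) ∧
    Module.Free (MvPowerSeries (Fin r) 𝒪) (Via (ω : MvPowerSeries (Fin r) 𝒪 →+* B) N) ∧
    Ideal.span (Set.range fun j : Fin r => ζ (X j)) • (⊤ : Submodule B N) =
      Ideal.span (Set.range fun j : Fin r => ω (X j)) • (⊤ : Submodule B N) := by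
  classical
  set ζ' : MvPowerSeries (Fin r) 𝒪 →+* B := (ζ : MvPowerSeries (Fin r) 𝒪 →+* B) with hζ'
  set ω' : MvPowerSeries (Fin r) 𝒪 →+* B := (ω : MvPowerSeries (Fin r) 𝒪 →+* B) with hω'
  have hb2 := hb.tower
  obtain ⟨hfin, hfree⟩ := free_via_of_sq (ζ'.comp (sqHom (Fin r) 𝒪)) ω' _ hb2
    (fun f x => hsq f x)
  refine ⟨hfin, hfree, ?_⟩
  haveI := hfin
  haveI := hfree
  -- a basis through `ω`
  let β := Module.Free.chooseBasis (MvPowerSeries (Fin r) 𝒪) (Via ω' N)
  have hβ := isBasisVia_of_basis β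
  have hβ2 := hβ.tower
  -- the two bases over `𝒪⟦X²⟧`
  let B1 := hb2.basis
  let B2 := hβ2.basis
  let e12 : Via (ζ'.comp (sqHom (Fin r) 𝒪)) N ≃ₗ[MvPowerSeries (Fin r) 𝒪]
      Via (ω'.comp (sqHom (Fin r) 𝒪)) N :=
    { toFun := fun x => Via.of _ (Via.out _ x)
      map_add' := fun _ _ => rfl
      map_smul' := fun a x => by
        apply Via.out_injective
        show ζ (sqHom (Fin r) 𝒪 a) • Via.out _ x = ω (sqHom (Fin r) 𝒪 a) • Via.out _ x
        exact hsq a _
      invFun := fun x => Via.of _ (Via.out _ x)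
      left_inv := fun _ => rfl
      right_inv := fun _ => rfl }
  have hcard : Fintype.card (Finset (Fin r) × ι) =
      Fintype.card (Finset (Fin r) ×
        Module.Free.ChooseBasisIndex (MvPowerSeries (Fin r) 𝒪) (Via ω' N)) :=
    Fintype.card_congr ((B1.map e12).indexEquiv B2)
  have hcard' : Fintype.card ι =
      Fintype.card (Module.Free.ChooseBasisIndex (MvPowerSeries (Fin r) 𝒪) (Via ω' N)) := by
    rw [Fintype.card_prod, Fintype.card_prod] at hcard
    exact Nat.eq_of_mul_eq_mul_left Fintype.card_pos hcard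
  let ε : ι ≃ Module.Free.ChooseBasisIndex (MvPowerSeries (Fin r) 𝒪) (Via ω' N) :=
    Fintype.equivOfCardEq hcard'
  -- the two reductions
  let B0 := hb.basis
  have hU : ∀ x : N, x ∈ Ideal.span (Set.range fun j : Fin r => ζ (X j)) • (⊤ : Submodule B N) ↔
      redCoord ζ' B0 x = 0 := mem_span_X_smul_top_iff (N := N) ζ' B0
  have hW : ∀ x : N, x ∈ Ideal.span (Set.range fun j : Fin r => ω (X j)) • (⊤ : Submodule B N) ↔
      redCoord ω' β x = 0 := mem_span_X_smul_top_iff (N := N) ω' β
  -- `W ≤ U`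
  have hWU : Ideal.span (Set.range fun j : Fin r => ω (X j)) • (⊤ : Submodule B N) ≤
      Ideal.span (Set.range fun j : Fin r => ζ (X j)) • (⊤ : Submodule B N) := by
    intro x hx
    rw [mem_span_range_smul_top_iff'] at hx
    obtain ⟨y, rfl⟩ := hx
    exact Submodule.sum_mem _ fun i _ => hmem i (y i)
  -- the section of the reduction through `ω`
  let sec : (Module.Free.ChooseBasisIndex (MvPowerSeries (Fin r) 𝒪) (Via ω' N) → 𝒪) → N :=
    fun y => ∑ i, ω' (C (y i)) • Via.out ω' (β i)
  have hsec : ∀ y, redCoord ω' β (sec y) = y := fun y => redCoord_sum_C ω' β y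
  have hC : ∀ a : 𝒪, ω' (C a) = ζ' (C a) := by
    intro a
    show ω (C a) = ζ (C a)
    rw [c_eq_algebraMap, AlgHom.commutes, AlgHom.commutes]
  -- the comparison map
  let g : (ι → 𝒪) →ₗ[𝒪] (ι → 𝒪) :=
    { toFun := fun y => redCoord ζ' B0 (sec (y ∘ ε.symm))
      map_add' := fun y y' => by
        have : sec ((y + y') ∘ ε.symm) = sec (y ∘ ε.symm) + sec (y' ∘ ε.symm) := by
          show ∑ i, _ = ∑ i, _ + ∑ i, _
          rw [← Finset.sum_add_distrib]
          refine Finset.sum_congr rfl fun i _ => ?_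
          rw [Function.comp_apply, Pi.add_apply, map_add, map_add, add_smul]
          rfl
        rw [this, redCoord_add]
      map_smul' := fun a y => by
        have : sec ((a • y) ∘ ε.symm) = ζ' (C a) • sec (y ∘ ε.symm) := by
          show ∑ i, _ = _ • ∑ i, _
          rw [Finset.smul_sum]
          refine Finset.sum_congr rfl fun i _ => ?_
          rw [Function.comp_apply, Pi.smul_apply, smul_eq_mul, map_mul, map_mul, mul_smul, hC]
          rfl
        rw [this, redCoord_smul, constantCoeff_C]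
        rfl }
  -- `redCoord ζ = g ∘ redCoord ω`
  have hfac : ∀ x : N, redCoord ζ' B0 x = g ((redCoord ω' β x) ∘ ε) := by
    intro x
    show _ = redCoord ζ' B0 (sec ((redCoord ω' β x ∘ ε) ∘ ε.symm))
    have h1 : (redCoord ω' β x ∘ ε) ∘ ε.symm = redCoord ω' β x := by
      funext i
      simp
    rw [h1]
    have h2 : x - sec (redCoord ω' β x) ∈
        Ideal.span (Set.range fun j : Fin r => ζ (X j)) • (⊤ : Submodule B N) := by
      apply hWU
      rw [hW, redCoord_sub, hsec, sub_self]
    rw [hU, redCoord_sub, sub_eq_zero] at h2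
    exact h2
  have hgsurj : Function.Surjective g := by
    intro y
    refine ⟨(redCoord ω' β (∑ i, ζ' (C (y i)) • Via.out ζ' (B0 i))) ∘ ε, ?_⟩
    rw [← hfac, redCoord_sum_C]
  have hginj : Function.Injective g := OrzechProperty.injective_of_surjective_endomorphism g hgsurj
  apply le_antisymm _ hWU
  intro x hx
  rw [hU, hfac] at hx
  have h0 : redCoord ω' β x ∘ ε = 0 := by
    apply hginj
    rw [hx, map_zero]
  rw [hW]
  funext i
  have := congrFun h0 (ε.symm i)
  simpa using this

end Main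

end Fermat.Agent.S59lib.Min
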