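import Mathlib
import Fermat.Agent.TeamA.MvPS
import Fermat.Agent.S43lib.Patch.Defs
import Fermat.Agent.S43lib.Patch.Mod.Ext
import Fermat.Agent.S43lib.Patch.Mod.Cayley
import Fermat.Agent.S59lib.Min.Sym

/-!
# Project I / MIN : the level data of minimal Taylor–Wiles patching

`MinLevel p γ0 φ0 M0 d n` = what the two sides deliver at a set `Q_n` of `r` Taylor–Wiles primes
(`q ≡ 1 mod p^n`), in abstract form:

* `RΔ = 𝒪[Δ_Q]`, abstractly (as in Project H's `ModLevel`);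
* a complete local `𝒪`-algebra `B` (the Hecke algebra) with `ι : RΔ → B`, acting on `M` (`= M_Q`),
  FREE of rank `d` over `RΔ`;
* the Galois side: `γ : 𝒪⟦x_1..x_r⟧ → B` (the composite `𝒪⟦x⟧ ↠ R_Q → B`), compatible with ONE fixed
  presentation `γ0 : 𝒪⟦x⟧ ↠ R_∅` (`compat`), and elements `w i` of the maximal ideal of `𝒪⟦x⟧`,
  in the kernel of `γ0`, whose squares act as the squares of the Cayley coordinates of the diamonds
  (`w i` lifts the Cayley coordinate of the character by which inertia at `q_i` acts on a Frobenius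
  eigenline of the universal deformation; only the TRACE identity at `q_i` is used);
* CONTROL: `v : M → M0` surjective with kernel `(δ_i − 1) M`, equivariant for `e₀ : B → T0`.

`MinLevel.patchLevel` : the attached patching level over `𝒪⟦x, z⟧` (`z_i` = Cayley coordinates of the
diamonds), with `S = 𝒪⟦z⟧`.
-/

set_option autoImplicit false
set_option linter.unusedSectionVars false
set_option linter.style.haveILetI false

namespace Fermat.Agent.S59lib.Min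

open IsLocalRing MvPowerSeries Fermat.Agent.TeamA Fermat.Agent.S43lib Fermat.Agent.S43lib.Patch.Mod

section General

/-- In a local ring with `p ∈ 𝔪`, an element with `w ^ (p ^ a) = 1` is `≡ 1 mod 𝔪`. -/
theorem sub_one_mem_of_pow_p_pow_eq_one' {S : Type*} [CommRing S] [IsLocalRing S] {p : ℕ}
    (hp : p.Prime) (hpS : (p : S) ∈ maximalIdeal S) {w : S} {a : ℕ} (hw : w ^ p ^ a = 1) :
    w - 1 ∈ maximalIdeal S := by
  haveI : Fact p.Prime := ⟨hp⟩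
  have h0 : ((p : ℕ) : ResidueField S) = 0 := by
    have : residue S ((p : ℕ) : S) = 0 := (residue_eq_zero_iff _).mpr hpS
    rwa [map_natCast] at this
  haveI : CharP (ResidueField S) p := (CharP.charP_iff_prime_eq_zero hp).2 h0
  have h1 : (residue S w - 1) ^ p ^ a = 0 := by
    rw [sub_pow_char_pow, one_pow, ← map_pow, hw, map_one, sub_self]
  have h2 : residue S w - 1 = 0 := (pow_eq_zero_iff (pow_ne_zero a hp.ne_zero)).mp h1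
  rw [← residue_eq_zero_iff, map_sub, map_one]
  exact h2

/-- In a local ring where `2` is a unit, `w ≡ 1 mod 𝔪` ⇒ `w + 1` is a unit. -/
theorem isUnit_add_one_of_sub_one_mem' {S : Type*} [CommRing S] [IsLocalRing S]
    (h2 : IsUnit (2 : S)) {w : S} (hw : w - 1 ∈ maximalIdeal S) : IsUnit (w + 1) := by
  by_contra hcon
  have hm : w + 1 ∈ maximalIdeal S := (mem_maximalIdeal _).mpr hcon
  have h3 := Ideal.sub_mem _ hm hw
  have e : w + 1 - (w - 1) = 2 := by ring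
  rw [e] at h3
  exact ((mem_maximalIdeal _).mp h3) h2

end General

/-- The output of the two sides at a set of `r` Taylor–Wiles primes of depth `n`. -/
structure MinLevel {𝒪 : Type} [CommRing 𝒪] [IsLocalRing 𝒪] (p : ℕ) {r : ℕ}
    {R0 : Type} [CommRing R0] [Algebra 𝒪 R0] (γ0 : MvPowerSeries (Fin r) 𝒪 →ₐ[𝒪] R0)
    {T0 : Type} [CommRing T0] [Algebra 𝒪 T0] (φ0 : R0 →ₐ[𝒪] T0)
    (M0 : Type) [AddCommGroup M0] [Module T0 M0] (d : ℕ) (n : ℕ) : Type 1 where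
  /-- the exponents of the diamond groups -/
  a : Fin r → ℕ
  hna : ∀ i, n ≤ a i + 1
  /-- the group ring `𝒪[Δ_Q]` -/
  RΔ : Type
  [instCommRingRΔ : CommRing RΔ]
  [instIsLocalRingRΔ : IsLocalRing RΔ]
  [instIsAdicCompleteRΔ : IsAdicComplete (maximalIdeal RΔ) RΔ]
  [instAlgebraRΔ : Algebra 𝒪 RΔ]
  RΔ_local : ∀ x ∈ maximalIdeal 𝒪, algebraMap 𝒪 RΔ x ∈ maximalIdeal RΔ
  δ : Fin r → RΔˣ
  δ_pow : ∀ i, (δ i : RΔ) ^ p ^ a i = 1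
  δ_gen : Algebra.adjoin 𝒪 (Set.range fun i => (δ i : RΔ)) = ⊤
  lift : ∀ (C : Type) [CommRing C] [Algebra 𝒪 C] (u : Fin r → C),
    (∀ i, u i ^ p ^ a i = 1) → ∃ ψ : RΔ →ₐ[𝒪] C, ∀ i, ψ (δ i) = u i
  /-- the Hecke algebra `𝕋_Q` -/
  B : Type
  [instCommRingB : CommRing B]
  [instIsLocalRingB : IsLocalRing B]
  [instIsAdicCompleteB : IsAdicComplete (maximalIdeal B) B]
  [instAlgebraB : Algebra 𝒪 B]
  ι : RΔ →ₐ[𝒪] B
  ι_local : ∀ x ∈ maximalIdeal RΔ, ι x ∈ maximalIdeal B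
  /-- the Hecke module `M_Q` -/
  M : Type
  [instAddCommGroupM : AddCommGroup M]
  [instModuleM : Module B M]
  b : Fin d → M
  free : ∀ x : M, ∃! c : Fin d → RΔ, x = ∑ j, ι (c j) • b j
  /-- the Galois side -/
  γ : MvPowerSeries (Fin r) 𝒪 →ₐ[𝒪] B
  γ_mem : ∀ i, γ (X i) ∈ maximalIdeal B
  w : Fin r → MvPowerSeries (Fin r) 𝒪
  w_mem : ∀ i, w i ∈ maximalIdeal (MvPowerSeries (Fin r) 𝒪)
  w_ker : ∀ i, γ0 (w i) = 0
  w_sq : ∀ i, γ (w i) ^ 2 * (ι (δ i) + 1) ^ 2 = (ι (δ i) - 1) ^ 2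
  /-- CONTROL -/
  e₀ : B →ₐ[𝒪] T0
  v : M →+ M0
  v_smul : ∀ (t : B) (x : M), v (t • x) = e₀ t • v x
  v_surjective : Function.Surjective v
  ker_v : ∀ x : M, v x = 0 ↔
    x ∈ (Ideal.span (Set.range fun i => ι (δ i) - 1)) • (⊤ : Submodule B M)
  compat : ∀ f : MvPowerSeries (Fin r) 𝒪, e₀ (γ f) = φ0 (γ0 f)

attribute [instance] MinLevel.instCommRingRΔ MinLevel.instIsLocalRingRΔ
  MinLevel.instIsAdicCompleteRΔ MinLevel.instAlgebraRΔ MinLevel.instCommRingB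
  MinLevel.instIsLocalRingB MinLevel.instIsAdicCompleteB MinLevel.instAlgebraB
  MinLevel.instAddCommGroupM MinLevel.instModuleM

namespace MinLevel

variable {𝒪 : Type} [CommRing 𝒪] [IsLocalRing 𝒪] {p : ℕ} {r : ℕ}
  {R0 : Type} [CommRing R0] [Algebra 𝒪 R0] {γ0 : MvPowerSeries (Fin r) 𝒪 →ₐ[𝒪] R0}
  {T0 : Type} [CommRing T0] [Algebra 𝒪 T0] {φ0 : R0 →ₐ[𝒪] T0}
  {M0 : Type} [AddCommGroup M0] [Module T0 M0] {d n : ℕ}
  (Lv : MinLevel p γ0 φ0 M0 d n) (hp : p.Prime) (hp𝒪 : (p : 𝒪) ∈ maximalIdeal 𝒪)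
  (h2 : IsUnit (2 : 𝒪))

/-- the big power series ring `𝒪⟦x, z⟧` -/
local notation "PB" => MvPowerSeries (Fin r ⊕ Fin r) 𝒪

include h2 in
theorem isUnit_two_RΔ : IsUnit (2 : Lv.RΔ) := by
  have := h2.map (algebraMap 𝒪 Lv.RΔ)
  rwa [map_ofNat] at this

include hp𝒪 in
theorem p_mem_RΔ : ((p : ℕ) : Lv.RΔ) ∈ maximalIdeal Lv.RΔ := by
  have := Lv.RΔ_local _ hp𝒪
  rwa [map_natCast] at this

include hp hp𝒪 in
theorem δ_sub_one_mem (i : Fin r) : (Lv.δ i : Lv.RΔ) - 1 ∈ maximalIdeal Lv.RΔ :=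
  sub_one_mem_of_pow_p_pow_eq_one' hp (Lv.p_mem_RΔ hp𝒪) (Lv.δ_pow i)

include hp hp𝒪 h2 in
theorem isUnit_δ_add_one (i : Fin r) : IsUnit ((Lv.δ i : Lv.RΔ) + 1) :=
  isUnit_add_one_of_sub_one_mem' (Lv.isUnit_two_RΔ h2) (Lv.δ_sub_one_mem hp hp𝒪 i)

/-- The Cayley coordinate `z_i = (δ_i − 1)/(δ_i + 1)`. -/
noncomputable def z (i : Fin r) : Lv.RΔ :=
  ((Lv.δ i : Lv.RΔ) - 1) * ((((Lv.isUnit_δ_add_one hp hp𝒪 h2 i).unit)⁻¹ : Lv.RΔˣ) : Lv.RΔ)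

theorem z_mul (i : Fin r) :
    Lv.z hp hp𝒪 h2 i * ((Lv.δ i : Lv.RΔ) + 1) = (Lv.δ i : Lv.RΔ) - 1 := by
  unfold z
  rw [mul_assoc]
  have : ((((Lv.isUnit_δ_add_one hp hp𝒪 h2 i).unit)⁻¹ : Lv.RΔˣ) : Lv.RΔ) *
      ((Lv.δ i : Lv.RΔ) + 1) = 1 := by
    have := (Lv.isUnit_δ_add_one hp hp𝒪 h2 i).unit.inv_mul
    rwa [IsUnit.unit_spec] at this
  rw [this, mul_one]

theorem z_mem (i : Fin r) : Lv.z hp hp𝒪 h2 i ∈ maximalIdeal Lv.RΔ :=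
  Ideal.mul_mem_right _ _ (Lv.δ_sub_one_mem hp hp𝒪 i)

/-- The Cayley presentation `𝒪⟦z⟧ → RΔ`. -/
noncomputable def κ₀ : MvPowerSeries (Fin r) 𝒪 →ₐ[𝒪] Lv.RΔ :=
  evalPS (R := 𝒪) (Lv.z hp hp𝒪 h2) (Lv.z_mem hp hp𝒪 h2)

theorem κ₀_X (i : Fin r) : Lv.κ₀ hp hp𝒪 h2 (X i) = Lv.z hp hp𝒪 h2 i := evalPS_X _ _ i

theorem κ₀_uS (i : Fin r) : Lv.κ₀ hp hp𝒪 h2 (uS i) = Lv.δ i :=
  evalPS_uS Lv.δ (Lv.z hp hp𝒪 h2) (Lv.z_mul hp hp𝒪 h2) (Lv.z_mem hp hp𝒪 h2) i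
    (Lv.isUnit_δ_add_one hp hp𝒪 h2 i)

theorem κ₀_surjective : Function.Surjective (Lv.κ₀ hp hp𝒪 h2) := by
  rw [← AlgHom.range_eq_top, eq_top_iff, ← Lv.δ_gen]
  refine Algebra.adjoin_le ?_
  rintro _ ⟨i, rfl⟩
  exact ⟨uS i, Lv.κ₀_uS hp hp𝒪 h2 i⟩

/-- The kernel of the Cayley presentation lies in `𝔪^n`. -/
theorem ker_κ₀_le (f : MvPowerSeries (Fin r) 𝒪) (hf : Lv.κ₀ hp hp𝒪 h2 f = 0) :
    f ∈ maximalIdeal (MvPowerSeries (Fin r) 𝒪) ^ n :=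
  ker_cayley_le hp𝒪 h2 Lv.δ Lv.a (Lv.z hp hp𝒪 h2) (Lv.z_mul hp hp𝒪 h2) (Lv.z_mem hp hp𝒪 h2)
    (fun C _ _ u hu => Lv.lift C u hu) n Lv.hna f hf

/-- The images of the variables of `𝒪⟦x, z⟧` in `B`. -/
noncomputable def evVar : Fin r ⊕ Fin r → Lv.B :=
  Sum.elim (fun i => Lv.γ (X i)) (fun i => Lv.ι (Lv.z hp hp𝒪 h2 i))

theorem evVar_mem (s : Fin r ⊕ Fin r) : Lv.evVar hp hp𝒪 h2 s ∈ maximalIdeal Lv.B := by
  rcases s with i | i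
  · exact Lv.γ_mem i
  · exact Lv.ι_local _ (Lv.z_mem hp hp𝒪 h2 i)

/-- The evaluation `𝒪⟦x, z⟧ → B`. -/
noncomputable def ev : PB →ₐ[𝒪] Lv.B :=
  evalPS (R := 𝒪) (Lv.evVar hp hp𝒪 h2) (Lv.evVar_mem hp hp𝒪 h2)

theorem ev_X_inl (i : Fin r) : Lv.ev hp hp𝒪 h2 (X (Sum.inl i) : PB) = Lv.γ (X i) :=
  evalPS_X _ _ _

theorem ev_X_inr (i : Fin r) :
    Lv.ev hp hp𝒪 h2 (X (Sum.inr i) : PB) = Lv.ι (Lv.z hp hp𝒪 h2 i) :=
  evalPS_X _ _ _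

/-- `ev ∘ (𝒪⟦z⟧ ↪ 𝒪⟦x, z⟧) = ι ∘ κ₀`. -/
theorem ev_rename_inr (f : MvPowerSeries (Fin r) 𝒪) :
    Lv.ev hp hp𝒪 h2 (rename Sum.inr f : PB) = Lv.ι (Lv.κ₀ hp hp𝒪 h2 f) := by
  have h : ((Lv.ev hp hp𝒪 h2).comp (rename Sum.inr :
      MvPowerSeries (Fin r) 𝒪 →ₐ[𝒪] PB)) = Lv.ι.comp (Lv.κ₀ hp hp𝒪 h2) := by
    refine algHom_ext_of_local _ _ ?_ ?_
    · intro i
      rw [AlgHom.comp_apply, rename_X, ev_X_inr]
      exact Lv.ι_local _ (Lv.z_mem hp hp𝒪 h2 i)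
    · intro i
      rw [AlgHom.comp_apply, rename_X, ev_X_inr, AlgHom.comp_apply, κ₀_X]
  exact congrArg (fun φ => φ f) h

/-- `ev ∘ (𝒪⟦x⟧ ↪ 𝒪⟦x, z⟧) = γ`. -/
theorem ev_rename_inl (f : MvPowerSeries (Fin r) 𝒪) :
    Lv.ev hp hp𝒪 h2 (rename Sum.inl f : PB) = Lv.γ f := by
  have h : ((Lv.ev hp hp𝒪 h2).comp (rename Sum.inl :
      MvPowerSeries (Fin r) 𝒪 →ₐ[𝒪] PB)) = Lv.γ := by
    refine algHom_ext_of_local _ _ ?_ ?_
    · intro i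
      rw [AlgHom.comp_apply, rename_X, ev_X_inl]
      exact Lv.γ_mem i
    · intro i
      rw [AlgHom.comp_apply, rename_X, ev_X_inl]
  exact congrArg (fun φ => φ f) h

/-- `M` as a module over `𝒪⟦x, z⟧` through `ev`. -/
def PM (_Lv : MinLevel p γ0 φ0 M0 d n) : Type := _Lv.M

noncomputable instance : AddCommGroup Lv.PM := inferInstanceAs (AddCommGroup Lv.M)

/-- The identity `M → PM`. -/
def PM.of (x : Lv.M) : Lv.PM := x

/-- The identity `PM → M`. -/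
def PM.out (x : Lv.PM) : Lv.M := x

/-- the module structure through `ev` -/
@[reducible] noncomputable def pmModule : Module PB Lv.PM :=
  Module.compHom Lv.M (Lv.ev hp hp𝒪 h2 : PB →+* Lv.B)

theorem b_span' (x : Lv.M) : ∃ c : Fin d → MvPowerSeries (Fin r) 𝒪,
    x = ∑ j, Lv.ι (Lv.κ₀ hp hp𝒪 h2 (c j)) • Lv.b j := by
  obtain ⟨c, hc, -⟩ := Lv.free x
  choose c' hc' using fun j => Lv.κ₀_surjective hp hp𝒪 h2 (c j)
  exact ⟨c', by simp only [hc']; exact hc⟩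

theorem b_rel' (c : Fin d → MvPowerSeries (Fin r) 𝒪)
    (h : ∑ j, Lv.ι (Lv.κ₀ hp hp𝒪 h2 (c j)) • Lv.b j = 0) (j : Fin d) :
    c j ∈ maximalIdeal (MvPowerSeries (Fin r) 𝒪) ^ n := by
  obtain ⟨c₀, -, huniq⟩ := Lv.free 0
  have h1 : (fun j => Lv.κ₀ hp hp𝒪 h2 (c j)) = c₀ := huniq _ h.symm
  have h2' : (fun _ => (0 : Lv.RΔ)) = c₀ := huniq _ (by simp)
  have h3 : Lv.κ₀ hp hp𝒪 h2 (c j) = 0 := by
    have := congrFun (h1.trans h2'.symm) j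
    exact this
  exact Lv.ker_κ₀_le hp hp𝒪 h2 _ h3

theorem ι_δ_sub_one (i : Fin r) :
    Lv.ι (Lv.δ i) - 1 = Lv.ι (Lv.z hp hp𝒪 h2 i) * Lv.ι ((Lv.δ i : Lv.RΔ) + 1) := by
  rw [← map_mul, Lv.z_mul, map_sub, map_one]

theorem ι_z (i : Fin r) :
    Lv.ι (Lv.z hp hp𝒪 h2 i) = (Lv.ι (Lv.δ i) - 1) *
      Lv.ι ((((Lv.isUnit_δ_add_one hp hp𝒪 h2 i).unit)⁻¹ : Lv.RΔˣ) : Lv.RΔ) := by
  unfold z
  rw [map_mul, map_sub, map_one]

theorem ker_v' (x : Lv.M) :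
    Lv.v x = 0 ↔ ∃ y : Fin r → Lv.M, x = ∑ i, Lv.ι (Lv.z hp hp𝒪 h2 i) • y i := by
  rw [Lv.ker_v, mem_span_range_smul_top_iff']
  constructor
  · rintro ⟨y, rfl⟩
    refine ⟨fun i => Lv.ι ((Lv.δ i : Lv.RΔ) + 1) • y i, ?_⟩
    refine Finset.sum_congr rfl fun i _ => ?_
    rw [Lv.ι_δ_sub_one hp hp𝒪 h2, mul_smul]
  · rintro ⟨y, rfl⟩
    refine ⟨fun i => Lv.ι ((((Lv.isUnit_δ_add_one hp hp𝒪 h2 i).unit)⁻¹ : Lv.RΔˣ) : Lv.RΔ) • y i, ?_⟩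
    refine Finset.sum_congr rfl fun i _ => ?_
    rw [Lv.ι_z hp hp𝒪 h2, mul_smul]

/-- the square of the Cayley coordinate is the square of `w` -/
theorem γ_w_sq (i : Fin r) : Lv.γ (Lv.w i) ^ 2 = Lv.ι (Lv.z hp hp𝒪 h2 i) ^ 2 := by
  have hu : IsUnit (Lv.ι ((Lv.δ i : Lv.RΔ) + 1) ^ 2) :=
    ((Lv.isUnit_δ_add_one hp hp𝒪 h2 i).map Lv.ι).pow 2
  apply hu.mul_left_injective
  have h1 := Lv.w_sq i
  have h3 : Lv.ι ((Lv.δ i : Lv.RΔ) + 1) = Lv.ι (Lv.δ i) + 1 := by rw [map_add, map_one]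
  show Lv.γ (Lv.w i) ^ 2 * Lv.ι ((Lv.δ i : Lv.RΔ) + 1) ^ 2 =
    Lv.ι (Lv.z hp hp𝒪 h2 i) ^ 2 * Lv.ι ((Lv.δ i : Lv.RΔ) + 1) ^ 2
  rw [← mul_pow (Lv.ι (Lv.z hp hp𝒪 h2 i)), ← map_mul, Lv.z_mul, h3, h1, map_sub, map_one]

theorem pm_smul_def (f : PB) (x : Lv.PM) :
    letI := Lv.pmModule hp hp𝒪 h2
    f • x = PM.of Lv (Lv.ev hp hp𝒪 h2 f • PM.out Lv x) := rfl

theorem PM.of_sum {κ : Type*} (t : Finset κ) (f : κ → Lv.M) :
    PM.of Lv (∑ i ∈ t, f i) = ∑ i ∈ t, PM.of Lv (f i) := rfl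

theorem PM.out_sum {κ : Type*} (t : Finset κ) (f : κ → Lv.PM) :
    PM.out Lv (∑ i ∈ t, f i) = ∑ i ∈ t, PM.out Lv (f i) := rfl

theorem PM.of_out (x : Lv.PM) : PM.of Lv (PM.out Lv x) = x := rfl

theorem PM.out_of (x : Lv.M) : PM.out Lv (PM.of Lv x) = x := rfl

theorem pm_smul_rename_inr (f : MvPowerSeries (Fin r) 𝒪) (x : Lv.PM) :
    letI := Lv.pmModule hp hp𝒪 h2
    (rename Sum.inr f : PB) • x =
      PM.of Lv (Lv.ι (Lv.κ₀ hp hp𝒪 h2 f) • PM.out Lv x) := by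
  rw [pm_smul_def, ev_rename_inr]

theorem pm_smul_rename_inl (f : MvPowerSeries (Fin r) 𝒪) (x : Lv.PM) :
    letI := Lv.pmModule hp hp𝒪 h2
    (rename Sum.inl f : PB) • x = PM.of Lv (Lv.γ f • PM.out Lv x) := by
  rw [pm_smul_def, ev_rename_inl]

/-- **The patching level attached to a `MinLevel`** (over `𝒪⟦x, z⟧`, with `S = 𝒪⟦z⟧`). -/
noncomputable def patchLevel : Patch.PatchLevel 𝒪 r d PB T0 M0 n :=
  letI := Lv.pmModule hp hp𝒪 h2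
  { s := rename Sum.inr
    s_X_mem := fun i => by
      rw [rename_X, mem_maximalIdeal_mvPowerSeries_iff, constantCoeff_X]
      exact zero_mem _
    M := Lv.PM
    b := fun j => PM.of Lv (Lv.b j)
    b_span := fun x => by
      obtain ⟨c, hc⟩ := Lv.b_span' hp hp𝒪 h2 (PM.out Lv x)
      refine ⟨c, ?_⟩
      simp only [pm_smul_rename_inr, PM.out_of]
      rw [← PM.of_sum, ← hc, PM.of_out]
    b_rel := fun c hc j => by
      refine Lv.b_rel' hp hp𝒪 h2 c ?_ j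
      simp only [pm_smul_rename_inr, PM.out_of] at hc
      rw [← PM.of_sum] at hc
      exact hc
    e := Lv.e₀.comp (Lv.ev hp hp𝒪 h2)
    v := Lv.v
    v_smul := fun f x => by
      rw [pm_smul_def]
      exact Lv.v_smul (Lv.ev hp hp𝒪 h2 f) (PM.out Lv x)
    v_surjective := Lv.v_surjective
    ker_v := fun x => by
      rw [mem_span_range_smul_top_iff']
      have h := Lv.ker_v' hp hp𝒪 h2 (PM.out Lv x)
      refine h.trans ?_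
      constructor
      · rintro ⟨y, hy⟩
        refine ⟨fun i => PM.of Lv (y i), ?_⟩
        simp only [rename_X, pm_smul_def, ev_X_inr, PM.out_of]
        rw [← PM.of_sum, ← hy, PM.of_out]
      · rintro ⟨y, hy⟩
        refine ⟨fun i => PM.out Lv (y i), ?_⟩
        simp only [rename_X, pm_smul_def, ev_X_inr] at hy
        rw [← PM.of_sum] at hy
        exact hy }

theorem patchLevel_s :
    (Lv.patchLevel hp hp𝒪 h2).s = (rename Sum.inr : MvPowerSeries (Fin r) 𝒪 →ₐ[𝒪] PB) := rfl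

theorem patchLevel_e :
    (Lv.patchLevel hp hp𝒪 h2).e = Lv.e₀.comp (Lv.ev hp hp𝒪 h2) := rfl

/-- at every level, `X(inr i)² − (rename inl (w i))²` kills the module -/
theorem patchLevel_kill (i : Fin r) (x : (Lv.patchLevel hp hp𝒪 h2).M) :
    ((X (Sum.inr i) : PB) ^ 2 - (rename Sum.inl (Lv.w i) : PB) ^ 2) • x = 0 := by
  show PM.of Lv (Lv.ev hp hp𝒪 h2 ((X (Sum.inr i) : PB) ^ 2 - (rename Sum.inl (Lv.w i) : PB) ^ 2) •
    PM.out Lv x) = 0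
  rw [map_sub, map_pow, map_pow, ev_X_inr, ev_rename_inl, γ_w_sq Lv hp hp𝒪 h2, sub_self, zero_smul]
  rfl

/-- at every level, `e (rename inl f) = φ0 (γ0 f)` -/
theorem patchLevel_e_rename_inl (f : MvPowerSeries (Fin r) 𝒪) :
    (Lv.patchLevel hp hp𝒪 h2).e (rename Sum.inl f : PB) = φ0 (γ0 f) := by
  rw [patchLevel_e, AlgHom.comp_apply, ev_rename_inl, Lv.compat]

end MinLevel

end Fermat.Agent.S59lib.Min
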