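import Mathlib
import Fermat.Agent.S43lib.Patch.Main

/-!
# Project I / MIN : relations which hold at all levels up to a convergent error pass to the limit

Complements to Project H's abstract patching theorem (`S43lib/Patch`):

* `PM_kill_seq` : if `rs n` kills the level `n` module and `rs n → r` along the ultrafilter, then `r`
  kills the patched module;
* `sInf_eq_of_const` : if all levels have the same `S`-structure, it is the `S`-structure of the
  patched module;
* `ulim_mem_ideal` : ideals of `P` are closed under ultralimits.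
-/

set_option autoImplicit false
set_option linter.unusedSectionVars false

namespace Fermat.Agent.S59lib.Min

open IsLocalRing MvPowerSeries Fermat.Agent.TeamA Filter Fermat.Agent.S43lib.Patch

variable {Λ : Type} [CommRing Λ] [IsLocalRing Λ] [IsNoetherianRing Λ]
  [IsAdicComplete (maximalIdeal Λ) Λ] [Finite (ResidueField Λ)] {m d : ℕ}
  {P : Type} [CommRing P] [IsLocalRing P] [IsNoetherianRing P]
  [IsAdicComplete (maximalIdeal P) P] [Finite (ResidueField P)] [Algebra Λ P]
  {T0 : Type} [CommRing T0] [Algebra Λ T0] {M0 : Type} [AddCommGroup M0] [Module T0 M0]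
  (L : ∀ n : ℕ, PatchLevel Λ m d P T0 M0 n)

local notation "𝔪S" => maximalIdeal (MvPowerSeries (Fin m) Λ)
local notation "𝔪P" => maximalIdeal P

/-- **Relations up to a convergent error pass to the patched module.** -/
theorem PM_kill_seq (rs : ℕ → P) (r : P)
    (hconv : ∀ C : ℕ, ∀ᶠ n in (𝔘 : Filter ℕ), r - rs n ∈ 𝔪P ^ C)
    (hkill : ∀ n, ∀ x : (L n).M, rs n • x = 0) (c : PM L) : r • c = 0 := by
  rw [PM_smul_def]
  show A L r c = (0 : Fin d → MvPowerSeries (Fin m) Λ)
  unfold A
  apply ulim_eq
  intro k
  filter_upwards [eventually_ge_𝔘 k, hconv ((L 0).bound k)] with n hn hn'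
  obtain ⟨c', hc', e'⟩ := (L n).exists_small_of_mem_pow k (r := r - rs n) hn' ((L n).Φ c)
  have h1 : Near 𝔪S n ((L n).act r c) c' := by
    apply (L n).near_of_Φ_eq
    rw [(L n).Φ_act, ← e', sub_smul, hkill n, sub_zero]
  have h2 : Near 𝔪S k c' 0 := by
    rw [near_pi_iff]
    intro j
    rw [Pi.zero_apply, sub_zero]
    exact hc' j
  exact (h1.mono hn).trans h2

/-- The limit of a sequence of elements of `P` converges. -/
theorem ulim_sub_mem (a : ℕ → P) (C : ℕ) :
    ∀ᶠ n in (𝔘 : Filter ℕ), ulim 𝔪P a - a n ∈ 𝔪P ^ C := by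
  filter_upwards [ulim_spec 𝔪P a C] with n hn
  have := hn.symm
  rwa [near_ring_iff] at this

/-- Ideals are closed under ultralimits. -/
theorem ulim_mem_ideal (I : Ideal P) {a : ℕ → P} (ha : ∀ n, a n ∈ I) : ulim 𝔪P a ∈ I :=
  ulim_mem_of_forall_mem (R := P) (X := P) I ha

/-- If all the levels have the same `S`-structure on the variables, so has the patched module. -/
theorem sInf_X_of_const (s₀ : Fin m → P) (h : ∀ n i, (L n).s (X i) = s₀ i) (i : Fin m) :
    sInf L (X i) = s₀ i := by
  rw [sInf_X]
  unfold σ
  simp only [h]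
  exact ulim_const 𝔪P (s₀ i)

end Fermat.Agent.S59lib.Min
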