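import Mathlib
import Fermat.Agent.S57
import Fermat.Agent.S59lib.Min.Level
import Fermat.Agent.S59lib.Min.PatchLim

/-!
# Project I / MIN : the abstract minimal `R = T` theorem from Taylor–Wiles levels

`min_abstract` : if the two sides deliver a `MinLevel` at every depth `n` (all compatible with ONE
presentation `γ0 : 𝒪⟦x_1..x_r⟧ ↠ R0` and ONE map `φ0 : R0 ↠ T0`), then `φ0` is an isomorphism,
`M0` is free over `T0`, and `ker γ0` is generated by `r` elements (`R0` is a complete intersection).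
-/

set_option autoImplicit false
set_option linter.unusedSectionVars false
set_option linter.style.haveILetI false

namespace Fermat.Agent.S59lib.Min

open IsLocalRing MvPowerSeries Fermat.Agent.TeamA Filter Fermat.Agent.S43lib
  Fermat.Agent.S43lib.Patch Fermat.Agent.S43lib.Patch.Mod

section Closed

variable {σ : Type} [Finite σ] {R A : Type} [CommRing R] [CommRing A] [IsLocalRing A]
  [IsNoetherianRing A] [Algebra R A]

/-- Two algebra maps out of a power series ring into a Noetherian local ring which agree on the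
variables modulo an ideal agree modulo that ideal (ideals are closed). -/
theorem algHom_sub_mem_of_forall_X (𝔞 : Ideal A) (ψ ψ' : MvPowerSeries σ R →ₐ[R] A)
    (hψ : ∀ s, ψ (X s) ∈ maximalIdeal A) (h : ∀ s, ψ (X s) - ψ' (X s) ∈ 𝔞)
    (f : MvPowerSeries σ R) : ψ f - ψ' f ∈ 𝔞 := by
  have hH : IsHausdorff (maximalIdeal A) (A ⧸ 𝔞) := inferInstance
  rw [← Submodule.Quotient.mk_eq_zero]
  apply hH.haus
  intro k
  rw [SModEq.zero]
  -- modulo `𝔞 ⊔ 𝔪^k` the two maps agree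
  let q := Ideal.Quotient.mkₐ R (𝔞 ⊔ maximalIdeal A ^ k)
  have hext : q.comp ψ = q.comp ψ' := by
    refine algHom_ext_of_nilpotent ((maximalIdeal A).map (Ideal.Quotient.mk (𝔞 ⊔ maximalIdeal A ^ k)))
      k ?_ _ _ ?_ ?_
    · rw [← Ideal.map_pow, Ideal.map_eq_bot_iff_le_ker, Ideal.mk_ker]
      exact le_sup_right
    · intro s
      rw [AlgHom.comp_apply]
      exact Ideal.mem_map_of_mem _ (hψ s)
    · intro s
      rw [AlgHom.comp_apply, AlgHom.comp_apply]
      show Ideal.Quotient.mk _ _ = Ideal.Quotient.mk _ _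
      rw [Ideal.Quotient.eq]
      exact Ideal.mem_sup_left (h s)
  have h1 : ψ f - ψ' f ∈ 𝔞 ⊔ maximalIdeal A ^ k := by
    have := congrArg (fun φ => φ f) hext
    simp only [AlgHom.comp_apply] at this
    rw [← Ideal.Quotient.eq]
    exact this
  obtain ⟨a, ha, m, hm, ham⟩ := Submodule.mem_sup.mp h1
  rw [← ham]
  have h2 : (Submodule.Quotient.mk (a + m) : A ⧸ 𝔞) = m • Submodule.Quotient.mk (1 : A) := by
    rw [← Submodule.Quotient.mk_smul, smul_eq_mul, mul_one, Submodule.Quotient.mk_add,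
      (Submodule.Quotient.mk_eq_zero 𝔞).mpr ha, zero_add]
  rw [h2]
  exact Submodule.smul_mem_smul hm Submodule.mem_top

end Closed

section Main

variable {𝒪 : Type} [CommRing 𝒪] [IsDomain 𝒪] [IsDiscreteValuationRing 𝒪]
  [IsAdicComplete (maximalIdeal 𝒪) 𝒪] [Finite (ResidueField 𝒪)]
  {p : ℕ} {r : ℕ}
  {R0 : Type} [CommRing R0] [Algebra 𝒪 R0] {γ0 : MvPowerSeries (Fin r) 𝒪 →ₐ[𝒪] R0}
  {T0 : Type} [CommRing T0] [Algebra 𝒪 T0] [Module.Finite 𝒪 T0] {φ0 : R0 →ₐ[𝒪] T0}
  {M0 : Type} [AddCommGroup M0] [Module 𝒪 M0] [Module T0 M0] [IsScalarTower 𝒪 T0 M0]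
  [Module.Finite 𝒪 M0] {d : ℕ}
  (Lv : ∀ n, MinLevel p γ0 φ0 M0 d n) (hp : p.Prime) (hp𝒪 : (p : 𝒪) ∈ maximalIdeal 𝒪)
  (h2 : IsUnit (2 : 𝒪))

local notation "PS" => MvPowerSeries (Fin r) 𝒪
local notation "PB" => MvPowerSeries (Fin r ⊕ Fin r) 𝒪

/-- the patching levels -/
noncomputable def lev (n : ℕ) : PatchLevel 𝒪 r d PB T0 M0 n := (Lv n).patchLevel hp hp𝒪 h2

/-- the limit of the lifts of the Cayley coordinates -/
noncomputable def Ωlim (i : Fin r) : PS := ulim (maximalIdeal PS) (fun n => (Lv n).w i)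

theorem Ωlim_mem (i : Fin r) : Ωlim Lv i ∈ maximalIdeal PS :=
  ulim_mem_ideal (maximalIdeal PS) fun n => (Lv n).w_mem i

theorem γ0_Ωlim (i : Fin r) : γ0 (Ωlim Lv i) = 0 := by
  have : Ωlim Lv i ∈ RingHom.ker (γ0 : PS →+* R0) :=
    ulim_mem_ideal (RingHom.ker (γ0 : PS →+* R0)) fun n => (Lv n).w_ker i
  exact this

/-- `𝒪⟦z⟧ → 𝒪⟦x⟧`, `z_i ↦ Ω_i` -/
noncomputable def φlim : PS →ₐ[𝒪] PS := evalPS (R := 𝒪) (Ωlim Lv) (Ωlim_mem Lv)

theorem φlim_X (i : Fin r) : φlim Lv (X i) = Ωlim Lv i := evalPS_X _ _ i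

/-- `𝒪⟦z⟧ → 𝒪⟦x, z⟧`, `z_i ↦ Ω_i(x)` -/
noncomputable def ωlim : PS →ₐ[𝒪] PB := (rename Sum.inl).comp (φlim Lv)

theorem ωlim_apply (f : PS) : ωlim Lv f = rename Sum.inl (φlim Lv f) := rfl

theorem ωlim_X (i : Fin r) : ωlim Lv (X i) = rename Sum.inl (Ωlim Lv i) := by
  rw [ωlim_apply, φlim_X]

theorem rename_mem_maximalIdeal {τ τ' : Type} [Finite τ] [Finite τ'] (g : τ → τ')
    [TendstoCofinite g] {a : MvPowerSeries τ 𝒪}
    (ha : a ∈ maximalIdeal (MvPowerSeries τ 𝒪)) :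
    rename g a ∈ maximalIdeal (MvPowerSeries τ' 𝒪) := by
  rw [mem_maximalIdeal_mvPowerSeries_iff] at ha ⊢
  rwa [constantCoeff_rename]

theorem rename_mem_maximalIdeal_pow {τ τ' : Type} [Finite τ] [Finite τ'] (g : τ → τ')
    [TendstoCofinite g] {a : MvPowerSeries τ 𝒪} {C : ℕ}
    (ha : a ∈ maximalIdeal (MvPowerSeries τ 𝒪) ^ C) :
    rename g a ∈ maximalIdeal (MvPowerSeries τ' 𝒪) ^ C := by
  have h1 : Ideal.map (rename (R := 𝒪) g) (maximalIdeal (MvPowerSeries τ 𝒪)) ≤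
      maximalIdeal (MvPowerSeries τ' 𝒪) := by
    rw [Ideal.map_le_iff_le_comap]
    intro a ha
    exact rename_mem_maximalIdeal g ha
  have h2 := Ideal.mem_map_of_mem (rename (R := 𝒪) g) ha
  rw [Ideal.map_pow] at h2
  exact Ideal.pow_right_mono h1 C h2

theorem sInf_lev_X (i : Fin r) : sInf (lev Lv hp hp𝒪 h2) (X i) = (X (Sum.inr i) : PB) :=
  sInf_X_of_const (lev Lv hp hp𝒪 h2) (fun i => (X (Sum.inr i) : PB))
    (fun n i => by
      show (rename Sum.inr : PS →ₐ[𝒪] PB) (X i) = _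
      rw [rename_X]) i

/-- the quadratic relation on the patched module -/
theorem PM_sq_kill (i : Fin r) (c : PM (lev Lv hp hp𝒪 h2)) :
    ((X (Sum.inr i) : PB) ^ 2 - (rename Sum.inl (Ωlim Lv i) : PB) ^ 2) • c = 0 := by
  refine PM_kill_seq (lev Lv hp hp𝒪 h2)
    (fun n => (X (Sum.inr i) : PB) ^ 2 - (rename Sum.inl ((Lv n).w i) : PB) ^ 2) _ ?_ ?_ c
  · intro C
    filter_upwards [ulim_sub_mem (fun n => (Lv n).w i) C] with n hn
    have h1 : (rename Sum.inl (Ωlim Lv i - (Lv n).w i) : PB) ∈ maximalIdeal PB ^ C :=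
      rename_mem_maximalIdeal_pow Sum.inl hn
    have e : ((X (Sum.inr i) : PB) ^ 2 - (rename Sum.inl (Ωlim Lv i) : PB) ^ 2) -
        ((X (Sum.inr i) : PB) ^ 2 - (rename Sum.inl ((Lv n).w i) : PB) ^ 2) =
        - ((rename Sum.inl (Ωlim Lv i - (Lv n).w i) : PB) *
          ((rename Sum.inl (Ωlim Lv i) : PB) + rename Sum.inl ((Lv n).w i))) := by
      rw [map_sub]
      ring
    rw [e]
    exact Ideal.neg_mem_iff _ |>.mpr (Ideal.mul_mem_right _ _ h1)
  · intro n x
    exact (Lv n).patchLevel_kill hp hp𝒪 h2 i x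

/-- `e_∞` on the Galois variables -/
theorem eInf_rename_inl (f : PS) :
    eInf (lev Lv hp hp𝒪 h2) (rename Sum.inl f : PB) = φ0 (γ0 f) :=
  eInf_const (lev Lv hp hp𝒪 h2) fun n => (Lv n).patchLevel_e_rename_inl hp hp𝒪 h2 f

/-- the squaring map as an algebra map -/
noncomputable abbrev sqAlg : PS →ₐ[𝒪] PS := expand 2 two_ne_zero

/-- `ζ(f(z²)) = ω(f(z²))` on the patched module -/
theorem PM_hsq (f : PS) (c : PM (lev Lv hp hp𝒪 h2)) :
    sInf (lev Lv hp hp𝒪 h2) (sqHom (Fin r) 𝒪 f) • c = ωlim Lv (sqHom (Fin r) 𝒪 f) • c := by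
  have key := algHom_sub_mem_of_forall_X (Module.annihilator PB (PM (lev Lv hp hp𝒪 h2)))
    ((sInf (lev Lv hp hp𝒪 h2)).comp (sqAlg (𝒪 := 𝒪) (r := r))) ((ωlim Lv).comp (sqAlg (𝒪 := 𝒪) (r := r))) ?_ ?_ f
  · rw [Module.mem_annihilator] at key
    have := key c
    rw [sub_smul, sub_eq_zero] at this
    exact this
  · intro s
    rw [AlgHom.comp_apply, expand_X, map_pow, sInf_lev_X]
    refine Ideal.pow_mem_of_mem _ ?_ 2 (by norm_num)
    rw [mem_maximalIdeal_mvPowerSeries_iff, constantCoeff_X]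
    exact zero_mem _
  · intro s
    rw [Module.mem_annihilator]
    intro c
    rw [AlgHom.comp_apply, AlgHom.comp_apply, expand_X, map_pow, map_pow, sInf_lev_X, ωlim_X]
    exact PM_sq_kill Lv hp hp𝒪 h2 s c

/-- `ω_i N ⊆ (z) N` -/
theorem PM_hmem (i : Fin r) (c : PM (lev Lv hp hp𝒪 h2)) :
    ωlim Lv (X i) • c ∈ Ideal.span (Set.range fun j : Fin r => sInf (lev Lv hp hp𝒪 h2) (X j)) •
      (⊤ : Submodule PB (PM (lev Lv hp hp𝒪 h2))) := by
  rw [← vInf_eq_zero_iff, vInf_smul, ωlim_X, eInf_rename_inl, γ0_Ωlim, map_zero, zero_smul]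

include hp hp𝒪 h2 in
/-- **The abstract minimal `R = T` theorem.** -/
theorem min_abstract [Nontrivial M0] (hγ0 : Function.Surjective γ0)
    (hφ0 : Function.Surjective φ0) (hL : ∀ n, Nonempty (MinLevel p γ0 φ0 M0 d n)) :
    Function.Bijective φ0 ∧ Module.Free T0 M0 ∧
      ∃ Ω : Fin r → PS, (∀ i, Ω i ∈ maximalIdeal PS) ∧
        RingHom.ker (γ0 : PS →+* R0) = Ideal.span (Set.range Ω) := by
  classical
  let Lv : ∀ n, MinLevel p γ0 φ0 M0 d n := fun n => (hL n).some
  let L := lev Lv hp hp𝒪 h2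
  have hb : IsBasisVia (sInf L : PS →+* PB) (PMb L) := (patchOutput L).b_basis
  obtain ⟨hfin, hfree, heq⟩ := sym_main (sInf L) (ωlim Lv) (PMb L) hb (PM_hsq Lv hp hp𝒪 h2)
    (PM_hmem Lv hp hp𝒪 h2)
  haveI := hfin
  haveI := hfree
  let ρ : PS →+* PB := ((rename Sum.inl : PS →ₐ[𝒪] PB) : PS →+* PB)
  let ω' : PS →+* PB := (ωlim Lv : PS →+* PB)
  let β := (Module.Free.chooseBasis PS (Via ω' (PM L))).reindex
    (Fintype.equivFin (Module.Free.ChooseBasisIndex PS (Via ω' (PM L))))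
  have hβ := isBasisVia_of_basis β
  letI : Module R0 M0 := Module.compHom M0 (φ0 : R0 →+* T0)
  have hsmul : ∀ (a : R0) (m : M0), a • m = φ0 a • m := fun a m => rfl
  let PLv : Algebra.PatchingLevel 𝒪 r R0 M0 ⊥ :=
    { N := Via ρ (PM L)
      φ := φlim Lv
      ψ := γ0
      ψ_surjective := hγ0
      ψ_φ_X := fun i => by rw [φlim_X]; exact γ0_Ωlim Lv i
      π := { toFun := fun x => vInf L (Via.out ρ x)
             map_zero' := map_zero _
             map_add' := fun x y => map_add (vInf L) (Via.out ρ x) (Via.out ρ y) }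
      π_smul := fun f x => by
        show vInf L (ρ f • Via.out ρ x) = φ0 (γ0 f) • vInf L (Via.out ρ x)
        rw [vInf_smul]
        congr 1
        exact eInf_rename_inl Lv hp hp𝒪 h2 f
      π_surjective := fun m => by
        obtain ⟨c, hc⟩ := vInf_surjective L m
        exact ⟨Via.of ρ c, hc⟩
      ker_π := fun x => by
        show vInf L (Via.out ρ x) = 0 ↔ _
        rw [vInf_eq_zero_iff, heq, mem_span_range_smul_top_iff', mem_span_range_smul_top_iff']
        constructor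
        · rintro ⟨y, hy⟩
          exact ⟨fun i => Via.of ρ (y i), hy⟩
        · rintro ⟨y, hy⟩
          exact ⟨fun i => Via.out ρ (y i), hy⟩
      d := Fintype.card (Module.Free.ChooseBasisIndex PS (Via ω' (PM L)))
      b := fun j => Via.of ρ (Via.out ω' (β j))
      b_span := fun x => by
        obtain ⟨c, hc, -⟩ := hβ (Via.out ρ x)
        exact ⟨c, hc⟩
      b_rel := fun c => by
        constructor
        · intro h i
          have h0 : c = 0 := hβ.eq_zero h
          rw [h0]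
          exact Ideal.zero_mem _
        · intro h
          have h0 : ∀ i, c i = 0 := fun i => by simpa using h i
          simp only [h0, map_zero, zero_smul, Finset.sum_const_zero] }
  obtain ⟨h1, h2', h3⟩ := Fermat.Agent.S57.result PLv
  have hinj : Function.Injective φ0 := by
    rw [injective_iff_map_eq_zero]
    intro a ha
    have : a ∈ Module.annihilator R0 M0 := by
      rw [Module.mem_annihilator]
      intro m
      rw [hsmul, ha, zero_smul]
    rw [h2'] at this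
    exact this
  refine ⟨⟨hinj, hφ0⟩, ?_, Ωlim Lv, Ωlim_mem Lv, ?_⟩
  · let e : R0 ≃+* T0 := RingEquiv.ofBijective (φ0 : R0 →+* T0) ⟨hinj, hφ0⟩
    exact Module.Free.of_basis
      ((Module.Free.chooseBasis R0 M0).mapCoeffs e (fun c x => (hsmul c x).symm))
  · have h4 : RingHom.ker (γ0 : PS →+* R0) =
        Ideal.span (Set.range fun i : Fin r => φlim Lv (X i)) := h3
    rw [h4]
    congr 2
    funext i
    exact φlim_X Lv i

end Main

end Fermat.Agent.S59lib.Min
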