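import Mathlib
import Fermat.Agent.S43lib.B3.SurjAlg
import Fermat.Agent.S43lib.Patch.Mod.Ext

/-!
# Project I / MIN : compatible presentations (G1)

`exists_lift_surjective` : `A`, `R0` complete Noetherian local `𝒪`-algebras with the residue field of
`𝒪`; `γ : 𝒪⟦x_1..x_r⟧ ↠ A`, `θ : A ↠ R0`, `γ0 : 𝒪⟦x_1..x_r⟧ ↠ R0`.  Then there is
`γ' : 𝒪⟦x_1..x_r⟧ ↠ A` with `θ ∘ γ' = γ0`.

Proof: choose lifts `a₀ i` of `γ0 (X i)`; the tangent space `t_A` (derivations `A → k`) has dimension
`≤ r`; correct the `a₀ i` greedily by elements of `ker θ` so that no non-zero derivation vanishes on all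
of them (`exists_shift_separating`): a derivation vanishing on `ker θ` and on the `a₀ i` is zero because
`γ0` is surjective.
-/

set_option autoImplicit false
set_option linter.unusedSectionVars false
set_option linter.style.haveILetI false

namespace Fermat.Agent.S59lib.Min

open IsLocalRing MvPowerSeries Fermat.Agent.TeamA Fermat.Agent.S56lib.Dict
  Fermat.Agent.S43lib.B3 Fermat.Agent.S43lib.Patch.Mod

section Greedy

variable {K V A : Type*} [Field K] [AddCommGroup V] [Module K V] [FiniteDimensional K V]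
  [AddCommGroup A]

/-- **Greedy correction.**  Functionals `ev a` (`a ∈ A`, additive in `a`) on a finite-dimensional
space; `Z` a subgroup of `A`.  Given `a₀ : Fin r → A`, one can correct the `a₀ i` by elements of `Z` so
that the common kernel `U'` of the corrected functionals on `U` is either killed by all `ev z`,
`z ∈ Z`, or has dimension `≤ dim U − r`. -/
theorem exists_shift_separating (ev : A →+ (V →ₗ[K] K)) (Z : AddSubgroup A) :
    ∀ (r : ℕ) (U : Submodule K V) (a₀ : Fin r → A),
      ∃ κ : Fin r → A, (∀ i, κ i ∈ Z) ∧ ∃ U' : Submodule K V, U' ≤ U ∧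
        (∀ D ∈ U, (∀ i, ev (a₀ i + κ i) D = 0) → D ∈ U') ∧
        ((∀ D ∈ U', ∀ z ∈ Z, ev z D = 0) ∨ Module.finrank K U' + r ≤ Module.finrank K U) := by
  intro r
  induction r with
  | zero =>
    intro U a₀
    exact ⟨fun i => i.elim0, fun i => i.elim0, U, le_rfl, fun D hD _ => hD, Or.inr le_rfl⟩
  | succ r ih =>
    intro U a₀
    by_cases hc : ∃ z ∈ Z, ¬ ∀ D ∈ U, ev (a₀ 0 + z) D = 0
    · obtain ⟨z, hzZ, hz⟩ := hc
      set U₁ : Submodule K V := U ⊓ LinearMap.ker (ev (a₀ 0 + z)) with hU₁
      have hlt : U₁ < U := by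
        refine lt_of_le_of_ne inf_le_left fun h => hz fun D hD => ?_
        have : D ∈ U₁ := h ▸ hD
        exact LinearMap.mem_ker.mp this.2
      have hfin : Module.finrank K U₁ + 1 ≤ Module.finrank K U :=
        Submodule.finrank_lt_finrank_of_lt hlt
      obtain ⟨κt, hκt, U', hU'le, hU', hdisj⟩ := ih U₁ (fun i => a₀ i.succ)
      refine ⟨Fin.cons z κt, ?_, U', hU'le.trans inf_le_left, ?_, ?_⟩
      · intro i
        refine Fin.cases ?_ (fun j => ?_) i
        · simp only [Fin.cons_zero]; exact hzZ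
        · simpa using hκt j
      · intro D hD hall
        apply hU' D
        · refine ⟨hD, LinearMap.mem_ker.mpr ?_⟩
          simpa using hall 0
        · intro i
          simpa using hall i.succ
      · rcases hdisj with h | h
        · exact Or.inl h
        · exact Or.inr (by omega)
    · push Not at hc
      have h0 : ∀ D ∈ U, ev (a₀ 0) D = 0 := fun D hD => by
        have := hc 0 Z.zero_mem D hD
        rwa [add_zero] at this
      obtain ⟨κt, hκt, U', hU'le, hU', -⟩ := ih U (fun i => a₀ i.succ)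
      refine ⟨Fin.cons 0 κt, ?_, U', hU'le, ?_, Or.inl ?_⟩
      · intro i
        refine Fin.cases ?_ (fun j => ?_) i
        · simp only [Fin.cons_zero]; exact Z.zero_mem
        · simpa using hκt j
      · intro D hD hall
        apply hU' D hD
        intro i
        simpa using hall i.succ
      · intro D hD z hz
        have h1 := hc z hz D (hU'le hD)
        rw [map_add, LinearMap.add_apply, h0 D (hU'le hD), zero_add] at h1
        exact h1

end Greedy

section Ring

variable {𝒪 : Type} [CommRing 𝒪] [IsLocalRing 𝒪] [IsNoetherianRing 𝒪]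
  [IsAdicComplete (maximalIdeal 𝒪) 𝒪]
  {A : Type} [CommRing A] [IsLocalRing A] [Algebra 𝒪 A] [IsLocalHom (algebraMap 𝒪 A)]
  {r : ℕ}

/-- every power series is a constant plus a combination of the variables -/
theorem exists_eq_C_add_sum_X (f : MvPowerSeries (Fin r) 𝒪) :
    ∃ (c : 𝒪) (g : Fin r → MvPowerSeries (Fin r) 𝒪), f = C c + ∑ i, g i * X i := by
  have h := sub_C_constantCoeff_mem_varIdeal (Fin r) 𝒪 f
  rw [varIdeal, Ideal.mem_span_range_iff_exists_fun] at h
  obtain ⟨g, hg⟩ := h
  exact ⟨constantCoeff f, g, by rw [hg]; ring⟩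

variable (hsurj : Function.Surjective (residue A ∘ algebraMap 𝒪 A))

theorem tanDer_zero (D : tanDer (𝒪 := 𝒪) (R := A) hsurj) : D.1 0 = 0 := by
  have := D.2.2.2 0
  rwa [map_zero] at this

theorem tanDer_sum (D : tanDer (𝒪 := 𝒪) (R := A) hsurj) {ι : Type*} (s : Finset ι) (f : ι → A) :
    D.1 (∑ i ∈ s, f i) = ∑ i ∈ s, D.1 (f i) := by
  classical
  induction s using Finset.induction_on with
  | empty => simp [tanDer_zero]
  | insert a s ha ih => rw [Finset.sum_insert ha, Finset.sum_insert ha, D.2.1, ih]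

theorem tanDer_mul_of_mem (D : tanDer (𝒪 := 𝒪) (R := A) hsurj) {a : A} (ha : a ∈ maximalIdeal A)
    (y : A) : D.1 (y * a) = resO hsurj y * D.1 a := by
  rw [D.2.2.1, (resO_eq_zero_iff hsurj a).mpr ha, zero_mul, add_zero]

/-- a derivation applied to a constant plus a combination of elements of the maximal ideal -/
theorem tanDer_const_add_sum (D : tanDer (𝒪 := 𝒪) (R := A) hsurj) (c : 𝒪) (a y : Fin r → A)
    (ha : ∀ i, a i ∈ maximalIdeal A) :
    D.1 (algebraMap 𝒪 A c + ∑ i, y i * a i) = ∑ i, resO hsurj (y i) * D.1 (a i) := by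
  rw [D.2.1, D.2.2.2, zero_add, tanDer_sum]
  exact Finset.sum_congr rfl fun i _ => tanDer_mul_of_mem hsurj D (ha i) (y i)

/-- a derivation vanishing on the images of the variables under a surjection vanishes -/
theorem tanDer_eq_zero_of_X (γ : MvPowerSeries (Fin r) 𝒪 →ₐ[𝒪] A) (hγ : Function.Surjective γ)
    (D : tanDer (𝒪 := 𝒪) (R := A) hsurj) (hD : ∀ i, D.1 (γ (X i)) = 0) : D = 0 := by
  have hX : ∀ i, γ (X i) ∈ maximalIdeal A := fun i => by
    rw [mem_maximalIdeal, mem_nonunits_iff]
    intro hu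
    haveI := IsLocalHom.of_surjective (γ : MvPowerSeries (Fin r) 𝒪 →+* A) hγ
    have := isUnit_of_map_unit (γ : MvPowerSeries (Fin r) 𝒪 →+* A) (X i) hu
    rw [MvPowerSeries.isUnit_iff_constantCoeff, constantCoeff_X] at this
    exact not_isUnit_zero this
  apply Subtype.ext
  funext x
  obtain ⟨f, rfl⟩ := hγ x
  obtain ⟨c, g, rfl⟩ := exists_eq_C_add_sum_X f
  have e : γ (C c + ∑ i, g i * X i) = algebraMap 𝒪 A c + ∑ i, γ (g i) * γ (X i) := by
    rw [map_add, map_sum, c_eq_algebraMap, AlgHom.commutes]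
    simp only [map_mul]
  rw [e, tanDer_const_add_sum hsurj D _ _ _ hX]
  simp [hD]

variable [IsNoetherianRing A] [IsAdicComplete (maximalIdeal A) A]
  {R0 : Type} [CommRing R0] [IsLocalRing R0] [Algebra 𝒪 R0] [IsHausdorff (maximalIdeal R0) R0]

include hsurj in
/-- **Compatible presentations (G1).** -/
theorem exists_lift_surjective [Finite (ResidueField 𝒪)]
    (γ : MvPowerSeries (Fin r) 𝒪 →ₐ[𝒪] A) (hγ : Function.Surjective γ)
    (θ : A →ₐ[𝒪] R0) (hθ : Function.Surjective θ)
    (γ0 : MvPowerSeries (Fin r) 𝒪 →ₐ[𝒪] R0) (hγ0 : Function.Surjective γ0) :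
    ∃ γ' : MvPowerSeries (Fin r) 𝒪 →ₐ[𝒪] A, Function.Surjective γ' ∧ θ.comp γ' = γ0 := by
  classical
  let V := tanDer (𝒪 := 𝒪) (R := A) hsurj
  have hadd : ∀ (D : V) (a b : A), D.1 (a + b) = D.1 a + D.1 b := fun D => D.2.1
  -- the tangent space has dimension `≤ r`
  let Ψ : V →ₗ[ResidueField 𝒪] (Fin r → ResidueField 𝒪) :=
    { toFun := fun D i => D.1 (γ (X i))
      map_add' := fun D D' => rfl
      map_smul' := fun c D => rfl }
  have hΨ : Function.Injective Ψ := by
    rw [injective_iff_map_eq_zero]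
    intro D hD
    exact tanDer_eq_zero_of_X hsurj γ hγ D fun i => congrFun hD i
  haveI : FiniteDimensional (ResidueField 𝒪) V := Module.Finite.of_injective Ψ hΨ
  have hdim : Module.finrank (ResidueField 𝒪) V ≤ r := by
    have := LinearMap.finrank_le_finrank_of_injective hΨ
    rwa [Module.finrank_fin_fun] at this
  -- `θ`, `γ0` are local
  haveI hθl : IsLocalHom (θ : A →+* R0) := IsLocalHom.of_surjective _ hθ
  have hb : ∀ i, γ0 (X i) ∈ maximalIdeal R0 := fun i => by
    rw [mem_maximalIdeal, mem_nonunits_iff]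
    intro hu
    haveI := IsLocalHom.of_surjective (γ0 : MvPowerSeries (Fin r) 𝒪 →+* R0) hγ0
    have := isUnit_of_map_unit (γ0 : MvPowerSeries (Fin r) 𝒪 →+* R0) (X i) hu
    rw [MvPowerSeries.isUnit_iff_constantCoeff, constantCoeff_X] at this
    exact not_isUnit_zero this
  have hmem : ∀ x : A, θ x ∈ maximalIdeal R0 → x ∈ maximalIdeal A := fun x hx => by
    rw [mem_maximalIdeal, mem_nonunits_iff] at hx ⊢
    exact fun h => hx (h.map θ)
  -- lifts of the `γ0 (X i)`
  choose a₀ ha₀ using fun i => hθ (γ0 (X i))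
  have ha₀m : ∀ i, a₀ i ∈ maximalIdeal A := fun i => hmem _ (by rw [ha₀]; exact hb i)
  -- the functionals
  let ev : A →+ (V →ₗ[ResidueField 𝒪] ResidueField 𝒪) :=
    AddMonoidHom.mk' (fun a => (LinearMap.proj a).comp V.subtype) (fun a b => by
      ext D
      exact D.2.1 a b)
  have hev : ∀ (a : A) (D : V), ev a D = D.1 a := fun _ _ => rfl
  obtain ⟨κ, hκ, U', -, hU', hdisj⟩ :=
    exists_shift_separating ev (RingHom.ker (θ : A →+* R0)).toAddSubgroup r ⊤ a₀
  have hκθ : ∀ i, θ (κ i) = 0 := fun i => hκ i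
  have hκm : ∀ i, κ i ∈ maximalIdeal A := fun i => hmem _ (by rw [hκθ]; exact zero_mem _)
  have ham : ∀ i, a₀ i + κ i ∈ maximalIdeal A := fun i => Ideal.add_mem _ (ha₀m i) (hκm i)
  -- the corrected lifts separate the derivations
  have hsep : ∀ D : V, (∀ i, D.1 (a₀ i + κ i) = 0) → D = 0 := by
    intro D hD
    have hDU' : D ∈ U' := hU' D Submodule.mem_top hD
    rcases hdisj with h | h
    · have hker : ∀ z : A, θ z = 0 → D.1 z = 0 := fun z hz => h D hDU' z hz
      have hDa₀ : ∀ i, D.1 (a₀ i) = 0 := fun i => by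
        have h1 := hD i
        rw [hadd, hker _ (hκθ i), add_zero] at h1
        exact h1
      apply Subtype.ext
      funext x
      obtain ⟨f, hf⟩ := hγ0 (θ x)
      obtain ⟨c, g, rfl⟩ := exists_eq_C_add_sum_X f
      choose y hy using fun i => hθ (γ0 (g i))
      have hx : θ (x - (algebraMap 𝒪 A c + ∑ i, y i * a₀ i)) = 0 := by
        rw [map_sub, map_add, map_sum, AlgHom.commutes, ← hf, map_add, map_sum, c_eq_algebraMap,
          AlgHom.commutes]
        simp only [map_mul, hy, ha₀]
        exact sub_self _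
      have h2 := hker _ hx
      rw [tanDer_map_sub, tanDer_const_add_sum hsurj D _ _ _ ha₀m, sub_eq_zero] at h2
      rw [h2]
      simp [hDa₀]
    · have h0 : Module.finrank (ResidueField 𝒪) U' = 0 := by
        have : Module.finrank (ResidueField 𝒪) (⊤ : Submodule (ResidueField 𝒪) V) =
            Module.finrank (ResidueField 𝒪) V := finrank_top _ _
        omega
      have : U' = ⊥ := Submodule.finrank_eq_zero.mp h0
      rw [this] at hDU'
      exact (Submodule.mem_bot _).mp hDU'
  obtain ⟨γ', hγ'X, hγ'⟩ := exists_surjective_of_separating hsurj (fun i => a₀ i + κ i) ham hsep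
  refine ⟨γ', hγ', ?_⟩
  refine algHom_ext_of_local _ _ ?_ ?_
  · intro i
    rw [AlgHom.comp_apply, hγ'X, map_add, hκθ, add_zero, ha₀]
    exact hb i
  · intro i
    rw [AlgHom.comp_apply, hγ'X, map_add, hκθ, add_zero, ha₀]

end Ring

end Fermat.Agent.S59lib.Min
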