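import Mathlib
import Fermat.Agent.S59lib.Hub.Side
import Fermat.Agent.S59lib.Min.Level

/-!
# Project I / MIN : from the hub's `SideLevel` (with `Λ = 𝒪`) to a `MinLevel`

`Sb : Hub.SideCore` with `algebraMap 𝒪 Λ` surjective (the case `T = ∅`, `Λ = 𝒪[1]`).  All the `Λ`-algebras of
the hub become `𝒪`-algebras (`algΛ`).

`SideLevel.nonempty_minLevel` : a `SideLevel` together with the `R`-side at the Taylor–Wiles set
(a local `𝒪`-algebra `A` with a presentation `γ : 𝒪⟦x_1..x_r⟧ ↠ A`, a local map `τ : A → B` to the Hecke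
algebra, a map `θ : A → R0` with `θ ∘ γ = γ0`, the compatibility `e₀ ∘ τ = φ0 ∘ θ`, and units
`δ'_i ≡ 1` of `A` killed by `θ` whose traces `δ'_i + δ'_i⁻¹` go to the traces of the diamonds) gives a
`MinLevel`.
-/

set_option autoImplicit false
set_option linter.unusedSectionVars false
set_option linter.style.haveILetI false

noncomputable section

namespace Fermat.Agent.S59lib.Min

open IsLocalRing MvPowerSeries Fermat.Agent.S59lib.Hub

/-- the `𝒪`-algebra structure of a `Λ`-algebra -/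
@[reducible] def algΛ (Sb : SideCore) (C : Type*) [CommRing C] [Algebra Sb.Λ C] : Algebra Sb.𝒪 C :=
  ((algebraMap Sb.Λ C).comp (algebraMap Sb.𝒪 Sb.Λ)).toAlgebra

theorem algΛ_algebraMap (Sb : SideCore) (C : Type*) [CommRing C] [Algebra Sb.Λ C] (c : Sb.𝒪) :
    letI := algΛ Sb C
    algebraMap Sb.𝒪 C c = algebraMap Sb.Λ C (algebraMap Sb.𝒪 Sb.Λ c) := rfl

theorem isScalarTower_algΛ (Sb : SideCore) (C : Type*) [CommRing C] [Algebra Sb.Λ C] :
    letI := algΛ Sb C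
    IsScalarTower Sb.𝒪 Sb.Λ C :=
  letI := algΛ Sb C
  IsScalarTower.of_algebraMap_eq fun _ => rfl

/-- the `𝒪`-algebra structure of `T0` -/
@[reducible] def algT0 (Sb : SideCore) : Algebra Sb.𝒪 Sb.T0 := algΛ Sb Sb.T0

/-- the `𝒪`-module structure of `M0` -/
@[reducible] def modM0 (Sb : SideCore) : Module Sb.𝒪 Sb.M0 :=
  Module.compHom Sb.M0 (algebraMap Sb.𝒪 Sb.Λ)

attribute [local instance] algT0 modM0

theorem isScalarTower_M0 (Sb : SideCore) : IsScalarTower Sb.𝒪 Sb.T0 Sb.M0 :=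
  ⟨fun c t m => by
    show (algebraMap Sb.Λ Sb.T0 (algebraMap Sb.𝒪 Sb.Λ c) * t) • m =
      algebraMap Sb.𝒪 Sb.Λ c • t • m
    rw [mul_smul, algebraMap_smul]⟩

section Finite

variable (Sb : SideCore) (hΛ : Function.Surjective (algebraMap Sb.𝒪 Sb.Λ))

include hΛ

theorem finite_Λ : Module.Finite Sb.𝒪 Sb.Λ :=
  -- (the instance is given by hand: `S55lib.CFDual.instFiniteTrivialSelf` poisons the search for
  -- `Module.Finite R R`)
  haveI : Module.Finite Sb.𝒪 Sb.𝒪 := Module.Finite.self _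
  Module.Finite.of_surjective (Algebra.linearMap Sb.𝒪 Sb.Λ) hΛ

theorem finite_T0 : Module.Finite Sb.𝒪 Sb.T0 := by
  haveI := finite_Λ Sb hΛ
  haveI := isScalarTower_algΛ Sb Sb.T0
  exact Module.Finite.trans Sb.Λ Sb.T0

theorem finite_M0 : Module.Finite Sb.𝒪 Sb.M0 := by
  haveI := finite_Λ Sb hΛ
  haveI : IsScalarTower Sb.𝒪 Sb.Λ Sb.M0 :=
    ⟨fun c x m => by
      show (c • x) • m = algebraMap Sb.𝒪 Sb.Λ c • x • m
      rw [Algebra.smul_def, mul_smul]⟩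
  exact Module.Finite.trans Sb.Λ Sb.M0

/-- the structure map `𝒪 → Λ` is local -/
theorem algebraMap_Λ_mem {x : Sb.𝒪} (hx : x ∈ maximalIdeal Sb.𝒪) :
    algebraMap Sb.𝒪 Sb.Λ x ∈ maximalIdeal Sb.Λ :=
  map_mem_maximalIdeal_of_surjective (algebraMap Sb.𝒪 Sb.Λ) hΛ hx

/-- `χB` inverts the structure map -/
theorem algebraMap_χB (x : Sb.Λ) : algebraMap Sb.𝒪 Sb.Λ (Sb.χB x) = x := by
  obtain ⟨c, rfl⟩ := hΛ x
  rw [AlgHom.commutes]
  rfl

/-- over `Λ = 𝒪`, generation over `Λ` is generation over `𝒪` -/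
theorem adjoin_eq_top_of_Λ {C : Type*} [CommRing C] [Algebra Sb.Λ C] (s : Set C)
    (h : Algebra.adjoin Sb.Λ s = ⊤) :
    letI := algΛ Sb C
    Algebra.adjoin Sb.𝒪 s = ⊤ := by
  letI := algΛ Sb C
  rw [eq_top_iff]
  intro x _
  have hx : x ∈ Algebra.adjoin Sb.Λ s := by rw [h]; exact Algebra.mem_top
  induction hx using Algebra.adjoin_induction with
  | mem x hx => exact Algebra.subset_adjoin hx
  | algebraMap l =>
    obtain ⟨c, rfl⟩ := hΛ l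
    exact Subalgebra.algebraMap_mem _ c
  | add x y _ _ hx hy => exact Subalgebra.add_mem _ (hx Algebra.mem_top) (hy Algebra.mem_top)
  | mul x y _ _ hx hy => exact Subalgebra.mul_mem _ (hx Algebra.mem_top) (hy Algebra.mem_top)

end Finite

/-- the key identity of Cayley coordinates: if `x + x⁻¹ = y + y⁻¹` then
`((x−1)/(x+1))² (y+1)² = (y−1)²` -/
theorem cayley_sq_of_trace_eq {B : Type*} [CommRing B] (x xi y yi Z : B) (hx : x * xi = 1)
    (hy : y * yi = 1) (ht : x + xi = y + yi) (hu : IsUnit (x + 1)) (hZ : Z * (x + 1) = x - 1) :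
    Z ^ 2 * (y + 1) ^ 2 = (y - 1) ^ 2 := by
  have h1 : (x - 1) ^ 2 * (y + 1) ^ 2 = (y - 1) ^ 2 * (x + 1) ^ 2 := by
    linear_combination (4 * x * y) * ht - (4 * y) * hx + (4 * x) * hy
  have h2 : (Z ^ 2 * (y + 1) ^ 2) * (x + 1) ^ 2 = (y - 1) ^ 2 * (x + 1) ^ 2 := by
    rw [← h1, ← hZ]
    ring
  exact (hu.pow 2).mul_left_injective h2

variable {Sb : SideCore} {r n : ℕ} {qv : Fin r → ℕ} {hqv : ∀ i, (qv i).Prime}
  {hS' : Sb.good (Sb.Smin ∪ Sb.T ∪ Finset.univ.image qv)}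

/-- **From a `SideLevel` and the `R`-side at the Taylor–Wiles set to a `MinLevel`.** -/
theorem SideLevel.nonempty_minLevel (L : SideLevel Sb r n qv hqv hS')
    (hΛ : Function.Surjective (algebraMap Sb.𝒪 Sb.Λ))
    {R0 : Type} [CommRing R0] [Algebra Sb.𝒪 R0]
    (γ0 : MvPowerSeries (Fin r) Sb.𝒪 →ₐ[Sb.𝒪] R0) (φ0 : R0 →ₐ[Sb.𝒪] Sb.T0)
    {A : Type} [CommRing A] [IsLocalRing A] [Algebra Sb.𝒪 A]
    (γ : MvPowerSeries (Fin r) Sb.𝒪 →ₐ[Sb.𝒪] A) (hγ : Function.Surjective γ)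
    (τ : A →+* L.B)
    (hτC : ∀ c : Sb.𝒪, τ (algebraMap Sb.𝒪 A c) = algebraMap Sb.Λ L.B (algebraMap Sb.𝒪 Sb.Λ c))
    (hτloc : ∀ x ∈ maximalIdeal A, τ x ∈ maximalIdeal L.B)
    (θ : A →ₐ[Sb.𝒪] R0) (hθγ : θ.comp γ = γ0)
    (hcompat : ∀ x : A, L.e₀ (τ x) = φ0 (θ x))
    (δ' : Fin r → Aˣ) (hδ'1 : ∀ i, (δ' i : A) - 1 ∈ maximalIdeal A)
    (hδ'θ : ∀ i, θ (δ' i : A) = 1)
    (hδ'tr : ∀ i, τ ((δ' i : A) + ((δ' i)⁻¹ : Aˣ)) =
      L.ι (L.δ i) + L.ι ((L.δ i)⁻¹ : L.RΔˣ)) :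
    Nonempty (MinLevel Sb.p γ0 φ0 Sb.M0 Sb.d n) := by
  classical
  letI : Algebra Sb.𝒪 L.RΔ := algΛ Sb L.RΔ
  letI : Algebra Sb.𝒪 L.B := algΛ Sb L.B
  haveI : IsScalarTower Sb.𝒪 Sb.Λ L.RΔ := isScalarTower_algΛ Sb L.RΔ
  haveI : IsScalarTower Sb.𝒪 Sb.Λ L.B := isScalarTower_algΛ Sb L.B
  haveI : IsScalarTower Sb.𝒪 Sb.Λ Sb.T0 := isScalarTower_algΛ Sb Sb.T0
  have h2𝒪 : IsUnit (2 : Sb.𝒪) := isUnit_two_of_odd_prime_mem Sb.hp Sb.hp2 Sb.hp𝒪
  have h2A : IsUnit (2 : A) := by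
    have := h2𝒪.map (algebraMap Sb.𝒪 A)
    rwa [map_ofNat] at this
  -- the Cayley coordinates of the `δ'`
  have hu : ∀ i, IsUnit ((δ' i : A) + 1) := fun i =>
    isUnit_add_one_of_sub_one_mem' h2A (hδ'1 i)
  let z' : Fin r → A := fun i => ((δ' i : A) - 1) * (((hu i).unit⁻¹ : Aˣ) : A)
  have hz'mul : ∀ i, z' i * ((δ' i : A) + 1) = (δ' i : A) - 1 := fun i => by
    show ((δ' i : A) - 1) * (((hu i).unit⁻¹ : Aˣ) : A) * ((δ' i : A) + 1) = _
    rw [mul_assoc]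
    have : (((hu i).unit⁻¹ : Aˣ) : A) * ((δ' i : A) + 1) = 1 := by
      have := (hu i).unit.inv_mul
      rwa [IsUnit.unit_spec] at this
    rw [this, mul_one]
  have hz'mem : ∀ i, z' i ∈ maximalIdeal A := fun i => Ideal.mul_mem_right _ _ (hδ'1 i)
  choose w hw using fun i => hγ (z' i)
  -- `τ` as an algebra map
  let τa : A →ₐ[Sb.𝒪] L.B := { τ with commutes' := hτC }
  have hτa : ∀ x, τa x = τ x := fun _ => rfl
  let γB : MvPowerSeries (Fin r) Sb.𝒪 →ₐ[Sb.𝒪] L.B := τa.comp γ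
  have hγ' : Function.Surjective γ.toRingHom := hγ
  have hX : ∀ i, γ (X i) ∈ maximalIdeal A := fun i => by
    refine map_mem_maximalIdeal_of_surjective γ.toRingHom hγ' ?_
    rw [mem_maximalIdeal, mem_nonunits_iff, MvPowerSeries.isUnit_iff_constantCoeff,
      MvPowerSeries.constantCoeff_X]
    exact not_isUnit_zero
  refine ⟨{
    a := L.a
    hna := L.hna
    RΔ := L.RΔ
    RΔ_local := fun x hx => L.RΔ_local _ (algebraMap_Λ_mem Sb hΛ hx)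
    δ := L.δ
    δ_pow := L.δ_pow
    δ_gen := adjoin_eq_top_of_Λ Sb hΛ _ L.δ_gen
    lift := fun C _ _ u hu' => ?_
    B := L.B
    ι := L.ι.restrictScalars Sb.𝒪
    ι_local := L.ι_local
    M := L.M
    b := L.b
    free := L.free
    γ := γB
    γ_mem := fun i => hτloc _ (hX i)
    w := w
    w_mem := fun i => mem_maximalIdeal_of_map_mem (γ : _ →+* A) (by
      rw [RingHom.coe_coe, hw]; exact hz'mem i)
    w_ker := fun i => ?_
    w_sq := fun i => ?_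
    e₀ := L.e₀.restrictScalars Sb.𝒪
    v := L.v
    v_smul := L.v_smul
    v_surjective := L.v_surjective
    ker_v := L.ker_v
    compat := fun f => ?_ }⟩
  · -- lift
    letI : Algebra Sb.Λ C := ((algebraMap Sb.𝒪 C).comp (Sb.χB : Sb.Λ →+* Sb.𝒪)).toAlgebra
    obtain ⟨ψ, hψ⟩ := L.lift C u hu'
    refine ⟨{ (ψ : L.RΔ →+* C) with commutes' := fun c => ?_ }, hψ⟩
    show ψ (algebraMap Sb.Λ L.RΔ (algebraMap Sb.𝒪 Sb.Λ c)) = algebraMap Sb.𝒪 C c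
    rw [ψ.commutes]
    show algebraMap Sb.𝒪 C (Sb.χB (algebraMap Sb.𝒪 Sb.Λ c)) = _
    rw [AlgHom.commutes]
    rfl
  · -- w_ker
    rw [← hθγ, AlgHom.comp_apply, hw]
    show θ (((δ' i : A) - 1) * _) = 0
    rw [map_mul, map_sub, hδ'θ, map_one, sub_self, zero_mul]
  · -- w_sq
    show τ (γ (w i)) ^ 2 * (L.ι (L.δ i) + 1) ^ 2 = (L.ι (L.δ i) - 1) ^ 2
    rw [hw]
    refine cayley_sq_of_trace_eq (τ (δ' i : A)) (τ ((δ' i)⁻¹ : Aˣ)) (L.ι (L.δ i))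
      (L.ι ((L.δ i)⁻¹ : L.RΔˣ)) (τ (z' i)) ?_ ?_ ?_ ?_ ?_
    · rw [← map_mul, Units.mul_inv, map_one]
    · rw [← map_mul, Units.mul_inv, map_one]
    · rw [← map_add]
      exact hδ'tr i
    · have := (hu i).map τ
      rwa [map_add, map_one] at this
    · rw [← map_one τ, ← map_add, ← map_mul, hz'mul, map_sub]
  · -- compat
    show L.e₀ (τ (γ f)) = φ0 (γ0 f)
    rw [hcompat, ← hθγ]
    rfl

end Fermat.Agent.S59lib.Min
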