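import Mathlib
import Fermat.Agent.TeamA.Hensel2
import Fermat.Agent.S43lib.B3.AdicTame

/-!
# Project I / MIN : the tame inertia character at a Taylor–Wiles prime (G2), algebra

`A` a complete local ring, `Φ, Σ ∈ M₂(A)` with `Φ Σ = Σ^q Φ`, `q ≡ 1 mod 𝔪`, `Σ ≡ 1 mod 𝔪`,
`det Σ = 1`, and the characteristic polynomial of `Φ` has two roots which are distinct modulo `𝔪`.
Then in an eigenbasis of `Φ` the matrix `Σ` is diagonal, `Σ ∼ diag(δ, δ⁻¹)`:

`exists_unit_of_tame` : there is a unit `δ` with `tr Σ = δ + δ⁻¹` and `θ δ = 1` for every ring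
homomorphism `θ` with `θ(Σ) = 1`.
-/

set_option autoImplicit false
set_option linter.unusedSectionVars false
set_option linter.style.haveILetI false

namespace Fermat.Agent.S59lib.Min

open IsLocalRing Matrix Polynomial Fermat.Agent.S43lib.B3

section Diag

variable {A : Type*} [CommRing A]

/-- Cayley–Hamilton for a `2 × 2` matrix with characteristic polynomial `(X − α)(X − β)`. -/
theorem sub_smul_one_mul_sub_smul_one (M : Matrix (Fin 2) (Fin 2) A) (α β : A)
    (htr : M.trace = α + β) (hdet : M.det = α * β) :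
    (M - α • (1 : Matrix (Fin 2) (Fin 2) A)) * (M - β • (1 : Matrix (Fin 2) (Fin 2) A)) = 0 := by
  have h1 : α + β = M 0 0 + M 1 1 := by rw [← htr, Matrix.trace_fin_two]
  have h2 : α * β = M 0 0 * M 1 1 - M 0 1 * M 1 0 := by rw [← hdet, Matrix.det_fin_two]
  ext i j
  fin_cases i <;> fin_cases j <;>
    simp [Matrix.mul_apply, Fin.sum_univ_two, Matrix.one_apply]
  · linear_combination (-(M 0 0)) * h1 + h2
  · linear_combination (-(M 0 1)) * h1
  · linear_combination (-(M 1 0)) * h1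
  · linear_combination (-(M 1 1)) * h1 + h2

theorem single_mul_diagonal_fin_two (b : Fin 2) (j : Fin 2) (α β : A) :
    (Matrix.single b j (1 : A) : Matrix (Fin 2) (Fin 2) A) * Matrix.diagonal ![α, β] =
      (![α, β] j) • (Matrix.single b j (1 : A) : Matrix (Fin 2) (Fin 2) A) := by
  ext x y
  fin_cases j <;> fin_cases x <;> fin_cases y <;> fin_cases b <;>
    simp [Matrix.mul_apply, Matrix.single_apply, Matrix.diagonal_apply]

variable [IsLocalRing A]

/-- **Diagonalisation**: a `2 × 2` matrix over a local ring whose characteristic polynomial is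
`(X − α)(X − β)` with `α − β` a unit is conjugate to `diag(α, β)`. -/
theorem exists_conj_diagonal (M : Matrix (Fin 2) (Fin 2) A) (α β : A) (htr : M.trace = α + β)
    (hdet : M.det = α * β) (hαβ : IsUnit (α - β)) :
    ∃ U U' : Matrix (Fin 2) (Fin 2) A, U * U' = 1 ∧ U' * U = 1 ∧
      M * U = U * Matrix.diagonal ![α, β] := by
  classical
  obtain ⟨c, hc⟩ := hαβ.exists_left_inv
  -- the two projectors
  set Mα : Matrix (Fin 2) (Fin 2) A := M - α • (1 : Matrix (Fin 2) (Fin 2) A) with hMα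
  set Mβ : Matrix (Fin 2) (Fin 2) A := M - β • (1 : Matrix (Fin 2) (Fin 2) A) with hMβ
  have hαβ0 : Mα * Mβ = 0 := sub_smul_one_mul_sub_smul_one M α β htr hdet
  have hβα0 : Mβ * Mα = 0 :=
    sub_smul_one_mul_sub_smul_one M β α (by rw [htr, add_comm]) (by rw [hdet, mul_comm])
  set e : Matrix (Fin 2) (Fin 2) A := c • Mβ with he
  set e' : Matrix (Fin 2) (Fin 2) A := (-c) • Mα with he'
  have hsum : e + e' = 1 := by
    rw [he, he', hMα, hMβ]
    have : c • (M - β • (1 : Matrix (Fin 2) (Fin 2) A)) +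
        (-c) • (M - α • (1 : Matrix (Fin 2) (Fin 2) A)) =
        (c * (α - β)) • (1 : Matrix (Fin 2) (Fin 2) A) := by
      ext i j
      simp only [Matrix.add_apply, Matrix.smul_apply, Matrix.sub_apply, smul_eq_mul]
      ring
    rw [this, hc, one_smul]
  have hee' : e * e' = 0 := by
    rw [he, he', Matrix.smul_mul, Matrix.mul_smul, hβα0, smul_zero, smul_zero]
  have he'e : e' * e = 0 := by
    rw [he, he', Matrix.smul_mul, Matrix.mul_smul, hαβ0, smul_zero, smul_zero]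
  have hee : e * e = e := by
    have := congrArg (fun Z => e * Z) hsum
    simp only [Matrix.mul_add, hee', add_zero, Matrix.mul_one] at this
    exact this
  have he'e' : e' * e' = e' := by
    have := congrArg (fun Z => e' * Z) hsum
    simp only [Matrix.mul_add, he'e, zero_add, Matrix.mul_one] at this
    exact this
  have hMe : M * e = α • e := by
    have h1 : Mα * e = 0 := by rw [he, Matrix.mul_smul, hαβ0, smul_zero]
    rw [hMα, Matrix.sub_mul, Matrix.smul_mul, Matrix.one_mul, sub_eq_zero] at h1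
    exact h1
  have hMe' : M * e' = β • e' := by
    have h1 : Mβ * e' = 0 := by rw [he', Matrix.mul_smul, hβα0, smul_zero]
    rw [hMβ, Matrix.sub_mul, Matrix.smul_mul, Matrix.one_mul, sub_eq_zero] at h1
    exact h1
  -- unit diagonal entries
  have htre : e 0 0 + e 1 1 = 1 := by
    have h1 : α + β = M 0 0 + M 1 1 := by rw [← htr, Matrix.trace_fin_two]
    simp only [he, hMβ, Matrix.smul_apply, Matrix.sub_apply, Matrix.one_apply_eq, smul_eq_mul]
    linear_combination hc - c * h1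
  have htre' : e' 0 0 + e' 1 1 = 1 := by
    have h1 : α + β = M 0 0 + M 1 1 := by rw [← htr, Matrix.trace_fin_two]
    simp only [he', hMα, Matrix.smul_apply, Matrix.sub_apply, Matrix.one_apply_eq, smul_eq_mul]
    linear_combination hc + c * h1
  obtain ⟨b, hb⟩ : ∃ b : Fin 2, IsUnit (e b b) := by
    rcases IsLocalRing.isUnit_or_isUnit_of_add_one htre with h | h
    · exact ⟨0, h⟩
    · exact ⟨1, h⟩
  obtain ⟨b', hb'⟩ : ∃ b' : Fin 2, IsUnit (e' b' b') := by
    rcases IsLocalRing.isUnit_or_isUnit_of_add_one htre' with h | h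
    · exact ⟨0, h⟩
    · exact ⟨1, h⟩
  obtain ⟨c₁, hc₁⟩ := hb.exists_left_inv
  obtain ⟨c₂, hc₂⟩ := hb'.exists_left_inv
  clear_value e e'
  set U : Matrix (Fin 2) (Fin 2) A :=
    e * Matrix.single b (0 : Fin 2) (1 : A) + e' * Matrix.single b' (1 : Fin 2) (1 : A) with hU
  set V : Matrix (Fin 2) (Fin 2) A :=
    c₁ • (Matrix.single (0 : Fin 2) b (1 : A) * e) +
      c₂ • (Matrix.single (1 : Fin 2) b' (1 : A) * e') with hV
  have hVU : V * U = 1 := by
    have e1 : Matrix.single (0 : Fin 2) b (1 : A) * e * (e * Matrix.single b (0 : Fin 2) (1 : A)) =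
        Matrix.single (0 : Fin 2) (0 : Fin 2) (e b b) := by
      rw [Matrix.mul_assoc, ← Matrix.mul_assoc e, hee, ← Matrix.mul_assoc,
        Matrix.single_mul_mul_single, one_mul, mul_one]
    have e2 : Matrix.single (0 : Fin 2) b (1 : A) * e * (e' * Matrix.single b' (1 : Fin 2) (1 : A)) =
        (0 : Matrix (Fin 2) (Fin 2) A) := by
      rw [Matrix.mul_assoc, ← Matrix.mul_assoc e, hee', Matrix.zero_mul, Matrix.mul_zero]
    have e3 : Matrix.single (1 : Fin 2) b' (1 : A) * e' * (e * Matrix.single b (0 : Fin 2) (1 : A)) =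
        (0 : Matrix (Fin 2) (Fin 2) A) := by
      rw [Matrix.mul_assoc, ← Matrix.mul_assoc e', he'e, Matrix.zero_mul, Matrix.mul_zero]
    have e4 : Matrix.single (1 : Fin 2) b' (1 : A) * e' * (e' * Matrix.single b' (1 : Fin 2) (1 : A)) =
        Matrix.single (1 : Fin 2) (1 : Fin 2) (e' b' b') := by
      rw [Matrix.mul_assoc, ← Matrix.mul_assoc e', he'e', ← Matrix.mul_assoc,
        Matrix.single_mul_mul_single, one_mul, mul_one]
    rw [hV, hU, Matrix.add_mul, Matrix.mul_add, Matrix.mul_add, Matrix.smul_mul, Matrix.smul_mul,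
      Matrix.smul_mul, Matrix.smul_mul, e1, e2, e3, e4]
    ext i j
    fin_cases i <;> fin_cases j <;> simp [hc₁, hc₂]
  have hUV : U * V = 1 := mul_eq_one_comm.mp hVU
  refine ⟨U, V, hUV, hVU, ?_⟩
  rw [hU, Matrix.mul_add, Matrix.add_mul, ← Matrix.mul_assoc, ← Matrix.mul_assoc, hMe, hMe',
    Matrix.mul_assoc e, Matrix.mul_assoc e', single_mul_diagonal_fin_two,
    single_mul_diagonal_fin_two]
  simp only [Matrix.cons_val_zero, Matrix.cons_val_one, Matrix.smul_mul, Matrix.mul_smul]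

end Diag

section Roots

variable {A : Type*} [CommRing A] [IsLocalRing A]

/-- **Hensel**: if `t ≡ a₀ + b₀`, `d ≡ a₀ b₀ mod 𝔪` with `a₀ − b₀` a unit, then `X² − tX + d` has two
roots `α, β` with `α + β = t`, `α β = d` and `α − β` a unit. -/
theorem exists_roots_of_henselian [HenselianLocalRing A] (t d a₀ b₀ : A)
    (ht : t - (a₀ + b₀) ∈ maximalIdeal A) (hd : d - a₀ * b₀ ∈ maximalIdeal A)
    (hab : IsUnit (a₀ - b₀)) :
    ∃ α β : A, α + β = t ∧ α * β = d ∧ IsUnit (α - β) := by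
  set f : A[X] := X ^ 2 - C t * X + C d with hf
  have hmonic : f.Monic := by
    rw [hf, sub_add]
    apply Polynomial.monic_X_pow_sub
    refine lt_of_le_of_lt (Polynomial.degree_sub_le _ _) ?_
    refine max_lt ?_ ?_
    · exact lt_of_le_of_lt (Polynomial.degree_C_mul_X_le _) (by norm_num)
    · exact lt_of_le_of_lt Polynomial.degree_C_le (by norm_num)
  have heval : ∀ x : A, f.eval x = x ^ 2 - t * x + d := by
    intro x; simp [hf]
  have h1 : f.eval a₀ ∈ maximalIdeal A := by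
    rw [heval]
    have : a₀ ^ 2 - t * a₀ + d = (d - a₀ * b₀) - (t - (a₀ + b₀)) * a₀ := by ring
    rw [this]
    exact Ideal.sub_mem _ hd (Ideal.mul_mem_right _ _ ht)
  have hunit_of : ∀ x : A, x - (a₀ - b₀) ∈ maximalIdeal A → IsUnit x := by
    intro x hx
    by_contra hn
    have hxm : x ∈ maximalIdeal A := (mem_maximalIdeal _).mpr hn
    have := Ideal.sub_mem _ hxm hx
    rw [sub_sub_cancel] at this
    exact (mem_maximalIdeal _).mp this hab
  have h2 : IsUnit (f.derivative.eval a₀) := by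
    have hder : f.derivative.eval a₀ = 2 * a₀ - t := by
      simp [hf, one_add_one_eq_two]
    rw [hder]
    apply hunit_of
    have : 2 * a₀ - t - (a₀ - b₀) = -(t - (a₀ + b₀)) := by ring
    rw [this]
    exact Ideal.neg_mem_iff _ |>.mpr ht
  obtain ⟨α, hroot, hα⟩ := HenselianLocalRing.is_henselian f hmonic a₀ h1 h2
  have hroot' : α ^ 2 - t * α + d = 0 := by rw [← heval]; exact hroot
  refine ⟨α, t - α, by ring, by linear_combination -hroot', ?_⟩
  apply hunit_of
  have : α - (t - α) - (a₀ - b₀) = 2 * (α - a₀) - (t - (a₀ + b₀)) := by ring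
  rw [this]
  exact Ideal.sub_mem _ (Ideal.mul_mem_left _ _ hα) ht

end Roots

section OffDiag

variable {A : Type*} [CommRing A] [IsLocalRing A]

local notation "𝔪" => maximalIdeal A

/-- the off-diagonal entries of `S ^ m` for `S ≡ 1 mod 𝔪` with off-diagonal entries in `𝔪 ^ k`:
`(S^m)₀₁ ≡ m S₀₁`, `(S^m)₁₀ ≡ m S₁₀ mod 𝔪 ^ (k+1)` -/
theorem pow_offdiag (S : Matrix (Fin 2) (Fin 2) A) (h00 : S 0 0 - 1 ∈ 𝔪) (h11 : S 1 1 - 1 ∈ 𝔪)
    (k : ℕ) (hk : 1 ≤ k) (h01 : S 0 1 ∈ 𝔪 ^ k) (h10 : S 1 0 ∈ 𝔪 ^ k) (m : ℕ) :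
    (S ^ m) 0 1 - (m : A) * S 0 1 ∈ 𝔪 ^ (k + 1) ∧ (S ^ m) 1 0 - (m : A) * S 1 0 ∈ 𝔪 ^ (k + 1) ∧
      (S ^ m) 0 0 - 1 ∈ 𝔪 ∧ (S ^ m) 1 1 - 1 ∈ 𝔪 := by
  have hk1 : 𝔪 ^ k ≤ 𝔪 := by
    calc 𝔪 ^ k ≤ 𝔪 ^ 1 := Ideal.pow_le_pow_right hk
      _ = 𝔪 := pow_one _
  have hmk : ∀ {x y : A}, x ∈ 𝔪 → y ∈ 𝔪 ^ k → x * y ∈ 𝔪 ^ (k + 1) := fun hx hy => by
    rw [pow_succ']
    exact Ideal.mul_mem_mul hx hy
  induction m with
  | zero =>
    simp only [pow_zero, Nat.cast_zero, zero_mul, sub_zero, Matrix.one_apply_eq, sub_self]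
    refine ⟨?_, ?_, Ideal.zero_mem _, Ideal.zero_mem _⟩
    · rw [Matrix.one_apply_ne (by decide)]; exact Ideal.zero_mem _
    · rw [Matrix.one_apply_ne (by decide)]; exact Ideal.zero_mem _
  | succ m ih =>
    obtain ⟨i01, i10, i00, i11⟩ := ih
    have e01 : (S ^ (m + 1)) 0 1 = (S ^ m) 0 0 * S 0 1 + (S ^ m) 0 1 * S 1 1 := by
      rw [pow_succ, Matrix.mul_apply, Fin.sum_univ_two]
    have e10 : (S ^ (m + 1)) 1 0 = (S ^ m) 1 0 * S 0 0 + (S ^ m) 1 1 * S 1 0 := by
      rw [pow_succ, Matrix.mul_apply, Fin.sum_univ_two]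
    have e00 : (S ^ (m + 1)) 0 0 = (S ^ m) 0 0 * S 0 0 + (S ^ m) 0 1 * S 1 0 := by
      rw [pow_succ, Matrix.mul_apply, Fin.sum_univ_two]
    have e11 : (S ^ (m + 1)) 1 1 = (S ^ m) 1 0 * S 0 1 + (S ^ m) 1 1 * S 1 1 := by
      rw [pow_succ, Matrix.mul_apply, Fin.sum_univ_two]
    refine ⟨?_, ?_, ?_, ?_⟩
    · have : (S ^ (m + 1)) 0 1 - ((m + 1 : ℕ) : A) * S 0 1 =
          ((S ^ m) 0 0 - 1) * S 0 1 + ((S ^ m) 0 1 - (m : A) * S 0 1) * S 1 1 +
            (S 1 1 - 1) * ((m : A) * S 0 1) := by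
        rw [e01]; push_cast; ring
      rw [this]
      exact Ideal.add_mem _ (Ideal.add_mem _ (hmk i00 h01) (Ideal.mul_mem_right _ _ i01))
        (hmk h11 (Ideal.mul_mem_left _ _ h01))
    · have : (S ^ (m + 1)) 1 0 - ((m + 1 : ℕ) : A) * S 1 0 =
          ((S ^ m) 1 1 - 1) * S 1 0 + ((S ^ m) 1 0 - (m : A) * S 1 0) * S 0 0 +
            (S 0 0 - 1) * ((m : A) * S 1 0) := by
        rw [e10]; push_cast; ring
      rw [this]
      exact Ideal.add_mem _ (Ideal.add_mem _ (hmk i11 h10) (Ideal.mul_mem_right _ _ i10))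
        (hmk h00 (Ideal.mul_mem_left _ _ h10))
    · have : (S ^ (m + 1)) 0 0 - 1 =
          ((S ^ m) 0 0 - 1) * S 0 0 + (S 0 0 - 1) + (S ^ m) 0 1 * S 1 0 := by
        rw [e00]; ring
      rw [this]
      exact Ideal.add_mem _ (Ideal.add_mem _ (Ideal.mul_mem_right _ _ i00) h00)
        (Ideal.mul_mem_left _ _ (hk1 h10))
    · have : (S ^ (m + 1)) 1 1 - 1 =
          ((S ^ m) 1 1 - 1) * S 1 1 + (S 1 1 - 1) + (S ^ m) 1 0 * S 0 1 := by
        rw [e11]; ring
      rw [this]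
      exact Ideal.add_mem _ (Ideal.add_mem _ (Ideal.mul_mem_right _ _ i11) h11)
        (Ideal.mul_mem_left _ _ (hk1 h01))

/-- **In an eigenbasis of Frobenius the tame generator is diagonal.** -/
theorem offdiag_eq_zero_of_tame [IsHausdorff 𝔪 A] (α β : A) (hαβ : IsUnit (α - β))
    (S : Matrix (Fin 2) (Fin 2) A) (q : ℕ) (hq : (q : A) - 1 ∈ 𝔪)
    (hS : ∀ i j, (S - 1) i j ∈ 𝔪)
    (hrel : Matrix.diagonal ![α, β] * S = S ^ q * Matrix.diagonal ![α, β]) :
    S 0 1 = 0 ∧ S 1 0 = 0 := by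
  have h00 : S 0 0 - 1 ∈ 𝔪 := by simpa using hS 0 0
  have h11 : S 1 1 - 1 ∈ 𝔪 := by simpa using hS 1 1
  have r01 : α * S 0 1 = (S ^ q) 0 1 * β := by
    have := congrFun (congrFun hrel 0) 1
    simpa [Matrix.mul_apply, Fin.sum_univ_two, Matrix.diagonal_apply] using this
  have r10 : β * S 1 0 = (S ^ q) 1 0 * α := by
    have := congrFun (congrFun hrel 1) 0
    simpa [Matrix.mul_apply, Fin.sum_univ_two, Matrix.diagonal_apply] using this
  obtain ⟨c, hc⟩ := hαβ.exists_left_inv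
  have key : ∀ k : ℕ, 1 ≤ k → S 0 1 ∈ 𝔪 ^ k ∧ S 1 0 ∈ 𝔪 ^ k := by
    intro k hk
    induction k, hk using Nat.le_induction with
    | base =>
      rw [pow_one]
      exact ⟨by simpa using hS 0 1, by simpa using hS 1 0⟩
    | succ k hk ih =>
      obtain ⟨h01, h10⟩ := ih
      obtain ⟨p01, p10, -, -⟩ := pow_offdiag S h00 h11 k hk h01 h10 q
      have hmk : ∀ {x y : A}, x ∈ 𝔪 → y ∈ 𝔪 ^ k → x * y ∈ 𝔪 ^ (k + 1) := fun hx hy => by
        rw [pow_succ']
        exact Ideal.mul_mem_mul hx hy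
      constructor
      · have e : S 0 1 = c * (((S ^ q) 0 1 - (q : A) * S 0 1) * β + ((q : A) - 1) * (S 0 1 * β)) := by
          have : (α - β) * S 0 1 =
              ((S ^ q) 0 1 - (q : A) * S 0 1) * β + ((q : A) - 1) * (S 0 1 * β) := by
            linear_combination r01
          rw [← this, ← mul_assoc, hc, one_mul]
        rw [e]
        exact Ideal.mul_mem_left _ _ (Ideal.add_mem _ (Ideal.mul_mem_right _ _ p01)
          (hmk hq (Ideal.mul_mem_right _ _ h01)))
      · have e : S 1 0 = -c * (((S ^ q) 1 0 - (q : A) * S 1 0) * α + ((q : A) - 1) * (S 1 0 * α)) := by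
          have : (α - β) * S 1 0 =
              -(((S ^ q) 1 0 - (q : A) * S 1 0) * α + ((q : A) - 1) * (S 1 0 * α)) := by
            linear_combination -r10
          rw [neg_mul, ← mul_neg, ← this, ← mul_assoc, hc, one_mul]
        rw [e]
        exact Ideal.mul_mem_left _ _ (Ideal.add_mem _ (Ideal.mul_mem_right _ _ p10)
          (hmk hq (Ideal.mul_mem_right _ _ h10)))
  have hzero : ∀ x : A, (∀ k : ℕ, 1 ≤ k → x ∈ 𝔪 ^ k) → x = 0 := by
    intro x hx
    apply IsHausdorff.haus (inferInstance : IsHausdorff 𝔪 A)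
    intro n
    rw [SModEq.zero, smul_eq_mul, Ideal.mul_top]
    rcases Nat.eq_zero_or_pos n with rfl | hn
    · rw [pow_zero, Ideal.one_eq_top]; trivial
    · exact hx n hn
  exact ⟨hzero _ fun k hk => (key k hk).1, hzero _ fun k hk => (key k hk).2⟩

end OffDiag

section Main

universe v

variable {A : Type*} [CommRing A] [IsLocalRing A]

local notation "𝔪" => maximalIdeal A

theorem conj_pow_of_mul_eq_one {R : Type*} [Monoid R] {U U' : R} (h : U * U' = 1)
    (h' : U' * U = 1) (X : R) (n : ℕ) : (U' * X * U) ^ n = U' * X ^ n * U := by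
  induction n with
  | zero => simp only [pow_zero, mul_one, h']
  | succ n ih =>
    rw [pow_succ, ih, pow_succ]
    calc U' * X ^ n * U * (U' * X * U) = U' * X ^ n * (U * U') * X * U := by
          simp only [mul_assoc]
      _ = U' * (X ^ n * X) * U := by rw [h, mul_one, mul_assoc U']

/-- **The tame inertia character at a Taylor–Wiles prime.** -/
theorem exists_unit_of_tame [IsAdicComplete 𝔪 A] (Φ S : Matrix (Fin 2) (Fin 2) A) (q : ℕ)
    (hq : (q : A) - 1 ∈ 𝔪) (hrel : Φ * S = S ^ q * Φ) (hS : ∀ i j, (S - 1) i j ∈ 𝔪)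
    (hdet : S.det = 1) (a₀ b₀ : A) (hab : IsUnit (a₀ - b₀))
    (htr : Φ.trace - (a₀ + b₀) ∈ 𝔪) (hdetΦ : Φ.det - a₀ * b₀ ∈ 𝔪) :
    ∃ δ : Aˣ, S.trace = (δ : A) + ((δ⁻¹ : Aˣ) : A) ∧ (δ : A) - 1 ∈ 𝔪 ∧
      ∀ (C : Type v) [CommRing C] (θ : A →+* C), S.map θ = 1 → θ (δ : A) = 1 := by
  haveI := Fermat.Agent.TeamA.Hensel2.henselianLocalRing_of_isAdicComplete (A := A)
  haveI : IsHausdorff 𝔪 A := IsAdicComplete.toIsHausdorff
  obtain ⟨α, β, hsum, hprod, hu⟩ :=
    exists_roots_of_henselian Φ.trace Φ.det a₀ b₀ htr hdetΦ hab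
  obtain ⟨U, U', h1, h2, h3⟩ := exists_conj_diagonal Φ α β hsum.symm hprod.symm hu
  set D : Matrix (Fin 2) (Fin 2) A := Matrix.diagonal ![α, β] with hD
  set S' : Matrix (Fin 2) (Fin 2) A := U' * S * U with hS'
  have hΦ : U' * Φ * U = D := by
    rw [Matrix.mul_assoc, h3, ← Matrix.mul_assoc, h2, Matrix.one_mul]
  have hS'pow : S' ^ q = U' * S ^ q * U := conj_pow_of_mul_eq_one h1 h2 S q
  have hrel' : D * S' = S' ^ q * D := by
    rw [hS'pow, ← hΦ, hS']
    calc U' * Φ * U * (U' * S * U) = U' * Φ * (U * U') * S * U := by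
          simp only [Matrix.mul_assoc]
      _ = U' * (Φ * S) * U := by rw [h1, Matrix.mul_one, Matrix.mul_assoc U']
      _ = U' * (S ^ q * Φ) * U := by rw [hrel]
      _ = U' * S ^ q * (U * U') * Φ * U := by
          rw [h1, Matrix.mul_one]; simp only [Matrix.mul_assoc]
      _ = U' * S ^ q * U * (U' * Φ * U) := by simp only [Matrix.mul_assoc]
  have hS'1 : ∀ i j, (S' - 1) i j ∈ 𝔪 := by
    have e : S' - 1 = U' * (S - 1) * U := by
      rw [hS', Matrix.mul_sub, Matrix.sub_mul, Matrix.mul_one, h2]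
    rw [e]
    exact fun i j => ((EntIn.mul_left (I := 𝔪) (Y := S - 1) hS U').mul_right U) i j
  obtain ⟨z01, z10⟩ := offdiag_eq_zero_of_tame α β hu S' q hq hS'1 hrel'
  have hdet' : S' 0 0 * S' 1 1 = 1 := by
    have : S'.det = 1 := by
      rw [hS', Matrix.det_mul, Matrix.det_mul, hdet, mul_one, ← Matrix.det_mul, h2, Matrix.det_one]
    rw [Matrix.det_fin_two, z01, z10, mul_zero, sub_zero] at this
    exact this
  have htr' : S.trace = S' 0 0 + S' 1 1 := by
    have : S'.trace = S.trace := by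
      rw [hS', Matrix.trace_mul_comm, ← Matrix.mul_assoc, h1, Matrix.one_mul]
    rw [← this, Matrix.trace_fin_two]
  refine ⟨⟨S' 0 0, S' 1 1, hdet', by rw [mul_comm]; exact hdet'⟩, htr', ?_, ?_⟩
  · have := hS'1 0 0
    rwa [Matrix.sub_apply, Matrix.one_apply_eq] at this
  · intro C _ θ hθ
    have e : S'.map θ = 1 := by
      rw [hS', Matrix.map_mul, Matrix.map_mul, hθ, Matrix.mul_one, ← Matrix.map_mul, h2]
      ext i j
      by_cases hij : i = j
      · subst hij; simp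
      · simp [hij]
    have := congrFun (congrFun e 0) 0
    rwa [Matrix.map_apply, Matrix.one_apply_eq] at this

end Main

end Fermat.Agent.S59lib.Min
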