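import Mathlib
import Fermat.Agent.S59lib.Min.TameDiag
import Fermat.Agent.S43lib.B3.AdicTame

/-!
# Project I / MIN : the tame inertia character at a Taylor–Wiles prime (G2), Galois form

`ρ : G_ℚ → GL₂(R)`, `R` a complete local ring with `p ∈ 𝔪`, determinant cyclotomic, residually
unramified at `v ≡ 1 mod p` with residual Frobenius having two distinct eigenvalues in the residue
field.  Then there is a unit `δ ≡ 1 mod 𝔪` of `R` with `tr ρ(σ_v) = δ + δ⁻¹` (`σ_v = globGenAt v p` the
generator of the `p`-part of tame inertia), and `θ δ = 1` for every local homomorphism `θ` such that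
`θ ∘ ρ` kills `σ_v`.
-/

set_option autoImplicit false
set_option linter.unusedSectionVars false
set_option linter.style.haveILetI false

namespace Fermat.Agent.S59lib.Min

open IsLocalRing Matrix Polynomial Fermat.Agent.S43lib.B3 Fermat.Agent.TeamA.Rep

section

variable {R : Type} [CommRing R] [IsLocalRing R] [IsAdicComplete (maximalIdeal R) R]

/-- trace and determinant of a `2 × 2` matrix with characteristic polynomial `(X − α)(X − β)` -/
theorem trace_det_of_charpoly {k : Type*} [Field k] (M : Matrix (Fin 2) (Fin 2) k) (α β : k)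
    (h : M.charpoly = (X - C α) * (X - C β)) : M.trace = α + β ∧ M.det = α * β := by
  rw [Matrix.charpoly_fin_two] at h
  have h1 := congrArg (fun f => f.coeff 1) h
  have h0 := congrArg (fun f => f.coeff 0) h
  have e : ((X : k[X]) - C α) * (X - C β) = X ^ 2 - C (α + β) * X + C (α * β) := by
    rw [map_add, map_mul]; ring
  rw [e] at h1 h0
  simp only [coeff_add, coeff_sub, coeff_X_pow, coeff_C_mul, coeff_X_one, coeff_C_zero,
    coeff_X_zero, mul_one, mul_zero] at h1 h0
  simp only [coeff_C] at h1 h0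
  norm_num at h1 h0
  exact ⟨by linear_combination -h1, h0⟩

local notation "Qb" => AlgebraicClosure ℚ

/-- **The tame inertia character at a Taylor–Wiles prime, Galois form.** -/
theorem exists_tame_unit_gal (p : ℕ) [hp : Fact p.Prime] (hpR : (p : R) ∈ maximalIdeal R)
    (ρ : GaloisRepAdic R) (hdet : ρ.DetIsCyclotomic p) (v : Nat.Primes) (hpv : p ≠ (v : ℕ))
    (hv1 : p ∣ (v : ℕ) - 1) (hur : ρ.residual.IsUnramifiedAt (v : ℕ))
    (α β : ResidueField R) (hαβ : α ≠ β)
    (hchar : LinearMap.charpoly (ρ.residual.ρ (globFrobAt v)) = (X - C α) * (X - C β)) :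
    ∃ δ : Rˣ, ρ.trace (globGenAt v p) = (δ : R) + ((δ⁻¹ : Rˣ) : R) ∧
      (δ : R) - 1 ∈ maximalIdeal R ∧
      ∀ (A : Type) [CommRing A] [IsLocalRing A] (θ : R →+* A) (hθ : IsLocalHom θ),
        (ρ.baseChangeAlong θ hθ).ρ (globGenAt v p) = 1 → θ (δ : R) = 1 := by
  haveI : IsHausdorff (maximalIdeal R) R := IsAdicComplete.toIsHausdorff
  let b : Module.Basis (Fin 2) R ρ.V := Module.finBasisOfFinrankEq R ρ.V ρ.finrank_eq
  set Φ := matOf ρ b (globFrobAt v) with hΦ
  set S := matOf ρ b (globGenAt v p) with hS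
  -- the residual Frobenius
  have hres : (Φ.map (residue R)).charpoly = (X - C α) * (X - C β) := by
    rw [hΦ, ← matOfRes_residual, ← hchar]
    exact LinearMap.charpoly_toMatrix _ _
  obtain ⟨htrbar, hdetbar⟩ := trace_det_of_charpoly _ α β hres
  obtain ⟨a₀, ha₀⟩ := residue_surjective α
  obtain ⟨b₀, hb₀⟩ := residue_surjective β
  have hab : IsUnit (a₀ - b₀) := by
    by_contra hn
    have : a₀ - b₀ ∈ maximalIdeal R := (mem_maximalIdeal _).mpr hn
    rw [← residue_eq_zero_iff, map_sub, ha₀, hb₀, sub_eq_zero] at this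
    exact hαβ this
  have htr : Φ.trace - (a₀ + b₀) ∈ maximalIdeal R := by
    rw [← residue_eq_zero_iff, map_sub, map_add, ha₀, hb₀, ← htrbar, Matrix.trace_fin_two,
      Matrix.trace_fin_two, Matrix.map_apply, Matrix.map_apply, map_add, sub_self]
  have hdetΦ : Φ.det - a₀ * b₀ ∈ maximalIdeal R := by
    rw [← residue_eq_zero_iff, map_sub, map_mul, ha₀, hb₀, ← hdetbar, RingHom.map_det,
      RingHom.mapMatrix_apply, sub_self]
  -- `v ≡ 1 mod 𝔪`
  have hq : ((v : ℕ) : R) - 1 ∈ maximalIdeal R := by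
    obtain ⟨c, hc⟩ := hv1
    have h1 : (v : ℕ) = p * c + 1 := by
      have := v.2.one_lt
      omega
    rw [h1]
    push_cast
    rw [add_sub_cancel_right]
    exact Ideal.mul_mem_right _ _ hpR
  have hrel : Φ * S = S ^ (v : ℕ) * Φ := matOf_tame_relation p hpR ρ b v hpv hur
  have hS1 : ∀ i j, (S - 1) i j ∈ maximalIdeal R := by
    intro i j
    have h1 : matOfRes ρ.residual (residualBasis ρ b) (globGenAt v p) = 1 := by
      unfold matOfRes
      rw [hur _ (Fermat.Agent.S56lib.TWSel.primeLocalPlace_liesOverPrime v) _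
        (globGenAt_mem_inertia v p)]
      exact LinearMap.toMatrix_one _
    rw [matOfRes_residual] at h1
    have h2 := congrFun (congrFun h1 i) j
    rw [Matrix.map_apply] at h2
    rw [Matrix.sub_apply, ← residue_eq_zero_iff, map_sub, h2]
    by_cases hij : i = j
    · subst hij; simp
    · simp [hij]
  have hdetS : S.det = 1 := det_matOf_globGenAt p ρ hdet b v hpv
  obtain ⟨δ, h1, h2, h3⟩ := exists_unit_of_tame.{0, 0} Φ S (v : ℕ) hq hrel hS1 hdetS a₀ b₀ hab htr hdetΦ
  refine ⟨δ, ?_, h2, ?_⟩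
  · rw [← h1, hS]
    exact LinearMap.trace_eq_matrix_trace R b (ρ.ρ (globGenAt v p))
  · intro A _ _ θ hθ hθ1
    apply h3 A θ
    rw [hS, ← matOf_baseChangeAlong θ hθ ρ b]
    unfold matOf
    rw [hθ1]
    exact LinearMap.toMatrix_one _

end

end Fermat.Agent.S59lib.Min
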