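import Mathlib
import Fermat.Agent.S59lib.Min.SideMin
import Fermat.Agent.S59lib.Min.Abs
import Fermat.Agent.S59lib.Min.Lift
import Fermat.Agent.S59lib.Min.TameGal
import Fermat.Agent.S59lib.NumCrit.Main
import Fermat.Agent.S43lib.Mod4.Compat
import Fermat.Agent.S43lib.B0.End.Glue

/-!
# Project I / MIN : the minimal `R = T` theorem against the hub

`min_main` : let `Sb : Hub.SideCore` be a hub core with `T = ∅` and `Λ = 𝒪` whose Hecke side delivers a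
`SideLevel` at every Taylor–Wiles set (the conclusion of `Hub.exists_sideLevels`).  Let `R0` be ANY trace ring
of the minimal type mapping onto `T_∅` (`π0`, matching traces), and let `F'` be a family of trace rings on the
good sets with maps `pr₁ : F'(S') → F(S')` (matching traces) and `pr₂ : F'(S') ↠ R0` (pushing `ρ_{F'(S')}` to
`ρ_{R0}`) — e.g. `F'(S') = join (F S') R0`, or `F' = F` if `R0 = F(∅)` is known to receive the `F(S')`.
Then `R0 → T0` is an isomorphism, `M0` is free over `T0`, and `R0` is a complete intersection.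

The Galois side `Sb.gs` is applied to the family `F'` (it is quantified over all families of trace rings of the
type); the presentations are aligned with one fixed presentation of `R0` by `Lift.exists_lift_surjective` (G1);
the Cayley coordinates come from `TameGal.exists_tame_unit_gal` (G2); the compatibility on all of `F'(Q)` follows
from the compatibility on traces by `trace_gen`.
-/

set_option autoImplicit false
set_option linter.unusedSectionVars false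
set_option linter.style.haveILetI false

noncomputable section

namespace Fermat.Agent.S59lib.Min

open IsLocalRing Polynomial Fermat.Agent.S59lib.Hub Fermat.Agent.TeamA.Rep
  Fermat.Agent.S43lib.B3 Fermat.Agent.S56lib.Main Fermat.Agent.S56lib.TWSel

/-- `G_ℚ` -/
local notation "GQ" => (AlgebraicClosure ℚ ≃ₐ[ℚ] AlgebraicClosure ℚ)

attribute [local instance] algT0 modM0

/-! ### general lemmas -/

theorem finite_residueField_of_residue_surjective {𝒪 R : Type*} [CommRing 𝒪] [IsLocalRing 𝒪]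
    [Finite (ResidueField 𝒪)] [CommRing R] [IsLocalRing R] [Algebra 𝒪 R]
    [IsLocalHom (algebraMap 𝒪 R)] (h : Function.Surjective (residue R ∘ algebraMap 𝒪 R)) :
    Finite (ResidueField R) := by
  refine Finite.of_surjective (ResidueField.map (algebraMap 𝒪 R)) fun y => ?_
  obtain ⟨c, hc⟩ := h y
  exact ⟨residue 𝒪 c, by rw [ResidueField.map_residue]; exact hc⟩

/-- equivalent residual representations have the same characteristic polynomials -/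
theorem charpoly_eq_of_res_isEquiv {k : Type} [Field k] {ρ₁ ρ₂ : ResidualGaloisRep k}
    (h : ρ₁.IsEquiv ρ₂) (σ : GQ) :
    LinearMap.charpoly (ρ₁.ρ σ) = LinearMap.charpoly (ρ₂.ρ σ) := by
  obtain ⟨e⟩ := h
  have h1 : ρ₂.ρ σ = e.toLinearEquiv.conj (ρ₁.ρ σ) := by
    ext x
    rw [LinearEquiv.conj_apply, LinearMap.comp_apply, LinearMap.comp_apply, LinearEquiv.coe_coe,
      LinearEquiv.coe_coe, e.map_apply, LinearEquiv.apply_symm_apply]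
  rw [h1, LinearEquiv.charpoly_conj]

/-- equivalent adic representations have the same traces -/
theorem trace_eq_of_isEquiv {A : Type} [CommRing A] [IsLocalRing A] {ρ₁ ρ₂ : GaloisRepAdic A}
    (h : ρ₁.IsEquiv ρ₂) (σ : GQ) : ρ₁.trace σ = ρ₂.trace σ := by
  obtain ⟨e⟩ := h
  have h1 : ρ₂.ρ σ = e.toLinearEquiv.conj (ρ₁.ρ σ) := by
    ext x
    rw [LinearEquiv.conj_apply, LinearMap.comp_apply, LinearMap.comp_apply, LinearEquiv.coe_coe,
      LinearEquiv.coe_coe, e.map_apply, LinearEquiv.apply_symm_apply]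
  unfold GaloisRepAdic.trace
  rw [h1, LinearMap.trace_conj']

/-- an element acting trivially in a representation acts trivially in every equivalent one -/
theorem eq_one_of_isEquiv {A : Type} [CommRing A] [IsLocalRing A] {ρ₁ ρ₂ : GaloisRepAdic A}
    (h : ρ₁.IsEquiv ρ₂) {σ : GQ} (hσ : ρ₂.ρ σ = 1) : ρ₁.ρ σ = 1 := by
  obtain ⟨e⟩ := h
  ext x
  apply e.toLinearEquiv.injective
  rw [e.map_apply, hσ]
  rfl

section TrRing

variable {𝒪 : Type} [CommRing 𝒪] [IsDomain 𝒪] [IsDiscreteValuationRing 𝒪]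
  [IsAdicComplete (maximalIdeal 𝒪) 𝒪] {ρbar : ResidualGaloisRep (ResidueField 𝒪)} {p : ℕ}
  {𝒟S : ∀ ⦃A : Type⦄ [CommRing A] [IsLocalRing A] [Algebra 𝒪 A], GaloisRepAdic A → Prop}
  (X : TrRingG 𝒪 ρbar p 𝒟S)

/-- the residual representation of a trace ring is unramified where `ρ̄` is -/
theorem TrRingG.residual_unramified {q : ℕ} (hq : ρbar.IsUnramifiedAt q) :
    X.ρ.residual.IsUnramifiedAt q :=
  isUnramifiedAt_of_isEquiv_baseChangeAlong _ _ _ X.residual_isEquiv hq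

/-- the residual characteristic polynomials of a trace ring -/
theorem TrRingG.residual_charpoly (σ : GQ) :
    LinearMap.charpoly (X.ρ.residual.ρ σ) =
      (LinearMap.charpoly (ρbar.ρ σ)).map (ResidueField.map (algebraMap 𝒪 X.R)) := by
  rw [charpoly_eq_of_res_isEquiv X.residual_isEquiv σ, charpoly_res_baseChangeAlong]

end TrRing

/-! ### the index set of the variables for `T = ∅` -/

/-- for `T = ∅` the index set of the presentation is `Fin r` -/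
def idxEquiv {T : Finset ℕ} (hT : primesIn T = ∅) (r : ℕ) :
    ((↥(primesIn T) × Bool × Fin 2 × Fin 2) ⊕ Fin (r - 3 * (primesIn T).card)) ≃ Fin r :=
  haveI : IsEmpty ↥(primesIn T) := by rw [hT]; exact Finset.isEmpty_coe_sort.mpr rfl
  (Equiv.emptySum _ _).trans (finCongr (by rw [hT, Finset.card_empty, Nat.mul_zero, Nat.sub_zero]))

/-! ### the level -/

/-- **The `MinLevel` at a Taylor–Wiles set**, from the hub's `SideLevel` and the family `F'`. -/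
theorem nonempty_minLevel_of_family (Sb : SideCore)
    (hΛ : Function.Surjective (algebraMap Sb.𝒪 Sb.Λ))
    (R0 : TrRingG Sb.𝒪 Sb.ρbar Sb.p (Sb.𝒟 Sb.𝒪 (Sb.Smin ∪ Sb.T)))
    (hunr0 : ∀ q : ℕ, q.Prime → q ∉ Sb.S → R0.ρ.IsUnramifiedAt q)
    (π0 : R0.R →ₐ[Sb.𝒪] (Sb.F (Sb.Smin ∪ Sb.T) Sb.hgoodS).R)
    (hπ0 : ∀ σ, π0 (R0.ρ.trace σ) = (Sb.F (Sb.Smin ∪ Sb.T) Sb.hgoodS).ρ.trace σ)
    (φ0 : R0.R →ₐ[Sb.𝒪] Sb.T0) (hφ0x : ∀ x, φ0 x = Sb.β₀ (π0 x))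
    {r n : ℕ} {qv : Fin r → ℕ}
    (hqv : ∀ i, (qv i).Prime ∧ qv i ∉ Sb.S ∧ Sb.p ^ (n + 1) ∣ qv i - 1)
    (hfrob : ∀ i, ∀ A : ValuationSubring (AlgebraicClosure ℚ), A.LiesOverPrime (qv i) →
      ∀ φ : GQ, A.IsFrobeniusAt φ (qv i) →
        ∃ α β : ResidueField Sb.𝒪, α ≠ β ∧
          LinearMap.charpoly (Sb.ρbar.ρ φ) = (Polynomial.X - Polynomial.C α) * (Polynomial.X - Polynomial.C β))
    (hS' : Sb.good (Sb.Smin ∪ Sb.T ∪ Finset.univ.image qv))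
    (L : SideLevel Sb r n qv (fun i => (hqv i).1) hS')
    (X' : TrRingG Sb.𝒪 Sb.ρbar Sb.p (Sb.𝒟 Sb.𝒪 (Sb.Smin ∪ Sb.T ∪ Finset.univ.image qv)))
    (pr₁ : X'.R →ₐ[Sb.𝒪] (Sb.F _ hS').R)
    (hpr₁ : ∀ σ, pr₁ (X'.ρ.trace σ) = (Sb.F _ hS').ρ.trace σ)
    (pr₂ : X'.R →ₐ[Sb.𝒪] R0.R) (hpr₂s : Function.Surjective pr₂)
    (hpr₂E : ∃ hloc : IsLocalHom (pr₂ : X'.R →+* R0.R),
      (X'.ρ.baseChangeAlong (pr₂ : X'.R →+* R0.R) hloc).IsEquiv R0.ρ)
    (γ : MvPowerSeries (Fin r) Sb.𝒪 →ₐ[Sb.𝒪] X'.R) (hγ : Function.Surjective γ)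
    (γ0 : MvPowerSeries (Fin r) Sb.𝒪 →ₐ[Sb.𝒪] R0.R) (hγ0 : Function.Surjective γ0) :
    Nonempty (MinLevel Sb.p γ0 φ0 Sb.M0 Sb.d n) := by
  classical
  haveI : Fact Sb.p.Prime := ⟨Sb.hp⟩
  haveI : IsHausdorff (maximalIdeal R0.R) R0.R := IsAdicComplete.toIsHausdorff
  -- G1
  obtain ⟨γ', hγ', hθγ⟩ := exists_lift_surjective X'.residue_surjective γ hγ pr₂ hpr₂s γ0 hγ0
  obtain ⟨hloc, hE⟩ := hpr₂E
  -- local-ness of the bridge
  haveI : Finite (ResidueField (Sb.F _ hS').R) :=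
    finite_residueField_of_residue_surjective (Sb.F _ hS').residue_surjective
  haveI hloc₁ : IsLocalHom (pr₁ : X'.R →+* (Sb.F _ hS').R) :=
    Fermat.Agent.S43lib.B0.EndBlock.isLocalHom_of_finite_residueField _
  have hpr₁loc : ∀ x ∈ maximalIdeal X'.R, pr₁ x ∈ maximalIdeal (Sb.F _ hS').R := by
    intro x hx
    exact map_nonunit (pr₁ : X'.R →+* (Sb.F _ hS').R) x hx
  -- G2
  have hpne : ∀ i, Sb.p ≠ qv i := fun i h => (hqv i).2.1 (h ▸ Sb.hSmin Sb.hpSmin)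
  have hex : ∀ i, ∃ δ : (X'.R)ˣ,
      X'.ρ.trace (globGenAt ⟨qv i, (hqv i).1⟩ Sb.p) = (δ : X'.R) + ((δ⁻¹ : (X'.R)ˣ) : X'.R) ∧
      (δ : X'.R) - 1 ∈ maximalIdeal X'.R ∧ pr₂ (δ : X'.R) = 1 := by
    intro i
    obtain ⟨α, β, hαβ, hch⟩ := hfrob i _ (primeLocalPlace_liesOverPrime ⟨qv i, (hqv i).1⟩)
      _ (globFrobAt_isFrobeniusAt ⟨qv i, (hqv i).1⟩)
    have hur : X'.ρ.residual.IsUnramifiedAt (qv i) := by
      refine TrRingG.residual_unramified X' ?_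
      by_contra hc
      exact (hqv i).2.1 (Sb.hSmin ((Sb.hmin _ (hqv i).1 (hpne i).symm).2 hc))
    obtain ⟨δ, h1, h2, h3⟩ := exists_tame_unit_gal Sb.p X'.detCyc.1 X'.ρ
      X'.detCyc ⟨qv i, (hqv i).1⟩ (hpne i)
      (dvd_trans (dvd_pow_self Sb.p (Nat.succ_ne_zero n)) (hqv i).2.2) hur
      (ResidueField.map (algebraMap Sb.𝒪 X'.R) α)
      (ResidueField.map (algebraMap Sb.𝒪 X'.R) β)
      (fun h => hαβ ((ResidueField.map (algebraMap Sb.𝒪 X'.R)).injective h))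
      (by
        rw [TrRingG.residual_charpoly X', hch, Polynomial.map_mul, Polynomial.map_sub,
          Polynomial.map_sub, Polynomial.map_X, Polynomial.map_C, Polynomial.map_C])
    refine ⟨δ, h1, h2, h3 R0.R (pr₂ : X'.R →+* R0.R) hloc ?_⟩
    exact eq_one_of_isEquiv hE (hunr0 (qv i) (hqv i).1 (hqv i).2.1 _
      (primeLocalPlace_liesOverPrime ⟨qv i, (hqv i).1⟩) _
      (globGenAt_mem_inertia ⟨qv i, (hqv i).1⟩ Sb.p))
  choose δ' hδ'tr hδ'1 hδ'θ using hex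
  -- the compatibility on all of `X'`
  letI : Algebra Sb.𝒪 L.B := algΛ Sb L.B
  haveI : IsScalarTower Sb.𝒪 Sb.Λ L.B := isScalarTower_algΛ Sb L.B
  haveI : IsScalarTower Sb.𝒪 Sb.Λ Sb.T0 := isScalarTower_algΛ Sb Sb.T0
  let βa : (Sb.F _ hS').R →ₐ[Sb.𝒪] L.B := { L.β with commutes' := L.β_C }
  have hcompat : ∀ x : X'.R, L.e₀ (L.β (pr₁ x)) = φ0 (pr₂ x) := by
    have h := X'.trace_gen Sb.T0
      (((L.e₀.restrictScalars Sb.𝒪).comp βa).comp pr₁) (φ0.comp pr₂) ?_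
    · exact fun x => DFunLike.congr_fun h x
    · intro σ
      show L.e₀ (L.β (pr₁ (X'.ρ.trace σ))) = φ0 (pr₂ (X'.ρ.trace σ))
      have e1 : pr₂ (X'.ρ.trace σ) = R0.ρ.trace σ := by
        rw [← trace_eq_of_isEquiv hE σ, Fermat.Agent.S43lib.Mod4.trace_baseChangeAlong]
        rfl
      rw [hpr₁, L.compat, e1, hφ0x, hπ0]
  exact SideLevel.nonempty_minLevel L hΛ γ0 φ0 γ' hγ'
    (L.β.comp (pr₁ : X'.R →+* (Sb.F _ hS').R))
    (fun c => by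
      rw [RingHom.comp_apply, RingHom.coe_coe, AlgHom.commutes]
      exact L.β_C c)
    (fun x hx => L.β_local _ (hpr₁loc x hx))
    pr₂ hθγ hcompat δ' hδ'1 hδ'θ
    (fun i => by
      rw [← hδ'tr i, RingHom.comp_apply, RingHom.coe_coe, hpr₁]
      exact L.tr_Q i)

/-! ### the theorem -/

/-- **The minimal `R = T` theorem against the hub.** -/
theorem min_main (Sb : SideCore) (hT : primesIn Sb.T = ∅)
    (hΛ : Function.Surjective (algebraMap Sb.𝒪 Sb.Λ)) [Nontrivial Sb.M0]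
    (hβ₀C : ∀ c : Sb.𝒪, Sb.β₀ (algebraMap Sb.𝒪 _ c) =
      algebraMap Sb.Λ Sb.T0 (algebraMap Sb.𝒪 Sb.Λ c))
    (hlev : ∀ (r n : ℕ) (qv : Fin r → ℕ), Function.Injective qv →
      ∀ (hqv : ∀ i, (qv i).Prime ∧ qv i ∉ Sb.S ∧ Sb.p ^ (n + 1) ∣ qv i - 1),
      (∀ i, ∀ A : ValuationSubring (AlgebraicClosure ℚ), A.LiesOverPrime (qv i) →
        ∀ φ : GQ, A.IsFrobeniusAt φ (qv i) →
          ∃ α β : ResidueField Sb.𝒪, α ≠ β ∧
            LinearMap.charpoly (Sb.ρbar.ρ φ) = (Polynomial.X - Polynomial.C α) * (Polynomial.X - Polynomial.C β)) →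
      Nonempty (SideLevel Sb r n qv (fun i => (hqv i).1)
        (Sb.hgoodQ r qv fun i => ⟨(hqv i).1, (hqv i).2.1⟩)))
    (R0 : TrRingG Sb.𝒪 Sb.ρbar Sb.p (Sb.𝒟 Sb.𝒪 (Sb.Smin ∪ Sb.T)))
    (hunr0 : ∀ q : ℕ, q.Prime → q ∉ Sb.S → R0.ρ.IsUnramifiedAt q)
    (π0 : R0.R →ₐ[Sb.𝒪] (Sb.F (Sb.Smin ∪ Sb.T) Sb.hgoodS).R)
    (hπ0 : ∀ σ, π0 (R0.ρ.trace σ) = (Sb.F (Sb.Smin ∪ Sb.T) Sb.hgoodS).ρ.trace σ)
    (hφ0 : Function.Surjective fun x => Sb.β₀ (π0 x))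
    (F' : ∀ S' : Finset ℕ, Sb.good S' → TrRingG Sb.𝒪 Sb.ρbar Sb.p (Sb.𝒟 Sb.𝒪 S'))
    (pr₁ : ∀ S' h, (F' S' h).R →ₐ[Sb.𝒪] (Sb.F S' h).R)
    (hpr₁ : ∀ S' h σ, pr₁ S' h ((F' S' h).ρ.trace σ) = (Sb.F S' h).ρ.trace σ)
    (pr₂ : ∀ S' h, (F' S' h).R →ₐ[Sb.𝒪] R0.R)
    (hpr₂s : ∀ S' h, Function.Surjective (pr₂ S' h))
    (hpr₂E : ∀ S' h, ∃ hloc : IsLocalHom (pr₂ S' h : (F' S' h).R →+* R0.R),
      ((F' S' h).ρ.baseChangeAlong (pr₂ S' h : (F' S' h).R →+* R0.R) hloc).IsEquiv R0.ρ) :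
    Function.Bijective (fun x => Sb.β₀ (π0 x)) ∧ Module.Free Sb.T0 Sb.M0 ∧
      NumCrit.IsCI Sb.𝒪 R0.R := by
  classical
  haveI := isScalarTower_M0 Sb
  haveI := finite_T0 Sb hΛ
  haveI := finite_M0 Sb hΛ
  have h2𝒪 : IsUnit (2 : Sb.𝒪) := isUnit_two_of_odd_prime_mem Sb.hp Sb.hp2 Sb.hp𝒪
  -- the map `φ0`
  let φ0 : R0.R →ₐ[Sb.𝒪] Sb.T0 :=
    { Sb.β₀.comp (π0 : R0.R →+* _) with
      commutes' := fun c => by
        show Sb.β₀ (π0 (algebraMap Sb.𝒪 R0.R c)) = _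
        rw [π0.commutes, hβ₀C]
        rfl }
  have hφ0x : ∀ x, φ0 x = Sb.β₀ (π0 x) := fun _ => rfl
  -- the Galois side for the family `F'`
  obtain ⟨r, hr⟩ := Sb.gs Sb.habs F' Sb.hp𝒪 Sb.hdet Sb.hsplit Sb.hTW Sb.S Sb.T
    Sb.hSmin Sb.hTS Sb.hTdisj Sb.hmin Sb.bbar Sb.hscal
    (fun v => ((Sb.φ₀ v : Sb.𝒪ˣ) : Sb.𝒪)) Sb.hφ₀
  -- the data at depth `n`
  have hdata : ∀ n : ℕ, ∃ (qv : Fin r → ℕ) (_ : Function.Injective qv)
      (hqv : ∀ i, (qv i).Prime ∧ qv i ∉ Sb.S ∧ Sb.p ^ (n + 1) ∣ qv i - 1)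
      (_ : ∀ i, ∀ A : ValuationSubring (AlgebraicClosure ℚ), A.LiesOverPrime (qv i) →
        ∀ φ : GQ, A.IsFrobeniusAt φ (qv i) →
          ∃ α β : ResidueField Sb.𝒪, α ≠ β ∧
            LinearMap.charpoly (Sb.ρbar.ρ φ) = (Polynomial.X - Polynomial.C α) * (Polynomial.X - Polynomial.C β))
      (γ : MvPowerSeries (Fin r) Sb.𝒪 →ₐ[Sb.𝒪]
        (F' (Sb.Smin ∪ Sb.T ∪ Finset.univ.image qv)
          (Sb.hgoodQ r qv fun i => ⟨(hqv i).1, (hqv i).2.1⟩)).R), Function.Surjective γ := by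
    intro n
    obtain ⟨qv, hinj, hqv, hfrob, hDQ⟩ := hr n
    obtain ⟨-, -, γ, hγ, -, -⟩ := hDQ (Sb.hgoodQ r qv fun i => ⟨(hqv i).1, (hqv i).2.1⟩)
    refine ⟨qv, hinj, hqv, hfrob,
      γ.comp ((MvPowerSeries.renameEquiv Sb.𝒪 (idxEquiv hT r)).symm : _ →ₐ[Sb.𝒪] _), ?_⟩
    exact hγ.comp (AlgEquiv.surjective _)
  -- the fixed presentation of `R0`
  obtain ⟨qv0, -, hqv0, -, γ00, hγ00⟩ := hdata 0
  let γ0 : MvPowerSeries (Fin r) Sb.𝒪 →ₐ[Sb.𝒪] R0.R := (pr₂ _ _).comp γ00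
  have hγ0 : Function.Surjective γ0 := (hpr₂s _ _).comp hγ00
  -- the levels
  have hL : ∀ n, Nonempty (MinLevel Sb.p γ0 φ0 Sb.M0 Sb.d n) := by
    intro n
    obtain ⟨qv, hinj, hqv, hfrob, γ, hγ⟩ := hdata n
    obtain ⟨L⟩ := hlev r n qv hinj hqv hfrob
    exact nonempty_minLevel_of_family Sb hΛ R0 hunr0 π0 hπ0 φ0 hφ0x hqv hfrob _ L
      (F' _ _) (pr₁ _ _) (hpr₁ _ _) (pr₂ _ _) (hpr₂s _ _) (hpr₂E _ _) γ hγ γ0 hγ0
  -- the abstract theorem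
  obtain ⟨hbij, hfree, Ω, -, hker⟩ := min_abstract Sb.hp Sb.hp𝒪 h2𝒪 hγ0 hφ0 hL
  exact ⟨hbij, hfree, r, γ0, Ω, hγ0, hker⟩

end Fermat.Agent.S59lib.Min
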