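import Mathlib
import Fermat.Agent.S59lib.Min.Main

/-!
# Project I / MIN : the output of the minimal `R = T` theorem, via JOINS

* `min_hub` : `min_main` with the family `F'(S') := join (F S') R0` supplied by a JOIN hypothesis
  (`hjoin`, in the shape of `RT.HasJoins`, for every good `S'`) and monotonicity of the type (`hmono`):
  EVERY finite trace ring `R0` of the minimal type with a map `π0 : R0 → T_∅` matching the traces is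
  isomorphic to `T_∅` by `π0`; `β₀ : T_∅ → T0` is bijective; `M0` is free over `T0`; `R0` and `T_∅` are
  complete intersections.
* `min_out` : **(MIN-out)**, in the shape of `RT.MinOut`: for every such `R0` over the base point
  `(T_∅, ρ_∅, π₀)`, `length Φ_{π₀ ∘ μ} ≤ length 𝒪 ⧸ η_{π₀}`.
-/

set_option autoImplicit false
set_option linter.unusedSectionVars false
set_option linter.style.haveILetI false

noncomputable section

namespace Fermat.Agent.S59lib.Min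

open IsLocalRing Polynomial Fermat.Agent.S59lib.Hub Fermat.Agent.TeamA.Rep
  Fermat.Agent.S43lib.B3 Fermat.Agent.S56lib.Main Fermat.Agent.S56lib.TWSel

/-- `G_ℚ` -/
local notation "GQ" => (AlgebraicClosure ℚ ≃ₐ[ℚ] AlgebraicClosure ℚ)

/-! ### general lemmas -/

/-- complete intersections are invariant under isomorphisms -/
theorem isCI_of_algEquiv {𝒪 R T : Type*} [CommRing 𝒪] [CommRing R] [CommRing T] [Algebra 𝒪 R]
    [Algebra 𝒪 T] (e : R ≃ₐ[𝒪] T) (h : NumCrit.IsCI 𝒪 R) : NumCrit.IsCI 𝒪 T := by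
  obtain ⟨n, ψ, f, hψ, hker⟩ := h
  refine ⟨n, (e : R →ₐ[𝒪] T).comp ψ, f, e.surjective.comp hψ, ?_⟩
  rw [← hker]
  ext x
  rw [RingHom.mem_ker, RingHom.mem_ker]
  show e (ψ x) = 0 ↔ ψ x = 0
  exact map_eq_zero_iff e e.injective

/-- a finite epimorphism of commutative algebras is surjective -/
theorem surjective_of_trace_epi {R : Type*} [CommRing R] {J A : Type} [CommRing J] [CommRing A]
    [Algebra R J] [Algebra R A] [Module.Finite R A] (f : J →ₐ[R] A)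
    (h : ∀ (A' : Type) [CommRing A'] [Algebra R A'] (φ φ' : A →ₐ[R] A'),
      (∀ x, φ (f x) = φ' (f x)) → φ = φ') : Function.Surjective f := by
  letI : Algebra J A := f.toRingHom.toAlgebra
  haveI : IsScalarTower R J A := IsScalarTower.of_algebraMap_eq fun r => (f.commutes r).symm
  haveI : Module.Finite J A := Module.Finite.of_restrictScalars_finite R J A
  have hepi : Algebra.IsEpi J A := by
    rw [Algebra.isEpi_iff_forall_one_tmul_eq]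
    intro a
    have := h (TensorProduct J A A) (Algebra.TensorProduct.includeRight.restrictScalars R)
      (Algebra.TensorProduct.includeLeft) (fun x => by
        show (Algebra.TensorProduct.includeRight : A →ₐ[J] TensorProduct J A A) (algebraMap J A x) =
          (Algebra.TensorProduct.includeLeft : A →ₐ[J] TensorProduct J A A) (algebraMap J A x)
        rw [AlgHom.commutes, AlgHom.commutes])
    exact congrArg (fun φ => φ a) this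
  exact Algebra.isEpi_iff_surjective_algebraMap_of_finite.mp hepi

/-- a surjection of augmented algebras induces a surjection of cotangent spaces -/
theorem length_cotangent_le_of_surj {𝒪 : Type*} [CommRing 𝒪] {R : Type*} [CommRing R] [Algebra 𝒪 R]
    {R'' : Type*} [CommRing R''] [Algebra 𝒪 R''] (π : R →ₐ[𝒪] 𝒪) (π'' : R'' →ₐ[𝒪] 𝒪)
    (u : R →ₐ[𝒪] R'') (hu : Function.Surjective u) (hπ : ∀ x, π'' (u x) = π x) :
    Module.length 𝒪 (RingHom.ker (π'' : R'' →+* 𝒪)).Cotangent ≤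
      Module.length 𝒪 (RingHom.ker (π : R →+* 𝒪)).Cotangent := by
  have hcomap : RingHom.ker (π : R →+* 𝒪) ≤ (RingHom.ker (π'' : R'' →+* 𝒪)).comap u := by
    intro x hx
    rw [Ideal.mem_comap, RingHom.mem_ker]
    rw [RingHom.mem_ker] at hx
    exact (hπ x).trans hx
  set f := Ideal.mapCotangent (RingHom.ker (π : R →+* 𝒪)) (RingHom.ker (π'' : R'' →+* 𝒪)) u hcomap
    with hf
  have hfs : Function.Surjective f := by
    intro z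
    obtain ⟨⟨y, hy⟩, rfl⟩ := Ideal.toCotangent_surjective _ z
    obtain ⟨x, rfl⟩ := hu y
    have hx : x ∈ RingHom.ker (π : R →+* 𝒪) := by
      rw [RingHom.mem_ker] at hy ⊢
      exact (hπ x).symm.trans hy
    exact ⟨(RingHom.ker (π : R →+* 𝒪)).toCotangent ⟨x, hx⟩, rfl⟩
  exact Module.length_le_of_surjective f hfs

/-- the same trace ring, seen with another type -/
def retype {𝒪 : Type} [CommRing 𝒪] [IsDomain 𝒪] [IsDiscreteValuationRing 𝒪]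
    [IsAdicComplete (maximalIdeal 𝒪) 𝒪] {ρbar : ResidualGaloisRep (ResidueField 𝒪)} {p : ℕ}
    {𝒟S 𝒟S' : ∀ ⦃A : Type⦄ [CommRing A] [IsLocalRing A] [Algebra 𝒪 A], GaloisRepAdic A → Prop}
    (R : TrRingG 𝒪 ρbar p 𝒟S) (h : 𝒟S' R.ρ) : TrRingG 𝒪 ρbar p 𝒟S' where
  R := R.R
  residue_surjective := R.residue_surjective
  ρ := R.ρ
  isType := h
  detCyc := R.detCyc
  residual_isEquiv := R.residual_isEquiv
  trace_gen := R.trace_gen

/-! ### the theorem -/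

/-- **The minimal `R = T` theorem against the hub, with the family `F'` built from JOINS.** -/
theorem min_hub (Sb : SideCore) (hT : primesIn Sb.T = ∅)
    (hΛ : Function.Surjective (algebraMap Sb.𝒪 Sb.Λ)) [Nontrivial Sb.M0]
    (hβ₀C : ∀ c : Sb.𝒪, Sb.β₀ (algebraMap Sb.𝒪 _ c) =
      algebraMap Sb.Λ Sb.T0 (algebraMap Sb.𝒪 Sb.Λ c))
    (hβ₀s : Function.Surjective Sb.β₀)
    (hlev : ∀ (r n : ℕ) (qv : Fin r → ℕ), Function.Injective qv →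
      ∀ (hqv : ∀ i, (qv i).Prime ∧ qv i ∉ Sb.S ∧ Sb.p ^ (n + 1) ∣ qv i - 1),
      (∀ i, ∀ A : ValuationSubring (AlgebraicClosure ℚ), A.LiesOverPrime (qv i) →
        ∀ φ : GQ, A.IsFrobeniusAt φ (qv i) →
          ∃ α β : ResidueField Sb.𝒪, α ≠ β ∧
            LinearMap.charpoly (Sb.ρbar.ρ φ) = (Polynomial.X - Polynomial.C α) * (Polynomial.X - Polynomial.C β)) →
      Nonempty (SideLevel Sb r n qv (fun i => (hqv i).1)
        (Sb.hgoodQ r qv fun i => ⟨(hqv i).1, (hqv i).2.1⟩)))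
    (hfinF : ∀ (S' : Finset ℕ) (h : Sb.good S'), Module.Finite Sb.𝒪 (Sb.F S' h).R)
    (hjoin : ∀ (S' : Finset ℕ), Sb.good S' →
      ∀ (A B : TrRingG Sb.𝒪 Sb.ρbar Sb.p (Sb.𝒟 Sb.𝒪 S')) [Module.Finite Sb.𝒪 A.R]
        [Module.Finite Sb.𝒪 B.R],
        ∃ (J : TrRingG Sb.𝒪 Sb.ρbar Sb.p (Sb.𝒟 Sb.𝒪 S')) (_ : Module.Finite Sb.𝒪 J.R)
          (prA : J.R →ₐ[Sb.𝒪] A.R) (prB : J.R →ₐ[Sb.𝒪] B.R)
          (hA : IsLocalHom (prA : J.R →+* A.R)) (hB : IsLocalHom (prB : J.R →+* B.R)),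
          Function.Surjective prA ∧ Function.Surjective prB ∧
          (J.ρ.baseChangeAlong (prA : J.R →+* A.R) hA).IsEquiv A.ρ ∧
          (J.ρ.baseChangeAlong (prB : J.R →+* B.R) hB).IsEquiv B.ρ)
    (R0 : TrRingG Sb.𝒪 Sb.ρbar Sb.p (Sb.𝒟 Sb.𝒪 (Sb.Smin ∪ Sb.T))) [Module.Finite Sb.𝒪 R0.R]
    (hmono : ∀ (S' : Finset ℕ), Sb.good S' → Sb.𝒟 Sb.𝒪 S' R0.ρ)
    (hunr0 : ∀ q : ℕ, q.Prime → q ∉ Sb.S → R0.ρ.IsUnramifiedAt q)
    (π0 : R0.R →ₐ[Sb.𝒪] (Sb.F (Sb.Smin ∪ Sb.T) Sb.hgoodS).R)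
    (hπ0 : ∀ σ, π0 (R0.ρ.trace σ) = (Sb.F (Sb.Smin ∪ Sb.T) Sb.hgoodS).ρ.trace σ) :
    Function.Bijective π0 ∧ Function.Bijective Sb.β₀ ∧ Module.Free Sb.T0 Sb.M0 ∧
      NumCrit.IsCI Sb.𝒪 R0.R ∧ NumCrit.IsCI Sb.𝒪 (Sb.F (Sb.Smin ∪ Sb.T) Sb.hgoodS).R := by
  classical
  -- `π0` is surjective
  haveI := hfinF _ Sb.hgoodS
  have hπ0s : Function.Surjective π0 := surjective_of_trace_epi π0 fun A' _ _ φ φ' h =>
    (Sb.F _ Sb.hgoodS).trace_gen A' φ φ' fun σ => by rw [← hπ0 σ]; exact h _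
  -- the joins
  have hJ : ∀ (S' : Finset ℕ) (h : Sb.good S'),
      ∃ (J : TrRingG Sb.𝒪 Sb.ρbar Sb.p (Sb.𝒟 Sb.𝒪 S')) (prA : J.R →ₐ[Sb.𝒪] (Sb.F S' h).R)
        (prB : J.R →ₐ[Sb.𝒪] R0.R),
        (∀ σ, prA (J.ρ.trace σ) = (Sb.F S' h).ρ.trace σ) ∧ Function.Surjective prB ∧
        ∃ hloc : IsLocalHom (prB : J.R →+* R0.R),
          (J.ρ.baseChangeAlong (prB : J.R →+* R0.R) hloc).IsEquiv R0.ρ := by
    intro S' h
    haveI := hfinF S' h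
    haveI : Module.Finite Sb.𝒪 (retype R0 (hmono S' h)).R := ‹Module.Finite Sb.𝒪 R0.R›
    obtain ⟨J, -, prA, prB, hA, hB, -, hsB, hEA, hEB⟩ :=
      hjoin S' h (Sb.F S' h) (retype R0 (hmono S' h))
    refine ⟨J, prA, prB, fun σ => ?_, hsB, hB, hEB⟩
    rw [← trace_eq_of_isEquiv hEA σ, Fermat.Agent.S43lib.Mod4.trace_baseChangeAlong]
    rfl
  choose F' pr₁ pr₂ hpr₁ hpr₂s hpr₂E using hJ
  obtain ⟨hbij, hfree, hCI⟩ := min_main Sb hT hΛ hβ₀C hlev R0 hunr0 π0 hπ0 (hβ₀s.comp hπ0s)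
    F' pr₁ hpr₁ pr₂ hpr₂s hpr₂E
  have hπ0i : Function.Injective π0 := Function.Injective.of_comp (f := Sb.β₀) hbij.1
  have hπ0b : Function.Bijective π0 := ⟨hπ0i, hπ0s⟩
  refine ⟨hπ0b, (Function.Bijective.of_comp_iff Sb.β₀ hπ0b).1 hbij, hfree, hCI,
    isCI_of_algEquiv (AlgEquiv.ofBijective π0 hπ0b) hCI⟩

/-- **(MIN-out)**: every finite trace ring of the minimal type over the base point `(T_∅, ρ_∅, π₀)` is
isomorphic to `T_∅`, and its cotangent space at `π₀ ∘ μ` has length at most `length 𝒪 ⧸ η_{π₀}`. -/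
theorem min_out (Sb : SideCore) (hT : primesIn Sb.T = ∅)
    (hΛ : Function.Surjective (algebraMap Sb.𝒪 Sb.Λ)) [Nontrivial Sb.M0]
    (hβ₀C : ∀ c : Sb.𝒪, Sb.β₀ (algebraMap Sb.𝒪 _ c) =
      algebraMap Sb.Λ Sb.T0 (algebraMap Sb.𝒪 Sb.Λ c))
    (hβ₀s : Function.Surjective Sb.β₀)
    (hlev : ∀ (r n : ℕ) (qv : Fin r → ℕ), Function.Injective qv →
      ∀ (hqv : ∀ i, (qv i).Prime ∧ qv i ∉ Sb.S ∧ Sb.p ^ (n + 1) ∣ qv i - 1),
      (∀ i, ∀ A : ValuationSubring (AlgebraicClosure ℚ), A.LiesOverPrime (qv i) →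
        ∀ φ : GQ, A.IsFrobeniusAt φ (qv i) →
          ∃ α β : ResidueField Sb.𝒪, α ≠ β ∧
            LinearMap.charpoly (Sb.ρbar.ρ φ) = (Polynomial.X - Polynomial.C α) * (Polynomial.X - Polynomial.C β)) →
      Nonempty (SideLevel Sb r n qv (fun i => (hqv i).1)
        (Sb.hgoodQ r qv fun i => ⟨(hqv i).1, (hqv i).2.1⟩)))
    (hfinF : ∀ (S' : Finset ℕ) (h : Sb.good S'), Module.Finite Sb.𝒪 (Sb.F S' h).R)
    (hjoin : ∀ (S' : Finset ℕ), Sb.good S' →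
      ∀ (A B : TrRingG Sb.𝒪 Sb.ρbar Sb.p (Sb.𝒟 Sb.𝒪 S')) [Module.Finite Sb.𝒪 A.R]
        [Module.Finite Sb.𝒪 B.R],
        ∃ (J : TrRingG Sb.𝒪 Sb.ρbar Sb.p (Sb.𝒟 Sb.𝒪 S')) (_ : Module.Finite Sb.𝒪 J.R)
          (prA : J.R →ₐ[Sb.𝒪] A.R) (prB : J.R →ₐ[Sb.𝒪] B.R)
          (hA : IsLocalHom (prA : J.R →+* A.R)) (hB : IsLocalHom (prB : J.R →+* B.R)),
          Function.Surjective prA ∧ Function.Surjective prB ∧
          (J.ρ.baseChangeAlong (prA : J.R →+* A.R) hA).IsEquiv A.ρ ∧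
          (J.ρ.baseChangeAlong (prB : J.R →+* B.R) hB).IsEquiv B.ρ)
    (hmono : ∀ (S' : Finset ℕ), Sb.good S' → ∀ {A : Type} [CommRing A] [IsLocalRing A]
      [Algebra Sb.𝒪 A] (ρ : GaloisRepAdic A), Sb.𝒟 Sb.𝒪 (Sb.Smin ∪ Sb.T) ρ → Sb.𝒟 Sb.𝒪 S' ρ)
    (hunr : ∀ {A : Type} [CommRing A] [IsLocalRing A] [Algebra Sb.𝒪 A] (ρ : GaloisRepAdic A),
      Sb.𝒟 Sb.𝒪 (Sb.Smin ∪ Sb.T) ρ → ∀ q : ℕ, q.Prime → q ∉ Sb.S → ρ.IsUnramifiedAt q)
    [Module.IsTorsionFree Sb.𝒪 (Sb.F (Sb.Smin ∪ Sb.T) Sb.hgoodS).R]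
    (π₀ : (Sb.F (Sb.Smin ∪ Sb.T) Sb.hgoodS).R →ₐ[Sb.𝒪] Sb.𝒪) {ϖ : Sb.𝒪} (hϖ : Irreducible ϖ)
    (hfin : Module.length Sb.𝒪
      (RingHom.ker (π₀ : (Sb.F (Sb.Smin ∪ Sb.T) Sb.hgoodS).R →+* Sb.𝒪)).Cotangent ≠ ⊤)
    (R₀ : TrRingG Sb.𝒪 Sb.ρbar Sb.p (Sb.𝒟 Sb.𝒪 (Sb.Smin ∪ Sb.T))) [Module.Finite Sb.𝒪 R₀.R]
    (μ : R₀.R →ₐ[Sb.𝒪] (Sb.F (Sb.Smin ∪ Sb.T) Sb.hgoodS).R)
    (hμ : IsLocalHom (μ : R₀.R →+* (Sb.F (Sb.Smin ∪ Sb.T) Sb.hgoodS).R))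
    (hE : (R₀.ρ.baseChangeAlong (μ : R₀.R →+* (Sb.F (Sb.Smin ∪ Sb.T) Sb.hgoodS).R) hμ).IsEquiv
      (Sb.F (Sb.Smin ∪ Sb.T) Sb.hgoodS).ρ) :
    Module.length Sb.𝒪 (RingHom.ker ((π₀.comp μ : R₀.R →ₐ[Sb.𝒪] Sb.𝒪) : R₀.R →+* Sb.𝒪)).Cotangent ≤
      Module.length Sb.𝒪 (Sb.𝒪 ⧸ NumCrit.congIdeal π₀) := by
  classical
  haveI := hfinF _ Sb.hgoodS
  have hμtr : ∀ σ, μ (R₀.ρ.trace σ) = (Sb.F (Sb.Smin ∪ Sb.T) Sb.hgoodS).ρ.trace σ := by
    intro σ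
    rw [← trace_eq_of_isEquiv hE σ, Fermat.Agent.S43lib.Mod4.trace_baseChangeAlong]
    rfl
  obtain ⟨hμb, -, -, -, hCI⟩ := min_hub Sb hT hΛ hβ₀C hβ₀s hlev hfinF hjoin R₀
    (fun S' h => hmono S' h R₀.ρ R₀.isType) (hunr R₀.ρ R₀.isType) μ hμtr
  have h1 := (NumCrit.length_cotangent_of_isCI hCI π₀ hϖ hfin).1
  rw [← h1]
  let e : R₀.R ≃ₐ[Sb.𝒪] (Sb.F (Sb.Smin ∪ Sb.T) Sb.hgoodS).R := AlgEquiv.ofBijective μ hμb
  refine length_cotangent_le_of_surj π₀ (π₀.comp μ) (e.symm : _ →ₐ[Sb.𝒪] R₀.R) e.symm.surjective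
    fun x => ?_
  show π₀ (μ (e.symm x)) = π₀ x
  congr 1
  exact e.apply_symm_apply x

end Fermat.Agent.S59lib.Min
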