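import Mathlib
import Fermat.Agent.TeamA.MatRep
import Fermat.Agent.S43lib.Loc.TraceKernelGal

/-!
# Project I / MIN : Carayol's theorem for `GL₂` over a local ring

`isEquiv_of_trace_eq` : two representations `ρ₁, ρ₂ : G_ℚ → GL₂(A)` over a local ring `A`, residually
absolutely irreducible, with the same trace function, are equivalent.

Proof: the matrices `ρ₁(g)` span `M₂(A)` (Burnside + Nakayama, on main), and so do the `ρ₂(g)`; by the
nondegeneracy of the trace form every linear relation among the `ρ₁(g)` holds among the `ρ₂(g)`, so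
`ρ₁(g) ↦ ρ₂(g)` extends to an `A`-algebra endomorphism `Φ` of `M₂(A)`
(`exists_algHom_of_trace_eq`); an algebra endomorphism of `M₂(A)`, `A` local, is inner
(`exists_conj_of_algHom`, Skolem–Noether, explicit: `U = Φ(E₀₀) E_{b0} + Φ(E₁₀) E_{b1}` for a unit
entry `(a, b)` of `Φ(E₀₀)`).
-/

set_option autoImplicit false
set_option linter.unusedSectionVars false
set_option linter.style.haveILetI false

namespace Fermat.Agent.S59lib.Min

open IsLocalRing Matrix Fermat.Agent.TeamA.Rep

section Relations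

variable {A : Type*} [CommRing A] {G : Type*} [Monoid G]

theorem trace_lc_mul' (N : G →* Matrix (Fin 2) (Fin 2) A) (a : G →₀ A) (τ : G) :
    (Finsupp.linearCombination A (⇑N) a * N τ).trace =
      a.sum fun σ c => c * (N (σ * τ)).trace := by
  rw [Finsupp.linearCombination_apply, Finsupp.sum, Finset.sum_mul, Matrix.trace_sum, Finsupp.sum]
  refine Finset.sum_congr rfl fun σ _ => ?_
  rw [Matrix.smul_mul, Matrix.trace_smul, smul_eq_mul, map_mul]

/-- a matrix which is trace-orthogonal to a spanning set is zero -/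
theorem eq_zero_of_forall_trace_mul (X : Matrix (Fin 2) (Fin 2) A) (S : Set (Matrix (Fin 2) (Fin 2) A))
    (hS : Submodule.span A S = ⊤) (h : ∀ Y ∈ S, (X * Y).trace = 0) : X = 0 := by
  have h1 : ∀ Y : Matrix (Fin 2) (Fin 2) A, (X * Y).trace = 0 := by
    intro Y
    have hY : Y ∈ Submodule.span A S := by rw [hS]; exact Submodule.mem_top
    induction hY using Submodule.span_induction with
    | mem Y hY => exact h Y hY
    | zero => rw [Matrix.mul_zero, Matrix.trace_zero]
    | add Y Y' _ _ hY hY' => rw [Matrix.mul_add, Matrix.trace_add, hY, hY', add_zero]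
    | smul c Y _ hY => rw [Matrix.mul_smul, Matrix.trace_smul, hY, smul_zero]
  ext i j
  rw [← Fermat.Agent.S43lib.Loc.trace_mul_single X i j, h1]
  rfl

/-- **the trace argument**: relations among the `ρ₁ σ` hold among the `ρ₂ σ`. -/
theorem lc_eq_zero_of_trace_eq' (ρ₁ ρ₂ : G →* Matrix (Fin 2) (Fin 2) A)
    (hspan : Submodule.span A (Set.range ρ₂) = ⊤) (htr : ∀ σ, (ρ₁ σ).trace = (ρ₂ σ).trace)
    (a : G →₀ A) (ha : Finsupp.linearCombination A (⇑ρ₁) a = 0) :
    Finsupp.linearCombination A (⇑ρ₂) a = 0 := by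
  refine eq_zero_of_forall_trace_mul _ (Set.range ρ₂) hspan ?_
  rintro _ ⟨τ, rfl⟩
  rw [trace_lc_mul']
  have h2 := trace_lc_mul' ρ₁ a τ
  rw [ha, Matrix.zero_mul, Matrix.trace_zero] at h2
  rw [h2]
  refine Finsupp.sum_congr fun σ _ => ?_
  rw [htr]

theorem lc_mapDomain_mul_right (ρ : G →* Matrix (Fin 2) (Fin 2) A) (a : G →₀ A) (g : G) :
    Finsupp.linearCombination A (⇑ρ) (a.mapDomain (· * g)) =
      Finsupp.linearCombination A (⇑ρ) a * ρ g := by
  rw [Finsupp.linearCombination_mapDomain, Finsupp.linearCombination_apply,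
    Finsupp.linearCombination_apply, Finsupp.sum, Finsupp.sum, Finset.sum_mul]
  refine Finset.sum_congr rfl fun σ _ => ?_
  rw [Function.comp_apply, map_mul, Matrix.smul_mul]

/-- **The algebra endomorphism of `M₂(A)` attached to two spanning representations with the same
trace function.** -/
theorem exists_algHom_of_trace_eq (ρ₁ ρ₂ : G →* Matrix (Fin 2) (Fin 2) A)
    (hspan₁ : Submodule.span A (Set.range ρ₁) = ⊤) (hspan₂ : Submodule.span A (Set.range ρ₂) = ⊤)
    (htr : ∀ σ, (ρ₁ σ).trace = (ρ₂ σ).trace) :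
    ∃ Φ : Matrix (Fin 2) (Fin 2) A →ₗ[A] Matrix (Fin 2) (Fin 2) A,
      (∀ g, Φ (ρ₁ g) = ρ₂ g) ∧ (∀ X Y, Φ (X * Y) = Φ X * Φ Y) ∧ Φ 1 = 1 := by
  classical
  set L₁ := Finsupp.linearCombination A (⇑ρ₁) with hL₁
  set L₂ := Finsupp.linearCombination A (⇑ρ₂) with hL₂
  have hsurj : Function.Surjective L₁ := by
    rw [← LinearMap.range_eq_top, hL₁, Finsupp.range_linearCombination, hspan₁]
  have hker : ∀ a, L₁ a = 0 → L₂ a = 0 := fun a ha =>
    lc_eq_zero_of_trace_eq' ρ₁ ρ₂ hspan₂ htr a ha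
  have hker' : ∀ a b, L₁ a = L₁ b → L₂ a = L₂ b := by
    intro a b hab
    have := hker (a - b) (by rw [map_sub, hab, sub_self])
    rwa [map_sub, sub_eq_zero] at this
  let s := Function.surjInv hsurj
  have hs : ∀ X, L₁ (s X) = X := Function.surjInv_eq hsurj
  have key : ∀ a, L₂ (s (L₁ a)) = L₂ a := fun a => hker' _ _ (hs _)
  let Φ : Matrix (Fin 2) (Fin 2) A →ₗ[A] Matrix (Fin 2) (Fin 2) A :=
    { toFun := fun X => L₂ (s X)
      map_add' := fun X Y => by
        rw [← map_add]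
        exact hker' _ _ (by rw [hs, map_add, hs, hs])
      map_smul' := fun c X => by
        rw [RingHom.id_apply, ← map_smul]
        exact hker' _ _ (by rw [hs, map_smul, hs]) }
  have hΦ : ∀ a, Φ (L₁ a) = L₂ a := key
  have hΦρ : ∀ g, Φ (ρ₁ g) = ρ₂ g := by
    intro g
    have h1 : L₁ (Finsupp.single g 1) = ρ₁ g := by
      rw [hL₁, Finsupp.linearCombination_single, one_smul]
    have h2 : L₂ (Finsupp.single g 1) = ρ₂ g := by
      rw [hL₂, Finsupp.linearCombination_single, one_smul]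
    rw [← h1, hΦ, h2]
  have hmulρ : ∀ X g, Φ (X * ρ₁ g) = Φ X * ρ₂ g := by
    intro X g
    obtain ⟨a, rfl⟩ := hsurj X
    rw [hL₁, ← lc_mapDomain_mul_right, ← hL₁, hΦ, hΦ, hL₂, lc_mapDomain_mul_right]
  refine ⟨Φ, hΦρ, ?_, ?_⟩
  · intro X Y
    have hY : Y ∈ Submodule.span A (Set.range ρ₁) := by rw [hspan₁]; exact Submodule.mem_top
    induction hY using Submodule.span_induction with
    | mem Y hY =>
      obtain ⟨g, rfl⟩ := hY
      rw [hmulρ, hΦρ]
    | zero => rw [Matrix.mul_zero, map_zero, Matrix.mul_zero]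
    | add Y Y' _ _ hY hY' => rw [Matrix.mul_add, map_add, map_add, Matrix.mul_add, hY, hY']
    | smul c Y _ hY => rw [Matrix.mul_smul, map_smul, map_smul, Matrix.mul_smul, hY]
  · have := hΦρ 1
    rw [map_one ρ₁, map_one ρ₂] at this
    exact this

end Relations

section SkolemNoether

variable {A : Type*} [CommRing A]

/-- the matrix unit -/
local notation "E" => fun (i j : Fin 2) => (Matrix.single i j (1 : A) : Matrix (Fin 2) (Fin 2) A)

theorem single_zero_add_single_one :
    (Matrix.single 0 0 (1 : A) : Matrix (Fin 2) (Fin 2) A) + Matrix.single 1 1 (1 : A) = 1 := by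
  ext i j
  fin_cases i <;> fin_cases j <;> simp

/-- the product of three matrices, the middle one with entries in an ideal, has entries in it -/
theorem mul_mul_entries_mem (I : Ideal A) (X Y Z : Matrix (Fin 2) (Fin 2) A)
    (hY : ∀ i j, Y i j ∈ I) (i j : Fin 2) : (X * Y * Z) i j ∈ I := by
  rw [Matrix.mul_apply]
  refine Ideal.sum_mem _ fun k _ => ?_
  refine Ideal.mul_mem_right _ _ ?_
  rw [Matrix.mul_apply]
  refine Ideal.sum_mem _ fun l _ => ?_
  exact Ideal.mul_mem_left _ _ (hY l k)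

variable [IsLocalRing A]

/-- **Skolem–Noether for `M₂(A)`, `A` local**: a unital multiplicative linear endomorphism of `M₂(A)`
is inner. -/
theorem exists_conj_of_mulHom (Φ : Matrix (Fin 2) (Fin 2) A →ₗ[A] Matrix (Fin 2) (Fin 2) A)
    (hmul : ∀ X Y, Φ (X * Y) = Φ X * Φ Y) (hone : Φ 1 = 1) :
    ∃ U U' : Matrix (Fin 2) (Fin 2) A, U * U' = 1 ∧ U' * U = 1 ∧ ∀ X, Φ X * U = U * X := by
  classical
  set F : Fin 2 → Fin 2 → Matrix (Fin 2) (Fin 2) A := fun i j => Φ (Matrix.single i j (1 : A))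
    with hF
  have hFF : ∀ i j k l, F i j * F k l = if j = k then F i l else 0 := by
    intro i j k l
    simp only [hF]
    rw [← hmul]
    by_cases hjk : j = k
    · subst hjk
      rw [if_pos rfl, Matrix.single_mul_single_same, mul_one]
    · rw [if_neg hjk, Matrix.single_mul_single_of_ne _ _ _ _ hjk, map_zero]
  have hsum : F 0 0 + F 1 1 = 1 := by
    simp only [hF]
    rw [← map_add, single_zero_add_single_one, hone]
  -- a unit entry of `F 0 0`
  obtain ⟨a, b, hab⟩ : ∃ a b, IsUnit (F 0 0 a b) := by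
    by_contra hcon
    push Not at hcon
    have h00 : ∀ i j, F 0 0 i j ∈ maximalIdeal A := fun i j => (mem_maximalIdeal _).mpr (hcon i j)
    have h11 : ∀ i j, F 1 1 i j ∈ maximalIdeal A := by
      have e : F 1 1 = F 1 0 * F 0 0 * F 0 1 := by
        rw [hFF 1 0 0 0, if_pos rfl, hFF 1 0 0 1, if_pos rfl]
      rw [e]
      exact mul_mul_entries_mem _ _ _ _ h00
    have h1 : (1 : A) ∈ maximalIdeal A := by
      have := congrFun (congrFun hsum 0) 0
      rw [Matrix.add_apply, Matrix.one_apply_eq] at this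
      rw [← this]
      exact Ideal.add_mem _ (h00 0 0) (h11 0 0)
    exact (Ideal.ne_top_iff_one _).mp (maximalIdeal.isMaximal A).ne_top h1
  obtain ⟨c, hc⟩ := hab.exists_left_inv
  set U : Matrix (Fin 2) (Fin 2) A :=
    F 0 0 * Matrix.single b 0 (1 : A) + F 1 0 * Matrix.single b 1 (1 : A) with hU
  set V : Matrix (Fin 2) (Fin 2) A :=
    c • (Matrix.single 0 a (1 : A) * F 0 0 + Matrix.single 1 a (1 : A) * F 0 1) with hV
  have hVU : V * U = 1 := by
    rw [hV, hU, Matrix.smul_mul, Matrix.add_mul, Matrix.mul_add, Matrix.mul_add]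
    have e1 : Matrix.single (0 : Fin 2) a (1 : A) * F 0 0 * (F 0 0 * Matrix.single b 0 (1 : A)) =
        Matrix.single (0 : Fin 2) (0 : Fin 2) (F 0 0 a b) := by
      rw [Matrix.mul_assoc, ← Matrix.mul_assoc (F 0 0), hFF 0 0 0 0, if_pos rfl, ← Matrix.mul_assoc,
        Matrix.single_mul_mul_single, one_mul, mul_one]
    have e2 : Matrix.single (0 : Fin 2) a (1 : A) * F 0 0 * (F 1 0 * Matrix.single b 1 (1 : A)) =
        (0 : Matrix (Fin 2) (Fin 2) A) := by
      rw [Matrix.mul_assoc, ← Matrix.mul_assoc (F 0 0), hFF 0 0 1 0, if_neg (by decide),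
        Matrix.zero_mul, Matrix.mul_zero]
    have e3 : Matrix.single (1 : Fin 2) a (1 : A) * F 0 1 * (F 0 0 * Matrix.single b 0 (1 : A)) =
        (0 : Matrix (Fin 2) (Fin 2) A) := by
      rw [Matrix.mul_assoc, ← Matrix.mul_assoc (F 0 1), hFF 0 1 0 0, if_neg (by decide),
        Matrix.zero_mul, Matrix.mul_zero]
    have e4 : Matrix.single (1 : Fin 2) a (1 : A) * F 0 1 * (F 1 0 * Matrix.single b 1 (1 : A)) =
        Matrix.single (1 : Fin 2) (1 : Fin 2) (F 0 0 a b) := by
      rw [Matrix.mul_assoc, ← Matrix.mul_assoc (F 0 1), hFF 0 1 1 0, if_pos rfl, ← Matrix.mul_assoc,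
        Matrix.single_mul_mul_single, one_mul, mul_one]
    have e5 : Matrix.single (0 : Fin 2) a (1 : A) * F 0 0 * (F 0 0 * Matrix.single b 0 (1 : A)) +
        Matrix.single (0 : Fin 2) a (1 : A) * F 0 0 * (F 1 0 * Matrix.single b 1 (1 : A)) +
        (Matrix.single (1 : Fin 2) a (1 : A) * F 0 1 * (F 0 0 * Matrix.single b 0 (1 : A)) +
          Matrix.single (1 : Fin 2) a (1 : A) * F 0 1 * (F 1 0 * Matrix.single b 1 (1 : A))) =
        Matrix.single (0 : Fin 2) (0 : Fin 2) (F 0 0 a b) + Matrix.single (1 : Fin 2) (1 : Fin 2) (F 0 0 a b) := by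
      rw [e1, e2, e3, e4, add_zero, zero_add]
    refine (congrArg (fun Z => c • Z) e5).trans ?_
    ext i j
    fin_cases i <;> fin_cases j <;> simp [hc]
  have hUV : U * V = 1 := mul_eq_one_comm.mp hVU
  refine ⟨U, V, hUV, hVU, ?_⟩
  -- the intertwining relation on the matrix units
  have hE : ∀ i j, F i j * U = U * Matrix.single i j (1 : A) := by
    intro i j
    have h1 : F i j * U = F i 0 * Matrix.single b j (1 : A) := by
      rw [hU, Matrix.mul_add, ← Matrix.mul_assoc, ← Matrix.mul_assoc, hFF i j 0 0, hFF i j 1 0]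
      fin_cases j
      · simp
      · simp
    have h2 : U * Matrix.single i j (1 : A) = F i 0 * Matrix.single b j (1 : A) := by
      rw [hU, Matrix.add_mul, Matrix.mul_assoc, Matrix.mul_assoc]
      fin_cases i
      · simp [Matrix.single_mul_single_same, Matrix.single_mul_single_of_ne]
      · simp [Matrix.single_mul_single_same, Matrix.single_mul_single_of_ne]
    rw [h1, h2]
  intro X
  have hX : X = ∑ i : Fin 2, ∑ j : Fin 2, X i j • Matrix.single i j (1 : A) := by
    conv_lhs => rw [Matrix.matrix_eq_sum_single X]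
    refine Finset.sum_congr rfl fun i _ => Finset.sum_congr rfl fun j _ => ?_
    rw [Matrix.smul_single, smul_eq_mul, mul_one]
  rw [hX]
  simp only [map_sum, map_smul, Finset.sum_mul, Finset.mul_sum, Matrix.smul_mul, Matrix.mul_smul]
  refine Finset.sum_congr rfl fun i _ => Finset.sum_congr rfl fun j _ => ?_
  rw [hE i j]

end SkolemNoether

section Galois

variable {A : Type} [CommRing A] [IsLocalRing A]

local notation "Γℚ" => (AlgebraicClosure ℚ ≃ₐ[ℚ] AlgebraicClosure ℚ)

/-- matrix form of Carayol's theorem -/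
theorem exists_conj_of_trace_eq_of_span (r₁ r₂ : Γℚ →* Matrix (Fin 2) (Fin 2) A)
    (h₁ : Submodule.span A (Set.range r₁) = ⊤) (h₂ : Submodule.span A (Set.range r₂) = ⊤)
    (htr : ∀ g, (r₁ g).trace = (r₂ g).trace) :
    ∃ U U' : Matrix (Fin 2) (Fin 2) A, U * U' = 1 ∧ U' * U = 1 ∧ ∀ g, U * r₁ g = r₂ g * U := by
  obtain ⟨Φ, hΦ, hmul, hone⟩ := exists_algHom_of_trace_eq r₁ r₂ h₁ h₂ htr
  obtain ⟨U, U', h1, h2, h3⟩ := exists_conj_of_mulHom Φ hmul hone
  refine ⟨U, U', h1, h2, fun g => ?_⟩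
  rw [← hΦ g, h3]

/-- **Carayol's theorem**: two residually absolutely irreducible representations over a local ring
with the same trace function are equivalent. -/
theorem isEquiv_of_trace_eq (ρ₁ ρ₂ : GaloisRepAdic A)
    (h₁ : ρ₁.residual.IsAbsolutelyIrreducible) (h₂ : ρ₂.residual.IsAbsolutelyIrreducible)
    (htr : ∀ g, ρ₁.trace g = ρ₂.trace g) : ρ₁.IsEquiv ρ₂ := by
  let b₁ : Module.Basis (Fin 2) A ρ₁.V := Module.finBasisOfFinrankEq A ρ₁.V ρ₁.finrank_eq
  let b₂ : Module.Basis (Fin 2) A ρ₂.V := Module.finBasisOfFinrankEq A ρ₂.V ρ₂.finrank_eq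
  have ht : ∀ (ρ : GaloisRepAdic A) (b : Module.Basis (Fin 2) A ρ.V) (g : Γℚ),
      ρ.trace g = (matOf ρ b g).trace := fun ρ b g => LinearMap.trace_eq_matrix_trace A b (ρ.ρ g)
  obtain ⟨U, U', h1, h2, h3⟩ := exists_conj_of_trace_eq_of_span (matOfHom ρ₁ b₁) (matOfHom ρ₂ b₂)
    (Fermat.Agent.S43lib.Loc.span_range_matOf_eq_top ρ₁ h₁ b₁)
    (Fermat.Agent.S43lib.Loc.span_range_matOf_eq_top ρ₂ h₂ b₂)
    (fun g => by rw [matOfHom_apply, matOfHom_apply, ← ht, ← ht, htr])
  exact isEquiv_of_conj ρ₁ ρ₂ b₁ b₂ U U' h1 h2 h3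

end Galois

end Fermat.Agent.S59lib.Min
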