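import Mathlib
import Fermat.Agent.S59lib.Min.Out
import Fermat.Agent.S59lib.Hub.EmptyT

/-!
# Project I / MIN : the minimal `R = T` theorem for the hub at `T = ∅`

`hub_min` : for the hub core `sideCore Sg hH d hd hgood0 β₀` at `T = ∅` (the output of
`Hub.exists_sideLevels_empty`), given JOINS (`hjoin`, the shape of `RT.HasJoins`), monotonicity of the type
(`hmono`) and unramifiedness outside the type (`hunr`):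

* the base bridge `β₀ : T_∅ → 𝕋_∅` is bijective, the Hecke module `M0 Sg` is free over `T0 Sg`, and
  `T_∅ = (Sg.F Sg.S _).R` is a complete intersection;
* **(MIN-out)** in the shape of `RT.MinOut`: every finite trace ring of type `𝒟 (Smin ∪ ∅)` over the base point
  `(T_∅, ρ_∅, π₀)` has `length Φ ≤ length 𝒪 ⧸ η_{π₀}`.
-/

set_option autoImplicit false
set_option linter.unusedSectionVars false
set_option linter.unusedVariables false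
set_option linter.style.haveILetI false

noncomputable section

namespace Fermat.Agent.S59lib.Min

open Fermat.Agent.S43lib.Mod4 Fermat.Agent.S43lib.Mod4.Hub

open IsLocalRing Polynomial CuspForm Fermat.Agent.S43lib.B3 Fermat.Agent.S43lib.Loc
  Fermat.Agent.S56lib.Main Fermat.Agent.S43lib.Mod4.HO Fermat.Agent.S56lib.TW
  Fermat.Agent.S56lib.TWSel Fermat.Agent.S59lib.Hub Fermat.Agent.TeamA.Rep

/-- `G_ℚ` -/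
local notation "GQ" => (AlgebraicClosure ℚ ≃ₐ[ℚ] AlgebraicClosure ℚ)
local notation "Qb" => AlgebraicClosure ℚ

attribute [local instance] lamAlgebraQ lamAlgebra0

variable {P : Ctx} (Sg : SideGal P (∅ : Finset ℕ))

theorem primesIn_empty : primesIn (∅ : Finset ℕ) = ∅ := by
  unfold primesIn
  refine Finset.eq_empty_of_forall_notMem fun v hv => ?_
  rw [Finset.mem_subtype] at hv
  exact absurd hv (Finset.notMem_empty _)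

/-- **MIN for the hub at `T = ∅`.** -/
theorem hub_min (hH : HubHyp Sg) (d : ℕ) (hd : 0 < d) (hgood0 : (H0 Sg).Good P.p)
    (β₀ : (Sg.F Sg.S (Sg.hgoodS hH.hT)).R →ₐ[Sg.𝒪] T0 Sg) (hβ₀s : Function.Surjective β₀)
    (hΛ : Function.Bijective (algebraMap Sg.𝒪 (Lam P ∅ Sg.𝒪)))
    (hlev : ∀ (r n : ℕ) (qv : Fin r → ℕ), Function.Injective qv →
      ∀ (hqv : ∀ i, (qv i).Prime ∧ qv i ∉ Sg.SA ∧ P.p ^ (n + 1) ∣ qv i - 1),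
      (∀ i, ∀ A : ValuationSubring Qb, A.LiesOverPrime (qv i) →
        ∀ φ : GQ, A.IsFrobeniusAt φ (qv i) →
          ∃ α β : ResidueField Sg.𝒪, α ≠ β ∧
            LinearMap.charpoly (Sg.ρbar.ρ φ) = (X - C α) * (X - C β)) →
      Nonempty (SideLevel (sideCore Sg hH d hd hgood0 β₀) r n qv (fun i => (hqv i).1)
        (Sg.hgoodQ hH.hT r qv fun i => ⟨(hqv i).1, (hqv i).2.1⟩)))
    (hjoin : ∀ (S' : Finset ℕ), Sg.good S' →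
      ∀ (A B : TrRingG Sg.𝒪 Sg.ρbar P.p (P.𝒟 Sg.𝒪 S')) [Module.Finite Sg.𝒪 A.R]
        [Module.Finite Sg.𝒪 B.R],
        ∃ (J : TrRingG Sg.𝒪 Sg.ρbar P.p (P.𝒟 Sg.𝒪 S')) (_ : Module.Finite Sg.𝒪 J.R)
          (prA : J.R →ₐ[Sg.𝒪] A.R) (prB : J.R →ₐ[Sg.𝒪] B.R)
          (hA : IsLocalHom (prA : J.R →+* A.R)) (hB : IsLocalHom (prB : J.R →+* B.R)),
          Function.Surjective prA ∧ Function.Surjective prB ∧
          (J.ρ.baseChangeAlong (prA : J.R →+* A.R) hA).IsEquiv A.ρ ∧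
          (J.ρ.baseChangeAlong (prB : J.R →+* B.R) hB).IsEquiv B.ρ)
    (hmono : ∀ (S' : Finset ℕ), Sg.good S' → ∀ {A : Type} [CommRing A] [IsLocalRing A]
      [Algebra Sg.𝒪 A] (ρ : GaloisRepAdic A), P.𝒟 Sg.𝒪 Sg.S ρ → P.𝒟 Sg.𝒪 S' ρ)
    (hunr : ∀ {A : Type} [CommRing A] [IsLocalRing A] [Algebra Sg.𝒪 A] (ρ : GaloisRepAdic A),
      P.𝒟 Sg.𝒪 Sg.S ρ → ∀ q : ℕ, q.Prime → q ∉ Sg.SA → ρ.IsUnramifiedAt q) :
    Function.Bijective β₀ ∧ Module.Free (T0 Sg) (M0 Sg) ∧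
      NumCrit.IsCI Sg.𝒪 (Sg.F Sg.S (Sg.hgoodS hH.hT)).R ∧
      ∀ [Module.IsTorsionFree Sg.𝒪 (Sg.F Sg.S (Sg.hgoodS hH.hT)).R]
        (π₀ : (Sg.F Sg.S (Sg.hgoodS hH.hT)).R →ₐ[Sg.𝒪] Sg.𝒪) {ϖ : Sg.𝒪}, Irreducible ϖ →
        Module.length Sg.𝒪
          (RingHom.ker (π₀ : (Sg.F Sg.S (Sg.hgoodS hH.hT)).R →+* Sg.𝒪)).Cotangent ≠ ⊤ →
        ∀ (R₀ : TrRingG Sg.𝒪 Sg.ρbar P.p (P.𝒟 Sg.𝒪 Sg.S)) [Module.Finite Sg.𝒪 R₀.R]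
          (μ : R₀.R →ₐ[Sg.𝒪] (Sg.F Sg.S (Sg.hgoodS hH.hT)).R)
          (hμ : IsLocalHom (μ : R₀.R →+* (Sg.F Sg.S (Sg.hgoodS hH.hT)).R)),
          (R₀.ρ.baseChangeAlong (μ : R₀.R →+* (Sg.F Sg.S (Sg.hgoodS hH.hT)).R) hμ).IsEquiv
            (Sg.F Sg.S (Sg.hgoodS hH.hT)).ρ →
          Module.length Sg.𝒪
              (RingHom.ker ((π₀.comp μ : R₀.R →ₐ[Sg.𝒪] Sg.𝒪) : R₀.R →+* Sg.𝒪)).Cotangent ≤
            Module.length Sg.𝒪 (Sg.𝒪 ⧸ NumCrit.congIdeal π₀) := by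
  classical
  haveI := hH.nontriv
  set Sb : SideCore := sideCore Sg hH d hd hgood0 β₀ with hSb
  have hT : primesIn Sb.T = ∅ := primesIn_empty
  have hΛs : Function.Surjective (algebraMap Sb.𝒪 Sb.Λ) := hΛ.2
  have hβ₀C : ∀ c : Sb.𝒪, Sb.β₀ (algebraMap Sb.𝒪 _ c) =
      algebraMap Sb.Λ Sb.T0 (algebraMap Sb.𝒪 Sb.Λ c) := by
    intro c
    haveI := isScalarTower_0 (H0 Sg) (J₀' := Set.univ)
    show β₀ (algebraMap Sg.𝒪 _ c) =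
      algebraMap (Lam P ∅ Sg.𝒪) (T0 Sg) (algebraMap Sg.𝒪 (Lam P ∅ Sg.𝒪) c)
    rw [AlgHom.commutes, ← IsScalarTower.algebraMap_apply]
  have hfinF : ∀ (S' : Finset ℕ) (h : Sb.good S'), Module.Finite Sb.𝒪 (Sb.F S' h).R := by
    intro S' h
    show Module.Finite Sg.𝒪 (heckeLocal (lvlTw P S') (↑(S' ∪ P.Aux) : Set ℕ) Sg.𝒪 (Sg.D.θ S' h))
    infer_instance
  haveI : Nontrivial Sb.M0 := hH.nontriv
  haveI : Module.Finite Sb.𝒪 (Sb.F (Sb.Smin ∪ Sb.T) Sb.hgoodS).R := hfinF _ _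
  -- the base: `R0 := T_∅`
  obtain ⟨-, hβ₀b, hfree, hCI, -⟩ := min_hub Sb hT hΛs hβ₀C hβ₀s hlev hfinF hjoin
    (Sb.F (Sb.Smin ∪ Sb.T) Sb.hgoodS)
    (fun S' h => hmono S' h _ (Sb.F (Sb.Smin ∪ Sb.T) Sb.hgoodS).isType)
    (hunr _ (Sb.F (Sb.Smin ∪ Sb.T) Sb.hgoodS).isType)
    (AlgHom.id Sb.𝒪 _) (fun σ => rfl)
  refine ⟨hβ₀b, hfree, hCI, ?_⟩
  intro _ π₀ ϖ hϖ hfin R₀ _ μ hμ hE
  exact min_out Sb hT hΛs hβ₀C hβ₀s hlev hfinF hjoin hmono hunr π₀ hϖ hfin R₀ μ hμ hE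

/-- **MIN for the hub at `T = ∅`, existential form**: `Hub.exists_sideLevels_empty` together with `hub_min`. -/
theorem exists_hub_min (P : Ctx) {N : ℕ} (hN : N ∣ M₀ P ∅) (hmod : P.IsMod N) :
    ∃ (Sg : SideGal P ∅) (hH : HubHyp Sg) (d : ℕ) (hd : 0 < d) (hgood0 : (H0 Sg).Good P.p)
      (β₀ : (Sg.F Sg.S (Sg.hgoodS hH.hT)).R →ₐ[Sg.𝒪] T0 Sg),
      (∀ (ℓ : ℕ) (hℓ : ℓ.Prime) (hℓN : ¬ ℓ ∣ lvlTw P Sg.S)
        (hℓS : ℓ ∉ (↑(Sg.S ∪ P.Aux) : Set ℕ)) (hi : ℓ.Prime ∧ ¬ ℓ ∣ M₀ P ∅ ∧ ℓ ≠ P.p),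
        β₀ (heckeLocal.π _ _ _ _ (heckeAlgebra.T hℓ hℓN hℓS)) =
          (H0 Sg).tX Set.univ (Sum.inl ⟨ℓ, hi⟩) (Set.mem_univ _)) ∧
      ((∀ (S' : Finset ℕ), Sg.good S' →
        ∀ (A B : TrRingG Sg.𝒪 Sg.ρbar P.p (P.𝒟 Sg.𝒪 S')) [Module.Finite Sg.𝒪 A.R]
          [Module.Finite Sg.𝒪 B.R],
          ∃ (J : TrRingG Sg.𝒪 Sg.ρbar P.p (P.𝒟 Sg.𝒪 S')) (_ : Module.Finite Sg.𝒪 J.R)
            (prA : J.R →ₐ[Sg.𝒪] A.R) (prB : J.R →ₐ[Sg.𝒪] B.R)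
            (hA : IsLocalHom (prA : J.R →+* A.R)) (hB : IsLocalHom (prB : J.R →+* B.R)),
            Function.Surjective prA ∧ Function.Surjective prB ∧
            (J.ρ.baseChangeAlong (prA : J.R →+* A.R) hA).IsEquiv A.ρ ∧
            (J.ρ.baseChangeAlong (prB : J.R →+* B.R) hB).IsEquiv B.ρ) →
      (∀ (S' : Finset ℕ), Sg.good S' → ∀ {A : Type} [CommRing A] [IsLocalRing A]
        [Algebra Sg.𝒪 A] (ρ : GaloisRepAdic A), P.𝒟 Sg.𝒪 Sg.S ρ → P.𝒟 Sg.𝒪 S' ρ) →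
      (∀ {A : Type} [CommRing A] [IsLocalRing A] [Algebra Sg.𝒪 A] (ρ : GaloisRepAdic A),
        P.𝒟 Sg.𝒪 Sg.S ρ → ∀ q : ℕ, q.Prime → q ∉ Sg.SA → ρ.IsUnramifiedAt q) →
      Function.Bijective β₀ ∧ Module.Free (T0 Sg) (M0 Sg) ∧
        NumCrit.IsCI Sg.𝒪 (Sg.F Sg.S (Sg.hgoodS hH.hT)).R ∧
        ∀ [Module.IsTorsionFree Sg.𝒪 (Sg.F Sg.S (Sg.hgoodS hH.hT)).R]
          (π₀ : (Sg.F Sg.S (Sg.hgoodS hH.hT)).R →ₐ[Sg.𝒪] Sg.𝒪) {ϖ : Sg.𝒪}, Irreducible ϖ →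
          Module.length Sg.𝒪
            (RingHom.ker (π₀ : (Sg.F Sg.S (Sg.hgoodS hH.hT)).R →+* Sg.𝒪)).Cotangent ≠ ⊤ →
          ∀ (R₀ : TrRingG Sg.𝒪 Sg.ρbar P.p (P.𝒟 Sg.𝒪 Sg.S)) [Module.Finite Sg.𝒪 R₀.R]
            (μ : R₀.R →ₐ[Sg.𝒪] (Sg.F Sg.S (Sg.hgoodS hH.hT)).R)
            (hμ : IsLocalHom (μ : R₀.R →+* (Sg.F Sg.S (Sg.hgoodS hH.hT)).R)),
            (R₀.ρ.baseChangeAlong (μ : R₀.R →+* (Sg.F Sg.S (Sg.hgoodS hH.hT)).R) hμ).IsEquiv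
              (Sg.F Sg.S (Sg.hgoodS hH.hT)).ρ →
            Module.length Sg.𝒪
                (RingHom.ker ((π₀.comp μ : R₀.R →ₐ[Sg.𝒪] Sg.𝒪) : R₀.R →+* Sg.𝒪)).Cotangent ≤
              Module.length Sg.𝒪 (Sg.𝒪 ⧸ NumCrit.congIdeal π₀)) := by
  obtain ⟨Sg, hH, d, hd, hgood0, β₀, hβ₀s, hΛ, hTℓ, hlev⟩ := exists_sideLevels_empty P hN hmod
  exact ⟨Sg, hH, d, hd, hgood0, β₀, hTℓ, fun hjoin hmono hunr =>
    hub_min Sg hH d hd hgood0 β₀ hβ₀s hΛ hlev hjoin hmono hunr⟩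

end Fermat.Agent.S59lib.Min
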